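import Fermat.Agent.SS.GM2.Defs

/-!
# SS / GM2 : Frobenius identities in `k((q))`        (TASK `SS/GM2-Frob`)

`k` a field of characteristic `ℓ`.  `V = V k ℓ : f(q) ↦ f(q^ℓ)`, `σ = coeffMap (frobenius k ℓ)`.
Basic identity: `ES.pow_char_eq : x ^ ℓ = Vq k ℓ (coeffMap (frobenius k ℓ) x)` (`Vq = V = qExpand`).
* `pow_pow_eq` : induction on `j` (`V` commutes with `coeffMap`: `ES.coeffMap_Vq`; `coeffMap_coeffMap`).
* `V_castS` : `σ (castS k xh) = castS k xh` (`Crux.GM.coeffMap_castS`).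
* `iterate_V_V_eq_pow` : `k` finite, `card k = ℓ^f` (`FiniteField.card`), `x^(ℓ^f) = x` (`FiniteField.pow_card`), so
  `iterateFrobenius k ℓ (2 f) = id`.
* `V_mem_full` : `k` perfect; `a = σ a'` with `a' = coeffMap (frobeniusEquiv k ℓ).symm a ∈ F_k(M)` (`S28.coeffMap_mem_full`), so
  `V a = V (σ a') = a' ^ ℓ ∈ F_k(M)`.
* `red_u`, `red_u'` : `ū = Ȳ - J̄^ℓ = 0` by `V_castS` (`V ℤ (M*ℓ) (J ℤ) = V ℤ ℓ (V ℤ M (J ℤ))`: `qExpand_qExpand`, `qExpand_congr`,
  `coeffMap_qExpand`); `ū' = J̄ - Ȳ^ℓ ≠ 0`: orders `-M ≠ -M ℓ²` (`Crux.GM.order_VJ`, `Crux.GM.order_castS`).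
-/

set_option autoImplicit false
set_option linter.unusedSectionVars false

open Polynomial ModularCurve

namespace Fermat.Agent.SS.GM2

open Fermat.Agent.S28 (V J evAt)
open Fermat.Agent.Crux.GM (castS)

variable (k : Type*) [Field k] (ℓ : ℕ) [Fact ℓ.Prime] [NeZero ℓ] [CharP k ℓ]

theorem pow_pow_eq (j : ℕ) (a : LaurentSeries k) :
    a ^ (ℓ ^ j) = (V k ℓ)^[j] (coeffMap (iterateFrobenius k ℓ j) a) := by
  induction j generalizing a with
  | zero =>
    rw [pow_zero, pow_one, Function.iterate_zero, id, iterateFrobenius_zero, coeffMap_id]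
  | succ j ih =>
    have h1 : (iterateFrobenius k ℓ j).comp (frobenius k ℓ) = iterateFrobenius k ℓ (j + 1) := by
      ext x
      rw [RingHom.comp_apply, iterateFrobenius_def, iterateFrobenius_def, frobenius_def, ← pow_mul,
        pow_succ']
    rw [pow_succ', pow_mul, Fermat.Agent.ES.pow_char_eq ℓ a, ih, Fermat.Agent.ES.coeffMap_Vq,
      coeffMap_coeffMap, h1, Function.iterate_succ_apply]

/-- the form needed by `BridgeData.exists_sfData` (`hr`). -/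
theorem iterate_V_V_frob (ν : ℕ) (a : LaurentSeries k) :
    ((V k ℓ : LaurentSeries k → LaurentSeries k) ∘ (V k ℓ))^[ν]
      (coeffMap (iterateFrobenius k ℓ (2 * ν)) a) = a ^ (ℓ ^ (2 * ν)) := by
  rw [pow_pow_eq, Function.iterate_mul]
  rfl

/-- the form needed by `BridgeData.frob`. -/
theorem exists_iterate_V_V_eq_pow [Finite k] : ∃ f Q₀ : ℕ, 1 < Q₀ ∧ ∀ a : LaurentSeries k,
    ((V k ℓ : LaurentSeries k → LaurentSeries k) ∘ (V k ℓ))^[f] a = a ^ Q₀ := by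
  have : Fintype k := Fintype.ofFinite k
  obtain ⟨n, -, hn⟩ := FiniteField.card k ℓ
  have hℓ : 1 < ℓ := (Fact.out : ℓ.Prime).one_lt
  refine ⟨n, ℓ ^ (2 * (n : ℕ)), Nat.one_lt_pow (by have := n.pos; omega) hℓ, fun a => ?_⟩
  have h1 : iterateFrobenius k ℓ (2 * (n : ℕ)) = RingHom.id k := by
    ext x
    rw [iterateFrobenius_def, RingHom.id_apply, two_mul, pow_add, pow_mul, ← hn,
      FiniteField.pow_card, FiniteField.pow_card]
  have h2 := iterate_V_V_frob k ℓ n a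
  rw [h1, coeffMap_id] at h2
  exact h2

theorem V_castS (xh : LaurentSeries ℤ) : V k ℓ (castS k xh) = castS k xh ^ ℓ := by
  rw [Fermat.Agent.ES.pow_char_eq, Fermat.Agent.Crux.GM.coeffMap_castS]

theorem V_coeffMap_comm (σ : k →+* k) (a : LaurentSeries k) :
    V k ℓ (coeffMap σ a) = coeffMap σ (V k ℓ a) := by
  exact (Fermat.Agent.ES.coeffMap_Vq σ ℓ a).symm

theorem V_mem_full [PerfectField k] (M : ℕ) [NeZero M] {a : LaurentSeries k}
    (ha : a ∈ modularFunctionFieldFullC k M) : V k ℓ a ∈ modularFunctionFieldFullC k M := by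
  have h1 : coeffMap ((frobeniusEquiv k ℓ).symm : k →+* k) a ∈ modularFunctionFieldFullC k M :=
    Fermat.Agent.S28.coeffMap_mem_full _ M ha
  have h2 : (frobenius k ℓ).comp ((frobeniusEquiv k ℓ).symm : k →+* k) = RingHom.id k := by
    ext x
    simp
  have h3 : V k ℓ a = (coeffMap ((frobeniusEquiv k ℓ).symm : k →+* k) a) ^ ℓ := by
    rw [Fermat.Agent.ES.pow_char_eq, coeffMap_coeffMap, h2, coeffMap_id]
  rw [h3]
  exact pow_mem h1 ℓ

/-- `V_ℓ` preserves integrality over `k[t]` when `V_ℓ t = t^ℓ`. -/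
theorem V_isIntegralElem {t a : LaurentSeries k} (ht : V k ℓ t = t ^ ℓ)
    (ha : (evAt t).IsIntegralElem a) : (evAt t).IsIntegralElem (V k ℓ a) := by
  obtain ⟨P, hP, h0⟩ := ha
  have h1 : (V k ℓ).comp (evAt t) = (evAt t).comp (expand k ℓ : k[X] →+* k[X]) := by
    refine Polynomial.ringHom_ext (fun c => ?_) ?_
    · simp
    · simp [ht]
  refine ⟨P.map (expand k ℓ : k[X] →+* k[X]), hP.map _, ?_⟩
  rw [eval₂_map, ← h1, ← hom_eval₂, h0, map_zero]

/-- coefficientwise ring endomorphisms preserve integrality over `k[t]` when they fix `t`. -/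
theorem coeffMap_isIntegralElem (σ : k →+* k) {t a : LaurentSeries k} (ht : coeffMap σ t = t)
    (ha : (evAt t).IsIntegralElem a) : (evAt t).IsIntegralElem (coeffMap σ a) := by
  obtain ⟨P, hP, h0⟩ := ha
  have h1 : (coeffMap σ).comp (evAt t) = (evAt t).comp (mapRingHom σ) := by
    rw [Fermat.Agent.S28.Build.coeffMap_comp_evAt, ht]
  refine ⟨P.map (mapRingHom σ), hP.map _, ?_⟩
  rw [eval₂_map, ← h1, ← hom_eval₂, h0, map_zero]

variable (M : ℕ) [NeZero M]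

/-- `𝔲 = Y - J^ℓ ∈ ℤ((q))`. -/
noncomputable def uh (M ℓ : ℕ) [NeZero M] [NeZero ℓ] : LaurentSeries ℤ := Jh (M * ℓ) - Jh M ^ ℓ

/-- `𝔲' = J - Y^ℓ ∈ ℤ((q))`. -/
noncomputable def uh' (M ℓ : ℕ) [NeZero M] [NeZero ℓ] : LaurentSeries ℤ := Jh M - Jh (M * ℓ) ^ ℓ

theorem castS_Jh_mul : castS k (Jh (M * ℓ)) = castS k (Jh M) ^ ℓ := by
  have h1 : Jh (M * ℓ) = V ℤ ℓ (Jh M) := by
    show qExpand ℤ (M * ℓ) (J ℤ) = qExpand ℤ ℓ (qExpand ℤ M (J ℤ))
    rw [qExpand_qExpand]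
    exact qExpand_congr (mul_comm M ℓ) _
  rw [h1, ← V_castS]
  exact Fermat.Agent.ES.coeffMap_Vq (Int.castRingHom k) ℓ (Jh M)

theorem castS_uh : castS k (uh M ℓ) = 0 := by
  have h1 : castS k (uh M ℓ) = castS k (Jh (M * ℓ)) - castS k (Jh M) ^ ℓ := by
    rw [uh, castS, map_sub, map_pow]
  rw [h1, castS_Jh_mul, sub_self]

theorem castS_uh'_ne_zero : castS k (uh' M ℓ) ≠ 0 := by
  intro h0
  have h2 : castS k (uh' M ℓ) = castS k (Jh M) - castS k (Jh (M * ℓ)) ^ ℓ := by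
    rw [uh', castS, map_sub, map_pow]
  rw [h2, castS_Jh_mul, sub_eq_zero] at h0
  have hlc : (Jh M).leadingCoeff = 1 := by
    rw [HahnSeries.leadingCoeff_eq, Fermat.Agent.Crux.GM.CoordJ.order_VJ,
      Fermat.Agent.Crux.GM.CoordJ.coeff_VJ_self]
  have hord : (castS k (Jh M)).order = -(M : ℤ) := by
    rw [Fermat.Agent.Crux.GM.order_castS _ hlc, Fermat.Agent.Crux.GM.CoordJ.order_VJ]
  have h1 := congrArg HahnSeries.order h0
  rw [HahnSeries.order_pow, HahnSeries.order_pow, hord] at h1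
  have hM : (0 : ℤ) < M := by exact_mod_cast Nat.pos_of_ne_zero (NeZero.ne M)
  have hℓ : (2 : ℤ) ≤ ℓ := by exact_mod_cast (Fact.out : ℓ.Prime).two_le
  simp only [nsmul_eq_mul] at h1
  have h3 : (M : ℤ) * ((ℓ : ℤ) * ℓ - 1) = 0 := by linear_combination h1
  rcases mul_eq_zero.mp h3 with h4 | h4
  · omega
  · nlinarith

theorem castS_Xh : castS k (Xh M ℓ) = castS k (Jh M) ^ (ℓ + 1) := by
  have h1 : castS k (Xh M ℓ) = castS k (Jh M) * castS k (Jh (M * ℓ)) := by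
    rw [Xh, castS, map_mul]
  rw [h1, castS_Jh_mul, pow_succ']

end Fermat.Agent.SS.GM2
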