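import Fermat.Agent.SS.GM2.Defs
import Fermat.Agent.SS.Formal.AL
import Fermat.Agent.SS.Formal.Red
import Fermat.Agent.SS.GM2.Desc.Renorm
import Fermat.Agent.SS.GM2.Desc.Norm

/-!
# SS / GM2 : the descent `(ℚ̄, A) → (K₀, A₀)` :  `CoreK2 M q m ⟹ Crux2 M q m`
(MODULE `SS/GM2-Descent`; templates: `Crux/Descent.lean`, `Crux/DescentAux.lean`, `Crux/Dvr.lean`.)

DATA of `Crux2`: `A ∣ q`, `w` (`IsAL M q w`), `τ ∈ D_A` trivial on `𝔽_{q²} ⊆ k_A`, `e` with `τ ζ = ζ^e` on `μ_m`,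
`u ∈ Dm N m` (`N = M q`), `RedConst A u`, `RedConst A (w u)`.   GOAL: `τ u / u^e ∈ (F_N^×)^m`.

STEP 1 (renormalisation, `exists_renorm`).  `RedConst` gives `c, c' ∈ ℚ̄^×` with `c u ≡ 1`, `c' w(u) ≡ 1` mod `v_∞`.
  Put `𝔲 = Y - J^q`, `𝔲' = w 𝔲 = J - Y^q` (`J = j(q^M)`, `Y = j(q^{Mq}) = w J`).  `𝔲 = q · (series in ℤ((t)))`
  (`V_q f ≡ f^q mod q` for `f ∈ ℤ((t))`), `𝔲'` and `𝔲 + 𝔲'` have leading coefficient `-1`.
  `ε_n := 𝔲'^n / (𝔲^n + 𝔲'^n)`:  `ε_n - 1 = -𝔲^n/(𝔲^n + 𝔲'^n) ∈ q^n V`, `w ε_n = 1 - ε_n`.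
  For `α β ∈ ℚ̄^×` and `n` large (`|q^n β/α| < 1`, `|q^n α/β| < 1`) `t := α ε_n + β (1 - ε_n)` satisfies
  `RedTo (t/α) 1`, `RedTo (w t/β) 1`.  Take `α^m = c`, `β^m = c'`: `u' := u t^m` has `RedTo u' 1`, `RedTo (w u') 1`,
  the same class in `Kum`, and `u' ∈ Dm`.
STEP 2 (`exists_invK`, file `GM2/InvK.lean`).  Over `ℚ̄`, for `y = X` and `y = 1/X` (`X = J Y`): `B =` integral
  closure of `ℚ̄[y]` in `F_N` is Dedekind (`S24/FF/PlacePrime.lean`: `Sy`, `placeOf`, `placeOf_ord`); all `v_𝔭(u')` are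
  divisible by `m`, so `(u') = 𝔞^m`, and `1 ∈ 𝔞⁻¹ 𝔞` gives `a_i ∈ 𝔞⁻¹`, `b_i ∈ 𝔞`, `∑ a_i b_i = 1`,
  `a_i^m u' ∈ B`, `b_i^m u'⁻¹ ∈ B`.
STEP 3 (choice of `K₀`).  `K₀ ⊆ ℚ̄` finite GALOIS over `ℚ` (normal closure) containing: the coefficients of
  polynomial fractions (`S24.exists_phiF_div`) representing `u'`, `a_i`, `b_i` (both charts), the numerators and
  denominators `y₁ y₂` of the two `RedTo`; `μ_m`; `μ_{q²-1}`; an `m`-th root of the leading coefficient of `u'`.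
  `A₀ = A ∩ K₀` is a DVR (`Crux.isDiscreteValuationRing_of_numberField`), `k₀` finite, `k₀ ⊆ k_A`.
  Integrality over `ℚ̄[y]` ⟹ integrality over `K₀[y]` (`ℚ̄[y]` is integral over `K₀[y]`, transitivity; the monic
  equation over `K₀[y]` holds in `K₀((t))` because `coeffMap` is injective).
STEP 4 (`τ`).  `τ K₀ = K₀`, `τ A₀ = A₀`: `τK`, `τA`.  `Gal(k₀/𝔽_q)` is generated by Frobenius: `τ̄ = Frob^j`; `τ̄ = 1` on
  `𝔽_{q²} ⊆ k₀` so `j = 2ν`; adding multiples of `2[k₀:𝔽_q]` we may take `q^(2ν) ≥ e`, `ν > 0`.  `ζ̄^(q^(2ν)) = ζ̄^e` with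
  `ζ̄` primitive of order `m` in `k₀` (`q ∤ m`), so `q^(2ν) = e + m g`.
STEP 5 (`wK`).  `w` preserves `F_{K₀}(N)` (`adjoin_induction`; generators go to generators): `exists_wK`.
STEP 6.  `v`: `m ∣ ord_t u'` (`Crux.GM.dvd_order_coe`), leading coefficient of `τ u'/u'^e` is `(τ d/d^e)^m`:
  `Crux.GM.exists_pow_eq_laurent`.  `CoreK2` gives `v ∈ F_{K₀}(N)`; its image `h ∈ F_N` satisfies `h^m = τ u'/u'^e`.
-/

set_option autoImplicit false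

open AlgebraicCurve ModularCurve

namespace Fermat.Agent.SS.GM2

open Fermat.Agent.ES

/-- **The descent.** -/
theorem crux2_of_coreK2 (M q m : ℕ) [NeZero M] [NeZero q] (hq : q.Prime) (hqM : ¬ q ∣ M)
    (hqm : ¬ q ∣ m) (h : CoreK2 M q m) : Crux2 M q m := by
  have hm : 0 < m := Nat.pos_of_ne_zero (by rintro rfl; exact hqm (dvd_zero q))
  intro A hA w hw τ hτ e he u h1 h2
  obtain ⟨t, ht0, r1, r2⟩ := exists_renorm M q m hq hqM hm A hA w hw _ h1 h2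
  have hu0 : ((u : (FF (M * q))ˣ) : FF (M * q)) ≠ 0 := Units.ne_zero _
  have hW0 : ((u : (FF (M * q))ˣ) : FF (M * q)) * t ^ m ≠ 0 :=
    mul_ne_zero hu0 (pow_ne_zero _ ht0)
  have hdiv : ∀ P : Place Qb (FF (M * q)),
      (m : ℤ) ∣ P.ord (((u : (FF (M * q))ˣ) : FF (M * q)) * t ^ m) := by
    intro P
    rw [P.ord_mul hu0 (pow_ne_zero _ ht0), S24.FF.ord_pow]
    exact dvd_add (u.2 P) (dvd_mul_right _ _)
  obtain ⟨h₀, hh₀⟩ :=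
    exists_root_of_redTo M q m hq hqm hm h A hA w hw τ hτ e he _ hW0 hdiv r1 r2
  rw [galKum_mk, ← Kum.mk_pow, Kum.mk_eq_mk_iff]
  have hgt : galF (M * q) (τ : GQ) t ≠ 0 := (map_ne_zero _).mpr ht0
  have hgu : galF (M * q) (τ : GQ) ((u : (FF (M * q))ˣ) : FF (M * q)) ≠ 0 :=
    (map_ne_zero _).mpr hu0
  have key : (h₀ * t ^ e / galF (M * q) (τ : GQ) t) ^ m
      = galF (M * q) (τ : GQ) ((u : (FF (M * q))ˣ) : FF (M * q))
        * (((u : (FF (M * q))ˣ) : FF (M * q)) ^ e)⁻¹ := by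
    rw [div_pow, mul_pow, hh₀, map_mul, map_pow]
    field_simp
    ring
  have hne : h₀ * t ^ e / galF (M * q) (τ : GQ) t ≠ 0 := by
    intro h0
    rw [h0, zero_pow hm.ne'] at key
    exact mul_ne_zero hgu (inv_ne_zero (pow_ne_zero _ hu0)) key.symm
  refine ⟨Units.mk0 _ hne, Units.ext ?_⟩
  rw [Units.val_pow_eq_pow_val, Units.val_mk0, key, Units.val_mul, Units.val_inv_eq_inv_val]
  rfl

end Fermat.Agent.SS.GM2
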