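import Fermat.Agent.SS.GM2.Defs
import Fermat.Agent.SS.Formal.AL
import Fermat.Agent.Crux.LevelDescent

/-!
# SS / GM2 : level raising for `Crux2`     (TASK `SS/GM2-LevelRaise`)

`Crux2 (p M) q m ⟹ Crux2 M q m` when `[F_{pMq} : F_{Mq}] = p + 1` is prime to `m`
(template: `Crux.crux_descent`, `Crux.exists_root_of_coprime`, `Crux.relfinrank_bar_mul_prime`, `Crux.bar_le`).

Given the data `(A, w, τ, e, u)` at level `M q`: let `u'` be the image of `u` in `F_{pMq}` (inclusion `bar_le`);
`u' ∈ Dm` (`Place.ord_restrictAlong`, as in `crux_descent`); choose `w'` with `IsAL (p M) q w'` (`exists_isAL`);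
`w'` extends `w` (`SS.induction_gen`: both are `ℚ̄`-algebra maps, `w' (α' f) = β' f`, and
`α_M f`, `β_M f` are `α_{pM}`, `β_{pM}` of the image of `f` in `F_{pM}`: all these maps are the identity resp. `V_q` on
`q`-expansions); `RedConst` only gets weaker when the level grows.  `Crux2 (p M) q m` gives
`τ u'/u'^e = h^m`, `h ∈ F_{pMq}`; `exists_root_of_coprime` gives a root in `F_{Mq}`.
Unfold `galKum`, `Kum.mk` as in `SS/Formal/KumMap.lean`, `SS/Formal/Core34.lean`.
-/

set_option autoImplicit false

open AlgebraicCurve ModularCurve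

namespace Fermat.Agent.SS.GM2

open Fermat.Agent.ES

namespace LevelRaise

theorem redConst_mono {N N' : ℕ} (hle : modularFunctionFieldBar N ≤ modularFunctionFieldBar N')
    (A : ValuationSubring Qb) (u : FF N) (h : RedConst A u) :
    RedConst A (IntermediateField.inclusion hle u) := by
  obtain ⟨c, y₁, y₂, hc, h₁, h₂, hred, hne, he⟩ := h
  exact ⟨c, y₁, y₂, hc, hle h₁, hle h₂, hred, hne, he⟩

theorem inclusion_alpha {M p q : ℕ} [NeZero M] [NeZero p] [NeZero q]
    (hle : modularFunctionFieldBar (M * q) ≤ modularFunctionFieldBar (p * M * q))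
    (hleM : modularFunctionFieldBar M ≤ modularFunctionFieldBar (p * M)) (f : FF M) :
    IntermediateField.inclusion hle (heckeAlphaBar Qb M q f)
      = heckeAlphaBar Qb (p * M) q (IntermediateField.inclusion hleM f) := by
  apply Subtype.ext
  rw [coe_heckeAlphaBar, IntermediateField.coe_inclusion, IntermediateField.coe_inclusion,
    coe_heckeAlphaBar]

theorem inclusion_beta {M p q : ℕ} [NeZero M] [NeZero p] [NeZero q]
    (hle : modularFunctionFieldBar (M * q) ≤ modularFunctionFieldBar (p * M * q))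
    (hleM : modularFunctionFieldBar M ≤ modularFunctionFieldBar (p * M)) (f : FF M) :
    IntermediateField.inclusion hle (heckeBetaBar Qb M q f)
      = heckeBetaBar Qb (p * M) q (IntermediateField.inclusion hleM f) := by
  apply Subtype.ext
  rw [coe_heckeBetaBar, IntermediateField.coe_inclusion, IntermediateField.coe_inclusion,
    coe_heckeBetaBar]

/-- The Atkin-Lehner involution of level `(p M) q` extends the one of level `M q`. -/
theorem isAL_extends {M p q : ℕ} [NeZero M] [NeZero p] [NeZero q] (hq : q.Prime)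
    (hle : modularFunctionFieldBar (M * q) ≤ modularFunctionFieldBar (p * M * q))
    (hleM : modularFunctionFieldBar M ≤ modularFunctionFieldBar (p * M))
    {w : FF (M * q) →ₐ[Qb] FF (M * q)} (hw : IsAL M q w)
    {w' : FF (p * M * q) →ₐ[Qb] FF (p * M * q)} (hw' : IsAL (p * M) q w') (x : FF (M * q)) :
    w' (IntermediateField.inclusion hle x) = IntermediateField.inclusion hle (w x) := by
  refine induction_gen hq (fun x => w' (IntermediateField.inclusion hle x)
    = IntermediateField.inclusion hle (w x)) ?_ ?_ ?_ ?_ ?_ ?_ x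
  · intro c
    rw [AlgHom.commutes, AlgHom.commutes, AlgHom.commutes, AlgHom.commutes]
  · intro f
    rw [inclusion_alpha hle hleM, hw'.alpha, hw.alpha, inclusion_beta hle hleM]
  · intro f
    rw [inclusion_beta hle hleM, hw'.beta, hw.beta, inclusion_alpha hle hleM]
  · intro x y hx hy
    rw [map_add, map_add, map_add, map_add, hx, hy]
  · intro x y hx hy
    rw [map_mul, map_mul, map_mul, map_mul, hx, hy]
  · intro x hx
    rw [map_inv₀, map_inv₀, map_inv₀, map_inv₀, hx]

end LevelRaise

open LevelRaise in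
theorem crux2_raise (M p q m : ℕ) [NeZero M] [NeZero p] [NeZero q] (hq : q.Prime) (hp : p.Prime)
    (hpM : ¬ p ∣ M) (hpq : p ≠ q) (hqM : ¬ q ∣ M) (hcop : Nat.Coprime (p + 1) m)
    (h : Crux2 (p * M) q m) : Crux2 M q m := by
  intro A hA w hw τ hτ e he u hu1 hu2
  have hdvd : M * q ∣ p * M * q := ⟨p, by ring⟩
  have hle : modularFunctionFieldBar (M * q) ≤ modularFunctionFieldBar (p * M * q) :=
    Crux.bar_le hdvd
  have hleM : modularFunctionFieldBar M ≤ modularFunctionFieldBar (p * M) :=
    Crux.bar_le (dvd_mul_left M p)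
  have hpMq : ¬ p ∣ M * q := by
    intro hd
    rcases (Nat.Prime.dvd_mul hp).mp hd with h1 | h1
    · exact hpM h1
    · exact hpq ((Nat.prime_dvd_prime_iff_eq hp hq).mp h1)
  have hrank : (modularFunctionFieldBar (M * q)).relfinrank
      (modularFunctionFieldBar (p * M * q)) = p + 1 := by
    have h1 := Crux.relfinrank_bar_mul_prime (N := M * q) hp hpMq
    rwa [← mul_assoc] at h1
  have hint : (IntermediateField.inclusion hle).toRingHom.IsIntegral :=
    Crux.isIntegral_inclusion _ _ hle (by rw [hrank]; omega)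
  have hqpM : ¬ q ∣ p * M := by
    intro hd
    rcases (Nat.Prime.dvd_mul hq).mp hd with h1 | h1
    · exact hpq ((Nat.prime_dvd_prime_iff_eq hq hp).mp h1).symm
    · exact hqM h1
  obtain ⟨w', hw'⟩ := exists_isAL (p * M) q hq hqpM
  -- the image of `u`
  let inc : FF (M * q) →ₐ[Qb] FF (p * M * q) := IntermediateField.inclusion hle
  let u' : (FF (p * M * q))ˣ := Units.map (inc : FF (M * q) →* FF (p * M * q)) (u : (FF (M * q))ˣ)
  have hu' : u' ∈ Dm (p * M * q) m := by
    intro P
    have h1 := Place.ord_restrictAlong inc hint P ((u : (FF (M * q))ˣ) : FF (M * q))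
    have h2 : ((u' : (FF (p * M * q))ˣ) : FF (p * M * q))
        = inc ((u : (FF (M * q))ˣ) : FF (M * q)) := rfl
    rw [h2, h1]
    exact Dvd.dvd.mul_left (u.2 _) _
  have hr1 : RedConst A (((⟨u', hu'⟩ : Dm (p * M * q) m) : (FF (p * M * q))ˣ) : FF (p * M * q)) :=
    redConst_mono hle A _ hu1
  have hr2 : RedConst A
      (w' (((⟨u', hu'⟩ : Dm (p * M * q) m) : (FF (p * M * q))ˣ) : FF (p * M * q))) := by
    have h1 := isAL_extends hq hle hleM hw hw' ((u : (FF (M * q))ˣ) : FF (M * q))
    have h2 := redConst_mono hle A _ hu2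
    rw [← h1] at h2
    exact h2
  have key := h A hA w' hw' τ hτ e he ⟨u', hu'⟩ hr1 hr2
  rw [galKum_mk, ← Kum.mk_pow, Kum.mk_eq_mk_iff] at key
  obtain ⟨s, hs⟩ := key
  rw [galKum_mk, ← Kum.mk_pow, Kum.mk_eq_mk_iff]
  -- the element of `F_{Mq}` whose root we want
  set y : (FF (M * q))ˣ := galU (M * q) (τ : GQ) (u : (FF (M * q))ˣ) * ((u : (FF (M * q))ˣ) ^ e)⁻¹
    with hy
  have hsy : (((s : (FF (p * M * q))ˣ) : FF (p * M * q)) : LaurentSeries Qb) ^ m
      = (((y : (FF (M * q))ˣ) : FF (M * q)) : LaurentSeries Qb) := by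
    have h1 := congrArg (fun z : (FF (p * M * q))ˣ => ((z : FF (p * M * q)) : LaurentSeries Qb)) hs
    simp only [Units.val_pow_eq_pow_val, SubmonoidClass.coe_pow] at h1
    rw [h1, hy]
    simp only [Units.val_mul, Units.val_inv_eq_inv_val, Units.val_pow_eq_pow_val, coe_galU]
    push_cast
    rw [coe_galF, coe_galF]
    rfl
  obtain ⟨t, ht⟩ := Crux.exists_root_of_coprime _ _ hle m (by rw [hrank]; exact hcop)
    ((y : (FF (M * q))ˣ) : FF (M * q)) ((s : (FF (p * M * q))ˣ) : FF (p * M * q)) hsy
  have ht0 : t ≠ 0 := by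
    rintro rfl
    rcases Nat.eq_zero_or_pos m with rfl | hm
    · -- `m = 0`: coprimality forces `p + 1 = 1`
      rw [Nat.coprime_zero_right] at hcop
      have := hp.pos
      omega
    · rw [zero_pow hm.ne'] at ht
      exact y.ne_zero ht.symm
  refine ⟨Units.mk0 t ht0, ?_⟩
  apply Units.ext
  rw [Units.val_pow_eq_pow_val, Units.val_mk0, ht]
  rfl

end Fermat.Agent.SS.GM2
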