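import Fermat.Agent.SS.GM2.CoreK2
import Fermat.Agent.SS.GM2.Descent
import Fermat.Agent.SS.GM2.LevelRaise

/-!
# SS / GM2 : `Crux2`
-/

set_option autoImplicit false

namespace Fermat.Agent.SS.GM2

open Fermat.Agent.Crux (Admissible)

/-- **CRUX 2.** -/
theorem crux2 (M q m : ℕ) [NeZero M] [NeZero q] (hq : q.Prime) (hqM : ¬ q ∣ M) (hqm : ¬ q ∣ m) :
    Crux2 M q m := by
  have hm : 0 < m := Nat.pos_of_ne_zero (by rintro rfl; exact hqm (dvd_zero q))
  by_cases hadm : Admissible q M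
  · exact crux2_of_coreK2 M q m hq hqM hqm (coreK2 M q m hq hqM hadm hm hqm)
  · unfold Admissible at hadm
    rw [not_and_or] at hadm
    rcases hadm with h | h
    · push Not at h
      obtain ⟨rfl, h2⟩ := h
      have hN' : ¬ 3 ∣ 2 * M := fun h =>
        hqM ((Nat.Coprime.dvd_mul_left (by norm_num : Nat.Coprime 3 2)).mp h)
      have hadm' : Admissible 3 (2 * M) := ⟨fun _ => dvd_mul_right 2 M, fun h => by omega⟩
      refine crux2_raise M 2 3 m hq Nat.prime_two h2 (by norm_num) hqM ?_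
        (crux2_of_coreK2 (2 * M) 3 m hq hN' hqm (coreK2 (2 * M) 3 m hq hN' hadm' hm hqm))
      exact (Nat.Prime.coprime_iff_not_dvd Nat.prime_three).mpr hqm
    · push Not at h
      obtain ⟨rfl, h3⟩ := h
      have hN' : ¬ 2 ∣ 3 * M := fun h =>
        hqM ((Nat.Coprime.dvd_mul_left (by norm_num : Nat.Coprime 2 3)).mp h)
      have hadm' : Admissible 2 (3 * M) := ⟨fun h => by omega, fun _ => dvd_mul_right 3 M⟩
      refine crux2_raise M 3 2 m hq Nat.prime_three h3 (by norm_num) hqM ?_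
        (crux2_of_coreK2 (3 * M) 2 m hq hN' hqm (coreK2 (3 * M) 2 m hq hN' hadm' hm hqm))
      have h2 : Nat.Coprime 2 m := (Nat.Prime.coprime_iff_not_dvd Nat.prime_two).mpr hqm
      exact Nat.Coprime.pow_left 2 h2

end Fermat.Agent.SS.GM2
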