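import Fermat.Agent.S28.IntVal
import Fermat.Agent.Crux.G.TwoCharts

/-!
# SS / GM2 : auxiliary algebra for `grJ_of_haupt`   (TASK `SS/GM2-GR-haupt`)

`F` a field, `φ : B → F` a ring homomorphism, `x ∈ F^×`, `P ∈ B[X]` monic with `P(0) ∈ B^×`, `J x = P(x)`.
"`y` is integral over `B[t]`" is `(eval₂RingHom φ t).IsIntegralElem y`; all the integrality statements are proved
with the valuation criterion (`int_of_forall`, `mem_of_int`).
-/

set_option autoImplicit false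
set_option linter.unusedSectionVars false
set_option linter.style.haveILetI false

open Polynomial

namespace Fermat.Agent.SS.GM2.Haupt

variable {B F : Type*} [CommRing B] [Field F] (φ : B →+* F)

theorem eval₂_mem (V : ValuationSubring F) (hV : ∀ b, φ b ∈ V) {t : F} (ht : t ∈ V) (Q : B[X]) :
    eval₂ φ t Q ∈ V := by
  rw [eval₂_eq_sum_range]
  exact sum_mem fun i _ => mul_mem (hV _) (pow_mem ht i)

theorem mem_of_int (V : ValuationSubring F) (hV : ∀ b, φ b ∈ V) {t y : F} (ht : t ∈ V)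
    (hy : (eval₂RingHom φ t).IsIntegralElem y) : y ∈ V :=
  S28.IntVal.mem_of_isIntegralElem V _ (fun Q => eval₂_mem φ V hV ht Q) hy

/-- the valuation criterion. -/
theorem int_of_forall {t y : F}
    (h : ∀ V : ValuationSubring F, (∀ b, φ b ∈ V) → t ∈ V → y ∈ V) :
    (eval₂RingHom φ t).IsIntegralElem y := by
  have h1 : IsIntegral (eval₂RingHom φ t).range y := by
    apply S28.IntVal.isIntegral_of_forall_valuationSubring
    intro W hW
    apply h W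
    · intro b
      exact hW ⟨C b, by simp⟩
    · exact hW ⟨X, by simp⟩
  obtain ⟨p, hp, hpy⟩ := h1
  have hlift : p ∈ lifts (eval₂RingHom φ t).rangeRestrict :=
    (mem_lifts p).mpr (map_surjective _ (eval₂RingHom φ t).rangeRestrict_surjective p)
  obtain ⟨q, hq, -, hqm⟩ := lifts_and_natDegree_eq_and_monic hlift hp
  refine ⟨q, hqm, ?_⟩
  rw [← hq, eval₂_map] at hpy
  exact hpy

/-- `y` integral over `B[t]` ⟹ `t⁻ᴺ y` integral over `B[t⁻¹]`. -/
theorem exists_inv_pow_mul [IsDomain B] {t y : F} (ht : t ≠ 0)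
    (hy : (eval₂RingHom φ t).IsIntegralElem y) :
    ∃ N : ℕ, (eval₂RingHom φ t⁻¹).IsIntegralElem (t⁻¹ ^ N * y) := by
  letI : Algebra B F := φ.toAlgebra
  have key : ∀ s : F, ((algebraMap F F).comp ((aeval s : B[X] →ₐ[B] F) : B[X] →+* F)) =
      eval₂RingHom φ s := by
    intro s
    apply Polynomial.ringHom_ext
    · intro b
      simp
      rfl
    · simp
  have h1 : Crux.G.IntX B t y := by
    rw [Crux.G.intX_iff, key]
    exact hy
  obtain ⟨N, hN⟩ := Crux.G.exists_intX_inv_pow_mul ht h1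
  rw [Crux.G.intX_iff, key] at hN
  exact ⟨N, hN⟩

theorem val_unit (V : ValuationSubring F) (hV : ∀ b, φ b ∈ V) {b : B} (hb : IsUnit b) :
    V.valuation (φ b) = 1 := by
  obtain ⟨u, hu⟩ := hb.exists_right_inv
  have h1 : V.valuation (φ b) ≤ 1 := (V.valuation_le_one_iff _).mpr (hV b)
  have h2 : V.valuation (φ u) ≤ 1 := (V.valuation_le_one_iff _).mpr (hV u)
  have h3 : V.valuation (φ b) * V.valuation (φ u) = 1 := by
    rw [← map_mul, ← map_mul, hu, map_one, map_one]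
  refine le_antisymm h1 ?_
  rw [← h3]
  exact mul_le_of_le_one_right' h2

/-- a polynomial with unit constant term takes unit values on the maximal ideal. -/
theorem val_eval₂_eq_one (V : ValuationSubring F) (hV : ∀ b, φ b ∈ V) {y : F}
    (hy : V.valuation y < 1) (Q : B[X]) (hQ : IsUnit (Q.coeff 0)) :
    V.valuation (eval₂ φ y Q) = 1 := by
  have h0 := val_unit φ V hV hQ
  have h1 : eval₂ φ y Q = eval₂ φ y (divX Q) * y + φ (Q.coeff 0) := by
    conv_lhs => rw [← divX_mul_X_add Q]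
    rw [eval₂_add, eval₂_mul, eval₂_X, eval₂_C]
  have h2 : V.valuation (eval₂ φ y (divX Q)) ≤ 1 :=
    (V.valuation_le_one_iff _).mpr
      (eval₂_mem φ V hV ((V.valuation_le_one_iff _).mp hy.le) _)
  have h3 : V.valuation (eval₂ φ y (divX Q) * y) < V.valuation (φ (Q.coeff 0)) := by
    rw [h0, map_mul]
    exact lt_of_le_of_lt (mul_le_of_le_one_left' h2) hy
  rw [h1, Valuation.map_add_eq_of_lt_right _ h3, h0]

theorem eval₂_mul_inv_pow {x : F} (hx : x ≠ 0) (P : B[X]) :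
    eval₂ φ x P * x⁻¹ ^ P.natDegree = eval₂ φ x⁻¹ P.reverse := by
  letI := invertibleOfNonzero hx
  have h := eval₂_reverse_mul_pow φ x P
  rw [invOf_eq_inv] at h
  rw [← h, mul_assoc, ← mul_pow, mul_inv_cancel₀ hx, one_pow, mul_one]

theorem val_lt_one_of_inv_not_mem (V : ValuationSubring F) {a : F} (h : a⁻¹ ∉ V) :
    V.valuation a < 1 := by
  have := S28.IntVal.mem_nonunits_of_inv_not_mem V h
  rwa [ValuationSubring.mem_nonunits_iff] at this

theorem inv_mem_of_val_eq_one (V : ValuationSubring F) {a : F} (h : V.valuation a = 1) :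
    a⁻¹ ∈ V := by
  rw [← V.valuation_le_one_iff, map_inv₀, h, inv_one]

variable {x J : F} {P : B[X]}

/-- on the chart `J`: `x` is a unit. -/
theorem fact_J (hx : x ≠ 0) (hP : P.Monic) (hdeg : 2 ≤ P.natDegree) (hu : IsUnit (P.coeff 0))
    (hJ : J * x = eval₂ φ x P) (V : ValuationSubring F) (hV : ∀ b, φ b ∈ V) (hJV : J ∈ V) :
    x ∈ V ∧ x⁻¹ ∈ V := by
  have hJ1 : V.valuation J ≤ 1 := (V.valuation_le_one_iff _).mpr hJV
  constructor
  · by_contra hxV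
    have hy : V.valuation x⁻¹ < 1 := val_lt_one_of_inv_not_mem V (by rwa [inv_inv])
    have h1 := val_eval₂_eq_one φ V hV hy P.reverse
      (by rw [coeff_zero_reverse, hP.leadingCoeff]; exact isUnit_one)
    obtain ⟨e, he⟩ : ∃ e, P.natDegree = e + 2 := ⟨P.natDegree - 2, by omega⟩
    rw [← eval₂_mul_inv_pow φ hx, ← hJ, he] at h1
    have h2 : J * x * x⁻¹ ^ (e + 2) = J * x⁻¹ ^ e * x⁻¹ := by
      calc J * x * x⁻¹ ^ (e + 2) = J * x⁻¹ ^ e * x⁻¹ * (x * x⁻¹) := by ring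
        _ = J * x⁻¹ ^ e * x⁻¹ := by rw [mul_inv_cancel₀ hx, mul_one]
    rw [h2, map_mul] at h1
    have h3 : V.valuation (J * x⁻¹ ^ e) ≤ 1 := by
      rw [map_mul, map_pow]
      exact mul_le_one' hJ1 (pow_le_one' hy.le e)
    have h4 := lt_of_le_of_lt (mul_le_of_le_one_left' h3) hy
    rw [h1] at h4
    exact lt_irrefl _ h4
  · by_contra hxV
    have hy : V.valuation x < 1 := val_lt_one_of_inv_not_mem V hxV
    have h1 := val_eval₂_eq_one φ V hV hy P hu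
    rw [← hJ, map_mul] at h1
    have h4 := lt_of_le_of_lt (mul_le_of_le_one_left' hJ1) hy
    rw [h1] at h4
    exact lt_irrefl _ h4

/-- on the chart `J⁻¹`: either `x` is integral and `P(x)` is a unit, or `x⁻¹` is integral and `x^d / P(x)` is
integral. -/
theorem fact_Jinv (hx : x ≠ 0) (hP : P.Monic) (hu : IsUnit (P.coeff 0))
    (hPx : eval₂ φ x P ≠ 0) (hJ : J * x = eval₂ φ x P) (V : ValuationSubring F)
    (hV : ∀ b, φ b ∈ V) (hJV : J⁻¹ ∈ V) :
    (x ∈ V ∧ (eval₂ φ x P)⁻¹ ∈ V) ∨ (x⁻¹ ∈ V ∧ x ^ P.natDegree * (eval₂ φ x P)⁻¹ ∈ V) := by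
  have hJ1 : V.valuation J⁻¹ ≤ 1 := (V.valuation_le_one_iff _).mpr hJV
  have hJ0 : J ≠ 0 := by
    rintro rfl
    rw [zero_mul] at hJ
    exact hPx hJ.symm
  by_cases hxV : x ∈ V
  · left
    refine ⟨hxV, ?_⟩
    by_cases hx1 : V.valuation x < 1
    · exact inv_mem_of_val_eq_one V (val_eval₂_eq_one φ V hV hx1 P hu)
    · rw [not_lt] at hx1
      have h1 : x = J⁻¹ * eval₂ φ x P := by
        rw [← hJ]
        field_simp
      have h2 : V.valuation x ≤ V.valuation (eval₂ φ x P) := by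
        conv_lhs => rw [h1, map_mul]
        exact mul_le_of_le_one_left' hJ1
      rw [← V.valuation_le_one_iff, map_inv₀]
      exact inv_le_one_of_one_le₀ (hx1.trans h2)
  · right
    have hxi : x⁻¹ ∈ V := (V.mem_or_inv_mem x).resolve_left hxV
    refine ⟨hxi, ?_⟩
    have hy : V.valuation x⁻¹ < 1 := val_lt_one_of_inv_not_mem V (by rwa [inv_inv])
    have h1 := val_eval₂_eq_one φ V hV hy P.reverse
      (by rw [coeff_zero_reverse, hP.leadingCoeff]; exact isUnit_one)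
    rw [← eval₂_mul_inv_pow φ hx] at h1
    have h2 := inv_mem_of_val_eq_one V h1
    have h3 : (eval₂ φ x P * x⁻¹ ^ P.natDegree)⁻¹ = x ^ P.natDegree * (eval₂ φ x P)⁻¹ := by
      rw [mul_inv, inv_pow, inv_inv, mul_comm]
    rwa [h3] at h2

theorem J_ne_zero (hPx : eval₂ φ x P ≠ 0) (hJ : J * x = eval₂ φ x P) : J ≠ 0 := by
  rintro rfl
  rw [zero_mul] at hJ
  exact hPx hJ.symm

/-- (K1) `a` integral over `B[J]` ⟹ `x^D a` integral over `B[x]`. -/
theorem int_x_of_int_J [IsDomain B] (hPx : eval₂ φ x P ≠ 0)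
    (hJ : J * x = eval₂ φ x P) {a : F} (ha : (eval₂RingHom φ J).IsIntegralElem a) :
    ∃ D : ℕ, (eval₂RingHom φ x).IsIntegralElem (x ^ D * a) := by
  have hJ0 := J_ne_zero φ hPx hJ
  obtain ⟨D, hD⟩ := exists_inv_pow_mul φ hJ0 ha
  refine ⟨D, int_of_forall φ fun V hV hxV => ?_⟩
  rcases V.mem_or_inv_mem J with h | h
  · exact mul_mem (pow_mem hxV D) (mem_of_int φ V hV h ha)
  · have h1 := mem_of_int φ V hV h hD
    have h2 : x ^ D * a = (J⁻¹ ^ D * a) * (eval₂ φ x P) ^ D := by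
      rw [← hJ, mul_pow]
      calc x ^ D * a = (J⁻¹ * J) ^ D * (x ^ D * a) := by
            rw [inv_mul_cancel₀ hJ0, one_pow, one_mul]
        _ = _ := by ring
    rw [h2]
    exact mul_mem h1 (pow_mem (eval₂_mem φ V hV hxV P) D)

/-- (A1) `c` integral over `B[x]` ⟹ `c / x^D` integral over `B[J]`. -/
theorem int_J_of_int_x (hx : x ≠ 0) (hP : P.Monic) (hdeg : 2 ≤ P.natDegree)
    (hu : IsUnit (P.coeff 0)) (hJ : J * x = eval₂ φ x P) {c : F}
    (hc : (eval₂RingHom φ x).IsIntegralElem c) (D : ℕ) :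
    (eval₂RingHom φ J).IsIntegralElem (c * x⁻¹ ^ D) := by
  refine int_of_forall φ fun V hV hJV => ?_
  obtain ⟨h1, h2⟩ := fact_J φ hx hP hdeg hu hJ V hV hJV
  exact mul_mem (mem_of_int φ V hV h1 hc) (pow_mem h2 D)

/-- (K2) `a` integral over `B[J⁻¹]` ⟹ `P(x)^D a` integral over `B[x]` and `(P(x)/x^d)^D a` integral over
`B[x⁻¹]`. -/
theorem int_x_of_int_Jinv [IsDomain B] (hx : x ≠ 0) (hdeg : 2 ≤ P.natDegree)
    (hPx : eval₂ φ x P ≠ 0) (hJ : J * x = eval₂ φ x P) {a : F}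
    (ha : (eval₂RingHom φ J⁻¹).IsIntegralElem a) :
    ∃ D : ℕ, (eval₂RingHom φ x).IsIntegralElem ((eval₂ φ x P) ^ D * a) ∧
      (eval₂RingHom φ x⁻¹).IsIntegralElem ((eval₂ φ x P * x⁻¹ ^ P.natDegree) ^ D * a) := by
  have hJ0 := J_ne_zero φ hPx hJ
  obtain ⟨D, hD⟩ := exists_inv_pow_mul φ (inv_ne_zero hJ0) ha
  rw [inv_inv] at hD
  refine ⟨D, int_of_forall φ fun V hV hxV => ?_, int_of_forall φ fun V hV hxV => ?_⟩
  · rcases V.mem_or_inv_mem J with h | h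
    · have h1 := mem_of_int φ V hV h hD
      have h2 : (eval₂ φ x P) ^ D * a = x ^ D * (J ^ D * a) := by
        rw [← hJ]; ring
      rw [h2]
      exact mul_mem (pow_mem hxV D) h1
    · exact mul_mem (pow_mem (eval₂_mem φ V hV hxV P) D) (mem_of_int φ V hV h ha)
  · have h0 : eval₂ φ x P * x⁻¹ ^ P.natDegree ∈ V := by
      rw [eval₂_mul_inv_pow φ hx]
      exact eval₂_mem φ V hV hxV _
    rcases V.mem_or_inv_mem J with h | h
    · have h1 := mem_of_int φ V hV h hD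
      obtain ⟨e, he⟩ : ∃ e, P.natDegree = e + 1 := ⟨P.natDegree - 1, by omega⟩
      have h2 : (eval₂ φ x P * x⁻¹ ^ P.natDegree) ^ D * a = (x⁻¹ ^ e) ^ D * (J ^ D * a) := by
        rw [← hJ, he]
        have : J * x * x⁻¹ ^ (e + 1) = x⁻¹ ^ e * J := by
          calc J * x * x⁻¹ ^ (e + 1) = x⁻¹ ^ e * J * (x * x⁻¹) := by ring
            _ = _ := by rw [mul_inv_cancel₀ hx, mul_one]
        rw [this]; ring
      rw [h2]
      exact mul_mem (pow_mem (pow_mem hxV e) D) h1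
    · exact mul_mem (pow_mem h0 D) (mem_of_int φ V hV h ha)

/-- (A2) the two halves of the partition of unity. `s = P(0)/P(x)`. -/
theorem int_Jinv_of_int_x [IsDomain B] (hx : x ≠ 0) (hP : P.Monic) (hdeg : 2 ≤ P.natDegree)
    (hu : IsUnit (P.coeff 0)) (hPx : eval₂ φ x P ≠ 0) (hJ : J * x = eval₂ φ x P) {c₁ c₂ : F}
    (h₁ : (eval₂RingHom φ x).IsIntegralElem c₁) (h₂ : (eval₂RingHom φ x⁻¹).IsIntegralElem c₂)
    (D : ℕ) :
    ∃ N : ℕ, ∀ α β : B[X],
      (eval₂RingHom φ J⁻¹).IsIntegralElem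
        (eval₂ φ (φ (P.coeff 0) * (eval₂ φ x P)⁻¹) α * (φ (P.coeff 0) * (eval₂ φ x P)⁻¹) ^ N *
          (c₁ * (eval₂ φ x P)⁻¹ ^ D)) ∧
      (eval₂RingHom φ J⁻¹).IsIntegralElem
        (eval₂ φ (φ (P.coeff 0) * (eval₂ φ x P)⁻¹) β * (1 - φ (P.coeff 0) * (eval₂ φ x P)⁻¹) ^ N *
          (c₂ * (x ^ P.natDegree * (eval₂ φ x P)⁻¹) ^ D)) := by
  obtain ⟨D₁, hD₁⟩ := exists_inv_pow_mul φ hx h₁
  obtain ⟨D₂, hD₂⟩ := exists_inv_pow_mul φ (inv_ne_zero hx) h₂
  rw [inv_inv] at hD₂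
  obtain ⟨e, he⟩ : ∃ e, P.natDegree = e + 1 := ⟨P.natDegree - 1, by omega⟩
  refine ⟨D₂ + D₁, fun α β => ⟨int_of_forall φ fun V hV hJV => ?_,
    int_of_forall φ fun V hV hJV => ?_⟩⟩
  · rcases fact_Jinv φ hx hP hu hPx hJ V hV hJV with ⟨hxV, hPV⟩ | ⟨hxV, hwV⟩
    · have hs : φ (P.coeff 0) * (eval₂ φ x P)⁻¹ ∈ V := mul_mem (hV _) hPV
      exact mul_mem (mul_mem (eval₂_mem φ V hV hs α) (pow_mem hs _))
        (mul_mem (mem_of_int φ V hV hxV h₁) (pow_mem hPV D))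
    · have hPi : (eval₂ φ x P)⁻¹ = (x ^ P.natDegree * (eval₂ φ x P)⁻¹ * x⁻¹ ^ e) * x⁻¹ := by
        rw [he]
        calc (eval₂ φ x P)⁻¹ = (eval₂ φ x P)⁻¹ * (x * x⁻¹) ^ (e + 1) := by
              rw [mul_inv_cancel₀ hx, one_pow, mul_one]
          _ = _ := by ring
      have hg : x ^ P.natDegree * (eval₂ φ x P)⁻¹ * x⁻¹ ^ e ∈ V := mul_mem hwV (pow_mem hxV e)
      have hPV : (eval₂ φ x P)⁻¹ ∈ V := by
        rw [hPi]; exact mul_mem hg hxV
      have hs : φ (P.coeff 0) * (eval₂ φ x P)⁻¹ ∈ V := mul_mem (hV _) hPV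
      have h3 : (φ (P.coeff 0) * (eval₂ φ x P)⁻¹) ^ D₁ * c₁ ∈ V := by
        have : (φ (P.coeff 0) * (eval₂ φ x P)⁻¹) ^ D₁ * c₁ =
            (φ (P.coeff 0) * (x ^ P.natDegree * (eval₂ φ x P)⁻¹ * x⁻¹ ^ e)) ^ D₁ *
              (x⁻¹ ^ D₁ * c₁) := by
          conv_lhs => rw [hPi]
          ring
        rw [this]
        exact mul_mem (pow_mem (mul_mem (hV _) hg) D₁) (mem_of_int φ V hV hxV hD₁)
      have h4 : eval₂ φ (φ (P.coeff 0) * (eval₂ φ x P)⁻¹) α *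
          (φ (P.coeff 0) * (eval₂ φ x P)⁻¹) ^ (D₂ + D₁) * (c₁ * (eval₂ φ x P)⁻¹ ^ D) =
          eval₂ φ (φ (P.coeff 0) * (eval₂ φ x P)⁻¹) α * (φ (P.coeff 0) * (eval₂ φ x P)⁻¹) ^ D₂ *
            ((φ (P.coeff 0) * (eval₂ φ x P)⁻¹) ^ D₁ * c₁) * (eval₂ φ x P)⁻¹ ^ D := by
        ring
      rw [h4]
      exact mul_mem (mul_mem (mul_mem (eval₂_mem φ V hV hs α) (pow_mem hs _)) h3) (pow_mem hPV D)
  · rcases fact_Jinv φ hx hP hu hPx hJ V hV hJV with ⟨hxV, hPV⟩ | ⟨hxV, hwV⟩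
    · have hs : φ (P.coeff 0) * (eval₂ φ x P)⁻¹ ∈ V := mul_mem (hV _) hPV
      have h1s : 1 - φ (P.coeff 0) * (eval₂ φ x P)⁻¹ =
          (eval₂ φ x (divX P) * (eval₂ φ x P)⁻¹) * x := by
        have h5 : eval₂ φ x P = eval₂ φ x (divX P) * x + φ (P.coeff 0) := by
          conv_lhs => rw [← divX_mul_X_add P]
          rw [eval₂_add, eval₂_mul, eval₂_X, eval₂_C]
        have h6 : φ (P.coeff 0) = eval₂ φ x P - eval₂ φ x (divX P) * x := by
          rw [h5]; ring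
        conv_lhs => rw [h6, sub_mul, mul_inv_cancel₀ hPx]
        ring
      have hg : eval₂ φ x (divX P) * (eval₂ φ x P)⁻¹ ∈ V := mul_mem (eval₂_mem φ V hV hxV _) hPV
      have h1sV : 1 - φ (P.coeff 0) * (eval₂ φ x P)⁻¹ ∈ V := sub_mem (one_mem _) hs
      have h3 : (1 - φ (P.coeff 0) * (eval₂ φ x P)⁻¹) ^ D₂ * c₂ ∈ V := by
        have : (1 - φ (P.coeff 0) * (eval₂ φ x P)⁻¹) ^ D₂ * c₂ =
            (eval₂ φ x (divX P) * (eval₂ φ x P)⁻¹) ^ D₂ * (x ^ D₂ * c₂) := by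
          rw [h1s]; ring
        rw [this]
        exact mul_mem (pow_mem hg D₂) (mem_of_int φ V hV hxV hD₂)
      have h4 : eval₂ φ (φ (P.coeff 0) * (eval₂ φ x P)⁻¹) β *
          (1 - φ (P.coeff 0) * (eval₂ φ x P)⁻¹) ^ (D₂ + D₁) *
            (c₂ * (x ^ P.natDegree * (eval₂ φ x P)⁻¹) ^ D) =
          eval₂ φ (φ (P.coeff 0) * (eval₂ φ x P)⁻¹) β *
            (1 - φ (P.coeff 0) * (eval₂ φ x P)⁻¹) ^ D₁ *
            ((1 - φ (P.coeff 0) * (eval₂ φ x P)⁻¹) ^ D₂ * c₂) *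
            (x ^ P.natDegree * (eval₂ φ x P)⁻¹) ^ D := by
        ring
      rw [h4]
      exact mul_mem (mul_mem (mul_mem (eval₂_mem φ V hV hs β) (pow_mem h1sV _)) h3)
        (pow_mem (mul_mem (pow_mem hxV _) hPV) D)
    · have hPi : (eval₂ φ x P)⁻¹ = (x ^ P.natDegree * (eval₂ φ x P)⁻¹ * x⁻¹ ^ e) * x⁻¹ := by
        rw [he]
        calc (eval₂ φ x P)⁻¹ = (eval₂ φ x P)⁻¹ * (x * x⁻¹) ^ (e + 1) := by
              rw [mul_inv_cancel₀ hx, one_pow, mul_one]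
          _ = _ := by ring
      have hg : x ^ P.natDegree * (eval₂ φ x P)⁻¹ * x⁻¹ ^ e ∈ V := mul_mem hwV (pow_mem hxV e)
      have hPV : (eval₂ φ x P)⁻¹ ∈ V := by
        rw [hPi]; exact mul_mem hg hxV
      have hs : φ (P.coeff 0) * (eval₂ φ x P)⁻¹ ∈ V := mul_mem (hV _) hPV
      have h1sV : 1 - φ (P.coeff 0) * (eval₂ φ x P)⁻¹ ∈ V := sub_mem (one_mem _) hs
      exact mul_mem (mul_mem (eval₂_mem φ V hV hs β) (pow_mem h1sV _))
        (mul_mem (mem_of_int φ V hV hxV h₂) (pow_mem hwV D))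

end Fermat.Agent.SS.GM2.Haupt
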