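import Fermat.Agent.SS.GM2.RedK
import Fermat.Agent.SS.GM2.GRHauptAux

/-!
# SS / GM2 : the core of `grJ_of_haupt`   (TASK `SS/GM2-GR-haupt`)

From the charts `x`, `x⁻¹` to the charts `J`, `J⁻¹`, `J x = P(x)`, `P ∈ A[X]` monic of degree `≥ 2`, `P(0) ∈ A^×`; stated for
arbitrary intermediate fields `FK ⊆ K((q))`, `Fk ⊆ k((q))`.
-/

set_option autoImplicit false
set_option linter.unusedSectionVars false

open Polynomial ModularCurve

namespace Fermat.Agent.SS.GM2.Haupt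

open Fermat.Agent.S28 (V J evAt)

variable {A K k : Type*} [CommRing A] [IsDomain A] [Field K] [Algebra A K] [IsFractionRing A K]
  [Field k] (r : A →+* k)

theorem evK_mem (FK : IntermediateField K (LaurentSeries K)) {t : LaurentSeries K} (ht : t ∈ FK)
    (Q : A[X]) : evK A t Q ∈ FK := by
  change eval₂ _ t Q ∈ FK
  rw [eval₂_eq_sum_range]
  refine sum_mem fun i _ => mul_mem ?_ (pow_mem ht i)
  rw [RingHom.comp_apply, S28.C_eq_algebraMap]
  exact FK.algebraMap_mem _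

theorem ne_zero_of_redK {y : LaurentSeries K} {b : LaurentSeries k} (h : RedK r y b)
    (hb : b ≠ 0) : y ≠ 0 := by
  rintro rfl
  exact hb (h.unique RedK.zero)

theorem core (FK : IntermediateField K (LaurentSeries K))
    (Fk : IntermediateField k (LaurentSeries k))
    (xK JK : LaurentSeries K) (xk Jk : LaurentSeries k) (P : A[X]) (hP : P.Monic)
    (hdeg : 2 ≤ P.natDegree) (hu : IsUnit (P.coeff 0))
    (hxK : xK ∈ FK) (hxk : xk ∈ Fk) (hred : RedK r xK xk)
    (hxk0 : xk ≠ 0) (hPk0 : evAt xk (P.map r) ≠ 0)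
    (hJK : JK * xK = evK A xK P) (hJk : Jk * xk = evAt xk (P.map r))
    (h1 : ∀ a ∈ Fk, (evAt xk).IsIntegralElem a →
      ∃ c ∈ FK, (evK A xK).IsIntegralElem c ∧ RedK r c a)
    (h2 : ∀ a ∈ Fk, (evAt xk⁻¹).IsIntegralElem a →
      ∃ c ∈ FK, (evK A xK⁻¹).IsIntegralElem c ∧ RedK r c a) :
    (∀ a ∈ Fk, (evAt Jk).IsIntegralElem a →
      ∃ c ∈ FK, (evK A JK).IsIntegralElem c ∧ RedK r c a) ∧
    (∀ a ∈ Fk, (evAt Jk⁻¹).IsIntegralElem a →
      ∃ c ∈ FK, (evK A JK⁻¹).IsIntegralElem c ∧ RedK r c a) := by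
  have hxK0 : xK ≠ 0 := ne_zero_of_redK r hred hxk0
  have hPred : RedK r (evK A xK P) (evAt xk (P.map r)) := hred.map_evK P
  have hPK0 : evK A xK P ≠ 0 := ne_zero_of_redK r hPred hPk0
  have hPk : (P.map r).Monic := hP.map r
  have hdk : (P.map r).natDegree = P.natDegree := hP.natDegree_map r
  have hdegk : 2 ≤ (P.map r).natDegree := by rw [hdk]; exact hdeg
  have huk : IsUnit ((P.map r).coeff 0) := by
    rw [coeff_map]; exact hu.map r
  have hPKmem : evK A xK P ∈ FK := evK_mem FK hxK P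
  have hPkmem : evAt xk (P.map r) ∈ Fk := S28.evAt_mem Fk hxk _
  constructor
  · intro a ha hint
    obtain ⟨D, hD⟩ := int_x_of_int_J (HahnSeries.C : k →+* LaurentSeries k) (x := xk) (J := Jk)
      (P := P.map r) hPk0 hJk hint
    obtain ⟨c', hc'F, hc'int, hc'red⟩ := h1 (xk ^ D * a) (mul_mem (pow_mem hxk D) ha) hD
    refine ⟨c' * xK⁻¹ ^ D, mul_mem hc'F (pow_mem (inv_mem hxK) D),
      int_J_of_int_x _ hxK0 hP hdeg hu hJK hc'int D, ?_⟩
    refine (hc'red.mul ((hred.inv hxk0).pow D)).congr rfl ?_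
    calc xk ^ D * a * xk⁻¹ ^ D = (xk * xk⁻¹) ^ D * a := by ring
      _ = a := by rw [mul_inv_cancel₀ hxk0, one_pow, one_mul]
  · intro a ha hint
    obtain ⟨D, hD1, hD2⟩ := int_x_of_int_Jinv (HahnSeries.C : k →+* LaurentSeries k) (x := xk)
      (J := Jk) (P := P.map r) hxk0 hdegk hPk0 hJk hint
    obtain ⟨c₁, hc₁F, hc₁int, hc₁red⟩ := h1 _ (mul_mem (pow_mem hPkmem D) ha) hD1
    obtain ⟨c₂, hc₂F, hc₂int, hc₂red⟩ := h2 _
      (mul_mem (pow_mem (mul_mem hPkmem (pow_mem (inv_mem hxk) _)) D) ha) hD2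
    obtain ⟨N, hN⟩ := int_Jinv_of_int_x
      ((HahnSeries.C : K →+* LaurentSeries K).comp (algebraMap A K)) hxK0 hP hdeg hu hPK0 hJK
      hc₁int hc₂int D
    obtain ⟨α, β, hαβ⟩ : IsCoprime ((X : A[X]) ^ N) ((1 - X) ^ N) :=
      IsCoprime.pow ⟨1, 1, by ring⟩
    obtain ⟨hT1, hT2⟩ := hN α β
    have hPinv := hPred.inv hPk0
    have hs : RedK r (HahnSeries.C (algebraMap A K (P.coeff 0)) * (evK A xK P)⁻¹)
        (HahnSeries.C (r (P.coeff 0)) * (evAt xk (P.map r))⁻¹) :=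
      (RedK.of_C (P.coeff 0)).mul hPinv
    have hsmem : HahnSeries.C (algebraMap A K (P.coeff 0)) * (evK A xK P)⁻¹ ∈ FK := by
      refine mul_mem ?_ (inv_mem hPKmem)
      rw [S28.C_eq_algebraMap]
      exact FK.algebraMap_mem _
    set sK := HahnSeries.C (algebraMap A K (P.coeff 0)) * (evK A xK P)⁻¹ with hsK
    set sk := HahnSeries.C (r (P.coeff 0)) * (evAt xk (P.map r))⁻¹ with hsk
    have hα : RedK r (evK A sK α) (evAt sk (α.map r)) := hs.map_evK α
    have hβ : RedK r (evK A sK β) (evAt sk (β.map r)) := hs.map_evK β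
    have hR1 := (hα.mul (hs.pow N)).mul (hc₁red.mul (hPinv.pow D))
    have hR2 := (hβ.mul ((RedK.one.sub hs).pow N)).mul
      (hc₂red.mul (((hred.pow P.natDegree).mul hPinv).pow D))
    have hid : evAt sk (α.map r) * sk ^ N + evAt sk (β.map r) * (1 - sk) ^ N = 1 := by
      have := congrArg (fun Q : A[X] => evAt sk (Q.map r)) hαβ
      simpa using this
    refine ⟨_, add_mem
      (mul_mem (mul_mem (evK_mem FK hsmem α) (pow_mem hsmem N))
        (mul_mem hc₁F (pow_mem (inv_mem hPKmem) D)))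
      (mul_mem (mul_mem (evK_mem FK hsmem β) (pow_mem (sub_mem (one_mem _) hsmem) N))
        (mul_mem hc₂F (pow_mem (mul_mem (pow_mem hxK P.natDegree) (inv_mem hPKmem)) D))),
      RingHom.IsIntegralElem.add _ hT1 hT2, ?_⟩
    refine (hR1.add hR2).congr rfl ?_
    rw [hdk]
    have e1 : evAt xk (P.map r) ^ D * a * (evAt xk (P.map r))⁻¹ ^ D = a := by
      calc evAt xk (P.map r) ^ D * a * (evAt xk (P.map r))⁻¹ ^ D
          = (evAt xk (P.map r) * (evAt xk (P.map r))⁻¹) ^ D * a := by ring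
        _ = a := by rw [mul_inv_cancel₀ hPk0, one_pow, one_mul]
    have e2 : (evAt xk (P.map r) * xk⁻¹ ^ P.natDegree) ^ D * a *
        (xk ^ P.natDegree * (evAt xk (P.map r))⁻¹) ^ D = a := by
      calc (evAt xk (P.map r) * xk⁻¹ ^ P.natDegree) ^ D * a *
            (xk ^ P.natDegree * (evAt xk (P.map r))⁻¹) ^ D
          = ((evAt xk (P.map r) * (evAt xk (P.map r))⁻¹) * (xk * xk⁻¹) ^ P.natDegree) ^ D * a := by
            ring
        _ = a := by
            rw [mul_inv_cancel₀ hPk0, mul_inv_cancel₀ hxk0, one_pow, one_mul, one_pow, one_mul]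
    rw [e1, e2, ← add_mul, hid, one_mul]

end Fermat.Agent.SS.GM2.Haupt
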