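import Fermat.Agent.Crux.G.GK
import Fermat.Agent.S28.IntVal

/-!
# SS / GM2 : change of base coordinate      (TASKS `SS/GM2-Transfer-a`, `SS/GM2-Transfer-b`)

Pure algebra (imports only `Crux/G` and `S28/IntVal`).  `F` a field, `A → F`.  For `t : F` we use the chart predicates of
`Crux/G/Defs.lean` with `E := F` (`Algebra F F = id`):
`IntX A t y` (`y` integral over `A[t]`), `IsOLx π t y`, `IsPiOLx π t y`.
Useful: `G.intX_iff`, `G.isOLx_iff`, `G.isPiOLx_iff` (file `Crux/G/TwoCharts.lean`).

## (a) formal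
* `intX_algebraMap_iff` etc.: for `x : E`, `E → F`, the chart `x` and the chart `algebraMap E F x` are the same
  (`intX_iff`; the two ring homs `A[X] → F` are equal: `Polynomial.ringHom_ext` / `aeval_algebraMap_apply`).
* `IntX.trans` : transitivity of integrality (`isIntegral_trans`-type argument; cf. `S28.IntTower.isIntegralElem_trans`).
* `intX_of_forall_valuationSubring` : `S28.isIntegral_of_forall_valuationSubring` for `O = range (aeval t)`.
* `unit_trick` : `J`, `Y` mutually integral, `X = J Y`.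
   - `J` integral over `A[X]`: let `V ⊇ A[X]`.  If `J ∉ V` then `J⁻¹ ∈ m_V`, `Y = X J⁻¹ ∈ V`, so `A[Y] ⊆ V` and `J ∈ V`
     (`S28.mem_of_isIntegralElem`).  Contradiction.
   - `J⁻¹` integral over `A[X⁻¹]`: let `V ⊇ A[X⁻¹]`.  If `J⁻¹ ∉ V` then `J ∈ m_V ⊆ V`, so `Y ∈ V`, `X = J Y ∈ m_V`,
     so `X⁻¹ ∉ V`.  Contradiction.

## (b) `isOLx_transfer`  (template: `S28.isIntegral_gauss_of_mem_adjoin`, file `S28/IntVal.lean`, which is this proof
for `A = ℤ_(ℓ)`)
`s`, `t` mutually integral over `A`, `s` transcendental over `A`.  Then `O_F(t) ⊆ O_F(s)`.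
KEY: for `h ∈ A[X]`, `π ∤ h`: `IsOLx π s (h(t))⁻¹`.  Let `O = {P(s)/S(s) : π ∤ S}` (a subring of `F`) and `V ⊇ O` a valuation
subring; `t ∈ V`.  Suppose `h(t)⁻¹ ∉ V`, i.e. `h(t) ∈ m_V`.
 - if `π⁻¹ ∈ V`: every nonzero `P(s)` is `π^j S(s)`, `π ∤ S`, so `Frac A[s] ⊆ V`; `F ∋ h(t)⁻¹` is algebraic
   (`t` integral over `A[s]`), hence integral over the field `Frac A[s] ⊆ V`, hence in `V`.  Contradiction.
 - if `π ∈ m_V`: in `κ = V/m_V` (an algebra over `k = A/π`) `t̃` is a root of `h̄ ≠ 0`, so algebraic over `k`; `s̃` is integral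
   over `k[t̃]`, so algebraic over `k`: `ḡ(s̃) = 0`, `ḡ ≠ 0`; lift `g ∈ A[X]`, `π ∤ g`, `g(s) ∈ m_V`, but `g(s)⁻¹ ∈ O ⊆ V`.
So `h(t)⁻¹` is integral over `O`; clear denominators (a monic equation with coefficients `P_i(s)/S(s)`, common `S`;
then `S(s) h(t)⁻¹` is integral over `A[s]`: `Polynomial.scaleRoots`), i.e. `IsOLx π s (h(t))⁻¹`.
Finally `y ∈ O_F(t)`: `h(t) y` integral over `A[t]`, hence over `A[s]` (`IntX.trans`), and `O_F(s)` is a ring (`G.IsOL.mul`).
-/

set_option autoImplicit false
set_option linter.unusedSectionVars false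
set_option linter.style.haveILetI false

open Polynomial

namespace Fermat.Agent.SS.GM2

open Fermat.Agent.Crux.G

section a

/-- valuation criterion for `RingHom.IsIntegralElem`. -/
theorem isIntegralElem_of_forall_valuationSubring {R K : Type*} [CommRing R] [Field K] (f : R →+* K)
    (x : K) (h : ∀ W : ValuationSubring K, (∀ r, f r ∈ W) → x ∈ W) : f.IsIntegralElem x := by
  have h1 : IsIntegral f.range x := by
    apply Fermat.Agent.S28.IntVal.isIntegral_of_forall_valuationSubring
    intro W hW
    exact h W fun r => hW ⟨r, rfl⟩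
  obtain ⟨p, hp, hroot⟩ := h1
  have hl : p ∈ Polynomial.lifts f.rangeRestrict := by
    rw [Polynomial.lifts_iff_coeff_lifts]
    intro n
    exact f.rangeRestrict_surjective _
  obtain ⟨q, hq, -, hqm⟩ := Polynomial.lifts_and_natDegree_eq_and_monic hl hp
  refine ⟨q, hqm, ?_⟩
  rw [← hq, Polynomial.eval₂_map] at hroot
  exact hroot

variable {A E F : Type*} [CommRing A] [Field E] [Field F] [Algebra A E] [Algebra E F] [Algebra A F]
  [IsScalarTower A E F]

theorem intX_self_iff (t y : F) :
    IntX A t y ↔ ((aeval t : A[X] →ₐ[A] F) : A[X] →+* F).IsIntegralElem y := Iff.rfl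

theorem comp_aeval_eq (x : E) :
    (algebraMap F F).comp ((aeval (algebraMap E F x) : A[X] →ₐ[A] F) : A[X] →+* F) =
      (algebraMap E F).comp ((aeval x : A[X] →ₐ[A] E) : A[X] →+* E) := by
  apply Polynomial.ringHom_ext
  · intro a
    simp [← IsScalarTower.algebraMap_apply]
  · simp

theorem intX_algebraMap_iff (x : E) (y : F) :
    IntX A (algebraMap E F x) y ↔ IntX A x y := by
  rw [intX_iff, intX_iff, comp_aeval_eq]

theorem isOLx_algebraMap_iff (π : A) (x : E) (y : F) :
    IsOLx π (algebraMap E F x) y ↔ IsOLx π x y := by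
  rw [isOLx_iff, isOLx_iff]
  simp only [intX_algebraMap_iff, aeval_algebraMap_apply, Algebra.algebraMap_self, RingHom.id_apply]

theorem isPiOLx_algebraMap_iff (π : A) (x : E) (y : F) :
    IsPiOLx π (algebraMap E F x) y ↔ IsPiOLx π x y := by
  rw [isPiOLx_iff, isPiOLx_iff]
  simp only [isOLx_algebraMap_iff, Algebra.algebraMap_self, RingHom.id_apply,
    ← IsScalarTower.algebraMap_apply]

theorem aeval_mem_valuationSubring (V : ValuationSubring F) (hA : ∀ a : A, algebraMap A F a ∈ V)
    {t : F} (ht : t ∈ V) (P : A[X]) : aeval t P ∈ V := by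
  induction P using Polynomial.induction_on' with
  | add p q hp hq => rw [map_add]; exact add_mem hp hq
  | monomial n a =>
    rw [aeval_monomial]
    exact mul_mem (hA a) (pow_mem ht n)

theorem IntX.mem_valuationSubring {t y : F} (hy : IntX A t y) (V : ValuationSubring F)
    (hA : ∀ a : A, algebraMap A F a ∈ V) (ht : t ∈ V) : y ∈ V :=
  Fermat.Agent.S28.IntVal.mem_of_isIntegralElem V _
    (fun c => aeval_mem_valuationSubring V hA ht c) ((intX_self_iff t y).1 hy)

theorem intX_of_forall_valuationSubring (t y : F)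
    (h : ∀ V : ValuationSubring F, (∀ a : A, algebraMap A F a ∈ V) → t ∈ V → y ∈ V) :
    IntX A t y := by
  rw [intX_self_iff]
  apply isIntegralElem_of_forall_valuationSubring
  intro W hW
  refine h W (fun a => ?_) ?_
  · have := hW (C a)
    simpa using this
  · have := hW X
    simpa using this

theorem IntX.trans {s t y : F} (hst : IntX A s t) (hty : IntX A t y) : IntX A s y := by
  apply intX_of_forall_valuationSubring
  intro V hA hs
  exact IntX.mem_valuationSubring hty V hA (IntX.mem_valuationSubring hst V hA hs)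

theorem intX_aeval (t : F) (P : A[X]) : IntX A t (aeval t P) := by
  rw [intX_self_iff]
  exact RingHom.isIntegralElem_map _

theorem IntX.add' {t y z : F} (hy : IntX A t y) (hz : IntX A t z) : IntX A t (y + z) := by
  rw [intX_self_iff] at hy hz ⊢
  exact RingHom.IsIntegralElem.add _ hy hz

private theorem unit_trick_aux (J Y : F) (hJ : J ≠ 0) (hY : Y ≠ 0) (h1 : IntX A J Y)
    (h2 : IntX A Y J) : IntX A (J * Y) J ∧ IntX A (J * Y)⁻¹ J⁻¹ := by
  constructor
  · apply intX_of_forall_valuationSubring
    intro V hA hX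
    by_contra hJV
    have hJi : J⁻¹ ∈ V := (V.mem_or_inv_mem J).resolve_left hJV
    have hYV : Y ∈ V := by
      have : Y = (J * Y) * J⁻¹ := by field_simp
      rw [this]
      exact mul_mem hX hJi
    exact hJV (IntX.mem_valuationSubring h2 V hA hYV)
  · apply intX_of_forall_valuationSubring
    intro V hA hX
    by_contra hJV
    have hJm : J ∈ V := by
      have := (V.mem_or_inv_mem J⁻¹).resolve_left hJV
      rwa [inv_inv] at this
    have hYV : Y ∈ V := IntX.mem_valuationSubring h1 V hA hJm
    apply hJV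
    have : J⁻¹ = Y * (J * Y)⁻¹ := by field_simp
    rw [this]
    exact mul_mem hYV hX

/-- **the unit trick.** -/
theorem unit_trick (J Y : F) (hJ : J ≠ 0) (hY : Y ≠ 0) (h1 : IntX A J Y) (h2 : IntX A Y J) :
    IntX A (J * Y) J ∧ IntX A (J * Y) Y ∧ IntX A (J * Y)⁻¹ J⁻¹ ∧ IntX A (J * Y)⁻¹ Y⁻¹ := by
  obtain ⟨a1, a2⟩ := unit_trick_aux J Y hJ hY h1 h2
  obtain ⟨b1, b2⟩ := unit_trick_aux Y J hY hJ h2 h1
  rw [mul_comm Y J] at b1 b2
  exact ⟨a1, b1, a2, b2⟩

/-- a ring automorphism fixing `A` and `t` preserves integrality over `A[t]`. -/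
theorem IntX.map (w : F →+* F) (hwA : ∀ a : A, w (algebraMap A F a) = algebraMap A F a) {t y : F}
    (hwt : w t = t) (hy : IntX A t y) : IntX A t (w y) := by
  rw [intX_self_iff] at hy ⊢
  obtain ⟨p, hp, hroot⟩ := hy
  refine ⟨p, hp, ?_⟩
  have hcomp : w.comp ((aeval t : A[X] →ₐ[A] F) : A[X] →+* F) =
      ((aeval t : A[X] →ₐ[A] F) : A[X] →+* F) := by
    apply Polynomial.ringHom_ext
    · intro a
      simp [hwA]
    · simp [hwt]
  have := congrArg w hroot
  rw [Polynomial.hom_eval₂, hcomp, map_zero] at this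
  exact this

end a

section b

variable {A F : Type*} [CommRing A] [IsDomain A] [IsDiscreteValuationRing A] [Field F] [Algebra A F]

open Fermat.Agent.S28.IntVal in
private theorem eval₂_mem_valuationSubring {R : Type*} [CommRing R] (V : ValuationSubring F)
    (f : R →+* F) (hf : ∀ c, f c ∈ V) {u : F} (hu : u ∈ V) (q : R[X]) : eval₂ f u q ∈ V := by
  induction q using Polynomial.induction_on' with
  | add p q hp hq => rw [eval₂_add]; exact add_mem hp hq
  | monomial n a =>
    rw [eval₂_monomial]
    exact mul_mem (hf a) (pow_mem hu n)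

private theorem mul_mem_nonunits (V : ValuationSubring F) {w u : F} (hw : w ∈ V)
    (hu : u ∈ V.nonunits) : w * u ∈ V.nonunits := by
  rw [ValuationSubring.mem_nonunits_iff] at hu ⊢
  rw [map_mul]
  have h1 : V.valuation w ≤ 1 := (ValuationSubring.valuation_le_one_iff V w).2 hw
  calc V.valuation w * V.valuation u ≤ 1 * V.valuation u := mul_le_mul_left h1 _
    _ = V.valuation u := one_mul _
    _ < 1 := hu

/-- algebraicity transfer over a field. -/
private theorem isAlgebraic_transfer' {k B R : Type*} [Field k] [Field B] [Algebra k B] [CommRing R]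
    (φ : R →+* B) (σ τ : B) (hφ : ∀ c, φ c ∈ Algebra.adjoin k {τ}) (hroot : φ.IsIntegralElem σ)
    (hτ : IsAlgebraic k τ) : IsAlgebraic k σ := by
  obtain ⟨P, hP, hroot⟩ := hroot
  have hτi : IsIntegral k τ := hτ.isIntegral
  have hS : ∀ b ∈ φ.range, IsIntegral k b := by
    rintro _ ⟨c, rfl⟩
    have hle : Algebra.adjoin k {τ} ≤ integralClosure k B :=
      Algebra.adjoin_le (Set.singleton_subset_iff.mpr hτi)
    exact hle (hφ c)
  have hσ : IsIntegral φ.range σ := by
    refine ⟨P.map φ.rangeRestrict, hP.map _, ?_⟩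
    rw [Polynomial.eval₂_map]
    exact hroot
  exact (Fermat.Agent.S28.isIntegral_of_isIntegral_subring φ.range hS hσ).isAlgebraic

private theorem map_residue_ne_zero {π : A} (hπ : Irreducible π) (h : A[X]) (hh : ¬ C π ∣ h) :
    h.map (IsLocalRing.residue A) ≠ 0 := by
  intro h0
  apply hh
  rw [Polynomial.C_dvd_iff_dvd_coeff]
  intro n
  have h1 : IsLocalRing.residue A (h.coeff n) = 0 := by
    rw [← Polynomial.coeff_map, h0, Polynomial.coeff_zero]
  rw [IsLocalRing.residue_eq_zero_iff, hπ.maximalIdeal_eq, Ideal.mem_span_singleton] at h1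
  exact h1

private theorem not_C_dvd_of_map_ne_zero {π : A} (hπ : Irreducible π) (g : A[X])
    (hg : g.map (IsLocalRing.residue A) ≠ 0) : ¬ C π ∣ g := by
  rintro ⟨g', rfl⟩
  apply hg
  have : IsLocalRing.residue A π = 0 := by
    rw [IsLocalRing.residue_eq_zero_iff, hπ.maximalIdeal_eq, Ideal.mem_span_singleton]
  rw [Polynomial.map_mul, Polynomial.map_C, this, map_zero, zero_mul]

private theorem exists_pow_mul {π : A} (hπ : Irreducible π) (P : A[X]) (hP : P ≠ 0) :
    ∃ (j : ℕ) (S : A[X]), P = (C π) ^ j * S ∧ ¬ C π ∣ S := by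
  have hCp : Prime (C π : A[X]) := Polynomial.prime_C_iff.2 hπ.prime
  have hfin : FiniteMultiplicity (C π : A[X]) P := FiniteMultiplicity.of_not_isUnit hCp.not_isUnit hP
  obtain ⟨S, h1, h2⟩ := hfin.exists_eq_pow_mul_and_not_dvd
  exact ⟨_, S, h1, h2⟩

open Fermat.Agent.S28.IntVal in
private theorem inv_aeval_mem {π : A} (hπ : Irreducible π) (s t : F) (hs : Transcendental A s)
    (hst : IntX A t s) (hts : IntX A s t) (h : A[X]) (hh : ¬ C π ∣ h) (V : ValuationSubring F)
    (F1 : ∀ c : A[X], aeval s c ∈ V) (F2 : ∀ S : A[X], ¬ C π ∣ S → (aeval s S)⁻¹ ∈ V) :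
    (aeval t h)⁻¹ ∈ V := by
  have hA : ∀ a : A, algebraMap A F a ∈ V := fun a => by simpa using F1 (C a)
  have hsV : s ∈ V := by simpa using F1 X
  have htV : t ∈ V := IntX.mem_valuationSubring hts V hA hsV
  have F4 : ∀ c : A[X], aeval t c ∈ V := aeval_mem_valuationSubring V hA htV
  have hne : ∀ S : A[X], S ≠ 0 → aeval s S ≠ 0 := fun S hS h0 =>
    hS ((transcendental_iff.1 hs) S h0)
  by_contra hcon
  have hu : aeval t h ∈ V.nonunits := mem_nonunits_of_inv_not_mem V hcon
  have hu0 : aeval t h ≠ 0 := by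
    intro h0
    apply hcon
    rw [h0, inv_zero]
    exact zero_mem _
  by_cases hinv : (algebraMap A F π)⁻¹ ∈ V
  · have hall : ∀ P : A[X], P ≠ 0 → (aeval s P)⁻¹ ∈ V := by
      intro P hP
      obtain ⟨j, S, rfl, hS⟩ := exists_pow_mul hπ P hP
      rw [map_mul, map_pow, aeval_C, mul_inv, ← inv_pow]
      exact mul_mem (pow_mem hinv j) (F2 S hS)
    have hint : IntX A s (aeval t h) := IntX.trans hts (intX_aeval t h)
    letI := algL (A := A) F s
    have hint' : IsIntegral A[X] (aeval t h) := hint
    obtain ⟨q, hq0, hq⟩ := hint'.isAlgebraic.exists_nonzero_coeff_and_aeval_eq_zero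
      (mem_nonZeroDivisors_of_ne_zero hu0)
    have hdec : aeval (aeval t h) q =
        aeval (aeval t h) q.divX * aeval t h + algebraMap A[X] F (q.coeff 0) := by
      conv_lhs => rw [← Polynomial.divX_mul_X_add q]
      rw [map_add, map_mul, aeval_X, aeval_C]
    have hc0 : algebraMap A[X] F (q.coeff 0) = aeval s (q.coeff 0) := rfl
    have hw : aeval (aeval t h) q.divX ∈ V :=
      eval₂_mem_valuationSubring V (algebraMap A[X] F) (fun c => F1 c) (F4 h) _
    have h1 : aeval s (q.coeff 0) = (-(aeval (aeval t h) q.divX)) * aeval t h := by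
      rw [← hc0]
      linear_combination hq - hdec
    have h2 : aeval s (q.coeff 0) ∈ V.nonunits := by
      rw [h1]
      exact mul_mem_nonunits V (neg_mem hw) hu
    exact not_mem_nonunits_of_inv_mem V (hne _ hq0) (hall _ hq0) h2
  · have hπn : algebraMap A F π ∈ V.nonunits := mem_nonunits_of_inv_not_mem V hinv
    let fA : A →+* V := (algebraMap A F).codRestrict V.toSubring hA
    let ρ : A →+* IsLocalRing.ResidueField V := (IsLocalRing.residue V).comp fA
    have hρπ : ρ π = 0 := (residue_eq_zero_iff_mem_nonunits V (fA π)).2 hπn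
    haveI : IsLocalHom ρ := ⟨fun a ha => by
      by_contra hna
      have hm : a ∈ IsLocalRing.maximalIdeal A := (IsLocalRing.mem_maximalIdeal a).2 hna
      rw [hπ.maximalIdeal_eq, Ideal.mem_span_singleton] at hm
      obtain ⟨b, rfl⟩ := hm
      rw [map_mul, hρπ, zero_mul] at ha
      exact not_isUnit_zero ha⟩
    letI : Algebra (IsLocalRing.ResidueField A) (IsLocalRing.ResidueField V) :=
      (IsLocalRing.ResidueField.lift ρ).toAlgebra
    have halg : ∀ a : A, algebraMap (IsLocalRing.ResidueField A) (IsLocalRing.ResidueField V)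
        (IsLocalRing.residue A a) = ρ a := fun a => IsLocalRing.ResidueField.lift_residue_apply ρ a
    let fs : A[X] →+* V := ((aeval s : A[X] →ₐ[A] F) : A[X] →+* F).codRestrict V.toSubring F1
    let ft : A[X] →+* V := ((aeval t : A[X] →ₐ[A] F) : A[X] →+* F).codRestrict V.toSubring F4
    let φs : A[X] →+* IsLocalRing.ResidueField V := (IsLocalRing.residue V).comp fs
    let φt : A[X] →+* IsLocalRing.ResidueField V := (IsLocalRing.residue V).comp ft
    have hform : ∀ φ : A[X] →+* IsLocalRing.ResidueField V, (∀ a, φ (C a) = ρ a) → ∀ c,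
        φ c = aeval (φ X) (c.map (IsLocalRing.residue A)) := by
      intro φ hφ c
      have : φ = ((aeval (R := IsLocalRing.ResidueField A) (φ X)).toRingHom).comp
          (Polynomial.mapRingHom (IsLocalRing.residue A)) := by
        apply Polynomial.ringHom_ext
        · intro a
          simp [hφ, halg]
        · simp
      conv_lhs => rw [this]
      rfl
    have hφsC : ∀ a, φs (C a) = ρ a := by
      intro a
      show IsLocalRing.residue V (fs (C a)) = IsLocalRing.residue V (fA a)
      congr 1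
      apply Subtype.ext
      show aeval s (C a) = algebraMap A F a
      simp
    have hφtC : ∀ a, φt (C a) = ρ a := by
      intro a
      show IsLocalRing.residue V (ft (C a)) = IsLocalRing.residue V (fA a)
      congr 1
      apply Subtype.ext
      show aeval t (C a) = algebraMap A F a
      simp
    have hint : φt.IsIntegralElem (φs X) := by
      obtain ⟨P, hP, hroot⟩ := (intX_self_iff t s).1 hst
      refine ⟨P, hP, ?_⟩
      have h1 : P.eval₂ ft (fs X) = 0 := by
        apply Subtype.ext
        have h2 : (V.subtype) (P.eval₂ ft (fs X)) =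
            P.eval₂ ((aeval t : A[X] →ₐ[A] F) : A[X] →+* F) s := by
          rw [Polynomial.hom_eval₂]
          congr 1
          show aeval s X = s
          simp
        exact h2.trans hroot
      show P.eval₂ ((IsLocalRing.residue V).comp ft) ((IsLocalRing.residue V) (fs X)) = 0
      rw [← Polynomial.hom_eval₂, h1, map_zero]
    have h2 : φt h = 0 := (residue_eq_zero_iff_mem_nonunits V (ft h)).mpr hu
    rw [hform φt hφtC h] at h2
    have hτ : IsAlgebraic (IsLocalRing.ResidueField A) (φt X) :=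
      ⟨_, map_residue_ne_zero hπ h hh, h2⟩
    obtain ⟨gb, hgb0, hgb⟩ := isAlgebraic_transfer' φt (φs X) (φt X)
      (fun c => by rw [hform φt hφtC c]; exact Polynomial.aeval_mem_adjoin_singleton _ _) hint hτ
    obtain ⟨g, rfl⟩ := Polynomial.map_surjective _ IsLocalRing.residue_surjective gb
    have hg : ¬ C π ∣ g := not_C_dvd_of_map_ne_zero hπ g hgb0
    rw [← hform φs hφsC g] at hgb
    have h3 : aeval s g ∈ V.nonunits := (residue_eq_zero_iff_mem_nonunits V (fs g)).mp hgb
    have hg0 : g ≠ 0 := by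
      rintro rfl
      exact hg (dvd_zero _)
    exact not_mem_nonunits_of_inv_mem V (hne g hg0) (F2 g hg) h3

private theorem transcendental_of_intX (s t : F) (hs : Transcendental A s) (hst : IntX A t s) :
    Transcendental A t := by
  intro ht
  apply hs
  have h1 : (Algebra.adjoin A {t}).IsAlgebraic := Algebra.isAlgebraic_adjoin_singleton_iff.2 ht
  haveI : Algebra.IsAlgebraic A (Algebra.adjoin A {t}) := (Subalgebra.isAlgebraic_iff _).1 h1
  obtain ⟨P, hP, hroot⟩ := (intX_self_iff t s).1 hst
  let f : A[X] →+* Algebra.adjoin A {t} :=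
    ((aeval t : A[X] →ₐ[A] F) : A[X] →+* F).codRestrict (Algebra.adjoin A {t}).toSubring
      (fun c => Polynomial.aeval_mem_adjoin_singleton _ _)
  have h2 : IsIntegral (Algebra.adjoin A {t}) s := by
    refine ⟨P.map f, hP.map _, ?_⟩
    rw [Polynomial.eval₂_map]
    exact hroot
  exact h2.isAlgebraic.restrictScalars A

private theorem exists_multiple_aux {R K : Type*} [CommRing R] [Field K] [Algebra R K]
    (M : Submonoid R) (Rm : Type*) [CommRing Rm] [Algebra R Rm] [IsLocalization M Rm]
    (hunits : ∀ m : M, IsUnit (algebraMap R K m)) (x : K)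
    (h : ∀ V : ValuationSubring K, (∀ c, algebraMap R K c ∈ V) →
      (∀ m : M, (algebraMap R K m)⁻¹ ∈ V) → x ∈ V) : ∃ m : M, IsIntegral R (m • x) := by
  let g : Rm →+* K := IsLocalization.lift hunits
  letI : Algebra Rm K := g.toAlgebra
  haveI : IsScalarTower R Rm K :=
    IsScalarTower.of_algebraMap_eq (fun r => (IsLocalization.lift_eq hunits r).symm)
  have hint : IsIntegral Rm x := by
    apply isIntegralElem_of_forall_valuationSubring
    intro V hV
    refine h V (fun c => ?_) (fun m => ?_)
    · have := hV (algebraMap R Rm c)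
      have e : algebraMap Rm K (algebraMap R Rm c) = algebraMap R K c :=
        IsLocalization.lift_eq hunits c
      rwa [e] at this
    · have := hV (IsLocalization.mk' Rm 1 m)
      have e : algebraMap Rm K (IsLocalization.mk' Rm 1 m) = (algebraMap R K m)⁻¹ := by
        apply eq_inv_of_mul_eq_one_left
        have e1 : algebraMap R K m = algebraMap Rm K (algebraMap R Rm m) :=
          (IsLocalization.lift_eq hunits (m : R)).symm
        rw [e1, ← map_mul]
        have e2 := IsLocalization.mk'_spec Rm (1 : R) m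
        rw [e2, map_one, map_one]
      rwa [e] at this
  exact IsIntegral.exists_multiple_integral_of_isLocalization M _ hint

theorem isOLx_inv_aeval {π : A} (hπ : Irreducible π) (s t : F) (hs : Transcendental A s)
    (hst : IntX A t s) (hts : IntX A s t) (h : A[X]) (hh : ¬ C π ∣ h) :
    IsOLx π s (aeval t h)⁻¹ := by
  classical
  have hCp : Prime (C π : A[X]) := Polynomial.prime_C_iff.2 hπ.prime
  letI := algL (A := A) F s
  haveI : (Ideal.span {(C π : A[X])}).IsPrime := (Ideal.span_singleton_prime hCp.ne_zero).2 hCp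
  let Mo : Submonoid A[X] := (Ideal.span {(C π : A[X])}).primeCompl
  have hmem : ∀ S : A[X], S ∈ Mo ↔ ¬ C π ∣ S := fun S => by
    show S ∉ Ideal.span {(C π : A[X])} ↔ _
    rw [Ideal.mem_span_singleton]
  have hne : ∀ S : A[X], S ≠ 0 → aeval s S ≠ 0 := fun S hS h0 =>
    hS ((transcendental_iff.1 hs) S h0)
  have hunits : ∀ S : Mo, IsUnit (algebraMap A[X] F S) := by
    intro S
    apply IsUnit.mk0
    apply hne
    rintro h0
    exact (hmem S).1 S.2 (h0 ▸ dvd_zero _)
  obtain ⟨m, hm⟩ := exists_multiple_aux Mo (Localization Mo) hunits (aeval t h)⁻¹ (by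
    intro V hV1 hV2
    exact inv_aeval_mem hπ s t hs hst hts h hh V hV1 (fun S hS => hV2 ⟨S, (hmem S).2 hS⟩))
  exact ⟨m, (hmem m).1 m.2, hm⟩

/-- **`O_F(t) ⊆ O_F(s)`** for mutually integral coordinates. -/
theorem isOLx_transfer {π : A} (hπ : Irreducible π) (s t : F) (hs : Transcendental A s)
    (hst : IntX A t s) (hts : IntX A s t) {y : F} (hy : IsOLx π t y) : IsOLx π s y := by
  obtain ⟨h, hh, hint⟩ := (isOLx_iff π t y).1 hy
  have h1 : IntX A s (aeval t h * y) := IntX.trans hts hint
  have h2 := isOLx_inv_aeval hπ s t hs hst hts h hh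
  have ht : Transcendental A t := transcendental_of_intX s t hs hst
  have h0 : aeval t h ≠ 0 := by
    intro h0
    have := (transcendental_iff.1 ht) h h0
    exact hh (this ▸ dvd_zero _)
  have h3 : y = (aeval t h)⁻¹ * (aeval t h * y) := by
    rw [← mul_assoc, inv_mul_cancel₀ h0, one_mul]
  rw [h3]
  letI := algL (A := A) F s
  exact IsOL.mul hπ.prime h2 (IsOL.of_isIntegral hπ.prime h1)

theorem isPiOLx_transfer {π : A} (hπ : Irreducible π) (s t : F) (hs : Transcendental A s)
    (hst : IntX A t s) (hts : IntX A s t) {y : F} (hy : IsPiOLx π t y) : IsPiOLx π s y := by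
  obtain ⟨z, hz, rfl⟩ := (isPiOLx_iff π t y).1 hy
  exact (isPiOLx_iff π s _).2 ⟨z, isOLx_transfer hπ s t hs hst hts hz, rfl⟩

end b

end Fermat.Agent.SS.GM2
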