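import Fermat.Agent.SS.GM2.RedK
import Fermat.Agent.SS.GM2.Transfer
import Fermat.Agent.Crux.G.ChartInt
import Fermat.Agent.Crux.GM.NormalK
import Fermat.Agent.SS.GM2.GRHaupt

/-!
# SS / GM2 : normality of the special fibre at level `M` (`ℓ ∤ M`), in `q`-expansion language

`GR M r tK tk` : every `a ∈ F_k(M)` integral over `k[tk]` lifts to a `c ∈ F_K(M)` integral over `A[tK]`, `RedK r c a`.

## TASK `SS/GM2-GR-good` : `gr_of_goodCoord`  (for the charts `x`, `x⁻¹` of a `GoodCoord`)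
Instantiate as in `Crux.GM.coreK_of_goodCoord` / `Main.core_tower`: `E0 = K⟮castS K xh⟯`, `F0 = extendScalars hle`, `L := F := F0`,
`Φ = algebraMap F0 K((q))`, `d = 1`, `W = 1`, `w = 1`, `W' = 1`.
 `GM.H1_of_goodCoord` gives `TracePerfectx F π x` and the q-links (Q1) `g/h`, `h̄ ≠ 0` ⟹ `IsOLx`, (Q2) `ḡ = 0` ⟹ `IsPiOLx`;
 `GM.H2_of_goodCoord` gives `Unramx F π x {0,β}`, `Unramx F π x⁻¹ {0,β'}` (as in `GM.core_abstract`).
 1. `exists_redK_of_mem` : `e ∈ F_K(M)`, `RedK r e a`; `IsOLx π x e` by (Q1).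
 2. lift the monic equation of `a` over `k[x̄]` to a monic `P ∈ A[X][X]` (`Polynomial.lifts_and_degree_eq_and_monic` /
    coefficientwise, `r` surjective); `RedK r (P(e)) 0` (`RedK.map_eval₂`), so `IsPiOLx π x (P(e))` by (Q2).
 3. `G.chartIntx` : `c` with `IntX A x c`, `IsPiOLx π x (c - e)`.
 4. `IsPiOLx π x z ⟹ RedK r (Φ z) 0`: `z = π z'`, `IsOLx z'`, `G.inV_of_isOL` (θ = evAt (castS A xh), `hθ` from transcendence of
    `x̄`, `hO = exists_pow_mul`, `hfrac` from `GM.exists_basis_lift` + denominators, or from `S28`-type generation).  So `RedK r c a`.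
 Chart `x⁻¹`: the same with `G.isOLx_inv_iff`, `G.isPiOLx_inv_iff`, `TracePerfectx F π x⁻¹` (see how `G.theoremG` gets it: file
 `Crux/G/TwoCharts.lean`), `H2'`.

## TASK `SS/GM2-GR-haupt` : `grJ_of_haupt`  (`ℓ = 2, 3`: from the charts of `x = V_e h` to the charts of `J = j_M`, `J x = P(x)`)
`P ∈ ℤ[X]` monic of degree `d ≥ 2`, `ℓ ∤ P(0)`.  All integrality claims by `intX_of_forall_valuationSubring`-type arguments
(valuation criterion) inside the field `K((q))` resp. `k((q))`.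
 CHART `J`.  `x` is integral over `A[J]` (`P(x) - J x = 0`), `x⁻¹` too (reverse polynomial, leading coefficient `P(0) ∈ A^×`); `J ∈ A[x, x⁻¹]`.
   `a` integral over `k[J̄]` ⟹ integral over `k[x̄, x̄⁻¹]` ⟹ `x̄^n a` integral over `k[x̄]`, `n ≫ 0`.  Lift `c'`; `c = c'/x^n`.
 CHART `J⁻¹ = x/P(x)`.  FACT: for a valuation ring `V ⊇ A[1/J]` (or `k[1/J̄]`): either `x ∈ V` and `P(x) ∈ V^×`
   [if `P(x) ∈ m_V` then `x = (x/P) P ∈ m_V`, so `P(x) ≡ P(0)` is a unit], or `x⁻¹ ∈ m_V` and then `x^d/P(x) ∈ V^×`.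
   Hence `x^i/P(x)^j` (`0 ≤ i ≤ d j`) is integral over `A[1/J]`.
   `a` integral over `k[1/J̄]`: `P̄^n a` is integral over `k[x̄]` and `(P̄/x̄^d)^n a` over `k[x̄⁻¹]` for `n ≫ 0` (valuation criterion again, or
   multiply the equation).  Lift: `c₁'` integral over `A[x]`, `c₂'` integral over `A[x⁻¹]`; `c₁ = c₁'/P^n`, `c₂ = c₂' (x^d/P)^n` both reduce to `a`.
   Partition of unity: `1 = (∑_i p_i x^i / P)^N = U₁ + U₂`, `U₁` = the terms `x^s/P^N` with `s ≤ dN/2`, `U₂` the others.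
   `c = U₁ c₁ + U₂ c₂`, `c̄ = a`.  `U₁ c₁` is integral over `A[1/J]`: if `x ∈ V` clear; if `x⁻¹ ∈ m_V`: `c₁'/x^D ∈ V` for a fixed `D`
   (`G.exists_intX_inv_pow_mul`) and `x^(s+D)/P^(N+n) ∈ V` as soon as `s + D ≤ d (N + n)`.  Symmetrically for `U₂ c₂`.  Choose `N` large.
 (Alternative for the explicit `P = (x+16)^3`, `(x+27)(x+3)^3`: `u₂ = c₀/(x+c₀)`, `u₁ = x/(x+c₀)`, `c₀ = 16, 3`.)

## `grJ` : assembly (`ℓ ≥ 5`: `GM.goodCoord_j`; `ℓ = 3`: `M = 2e`, `GM.hauptData_2`; `ℓ = 2`: `M = 3e`, `GM.hauptData_3`;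
see the proof of `GM.exists_goodCoord`).
-/

set_option autoImplicit false
set_option linter.unusedSectionVars false

open Polynomial ModularCurve

namespace Fermat.Agent.SS.GM2

open Fermat.Agent.S28 (V J evAt)
open Fermat.Agent.Crux.GM (castS GoodCoord HauptData)
open Fermat.Agent.S24 (Kb)

/-- lifting of integral elements from the special fibre (level `M`, chart `t`). -/
def GR (M : ℕ) [NeZero M] {A K k : Type*} [CommRing A] [Field K] [Algebra A K] [Field k]
    (r : A →+* k) (tK : LaurentSeries K) (tk : LaurentSeries k) : Prop :=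
  ∀ a ∈ modularFunctionFieldFullC k M, (evAt tk).IsIntegralElem a →
    ∃ c ∈ modularFunctionFieldFullC K M, (evK A tK).IsIntegralElem c ∧ RedK r c a

section aux

variable {A K k : Type*} [CommRing A] [IsDomain A] [Field K] [Algebra A K] [IsFractionRing A K]
  [Field k] (r : A →+* k)

/-- every element of `F_k(M)` is `ḡ/h̄` with `g h ∈ A((q)) ∩ F_K(M)`. -/
theorem GRaux.exists_frac_of_mem (M : ℕ) [NeZero M] (hr : Function.Surjective r)
    {a : LaurentSeries k} (ha : a ∈ modularFunctionFieldFullC k M) :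
    ∃ g h : LaurentSeries A, coeffMap (algebraMap A K) g ∈ modularFunctionFieldFullC K M ∧
      coeffMap (algebraMap A K) h ∈ modularFunctionFieldFullC K M ∧ coeffMap r h ≠ 0 ∧
      coeffMap r g = a * coeffMap r h := by
  rw [modularFunctionFieldFullC] at ha
  induction ha using IntermediateField.adjoin_induction with
  | mem y hy =>
    obtain ⟨d, hd, hdN, rfl⟩ := hy
    refine ⟨qExpand A d (jqModC A), 1, ?_, ?_, ?_, ?_⟩
    · rw [coeffMap_qExpand, coeffMap_jqModC]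
      exact jqModCd_mem_full K M hdN
    · rw [map_one]; exact one_mem _
    · rw [map_one]; exact one_ne_zero
    · rw [coeffMap_qExpand, coeffMap_jqModC, map_one, mul_one]
  | algebraMap c =>
    obtain ⟨c', rfl⟩ := hr c
    refine ⟨HahnSeries.single 0 c', 1, ?_, ?_, ?_, ?_⟩
    · rw [coeffMap_single, ← algebraMap_laurentSeries_eq_single]
      exact IntermediateField.algebraMap_mem _ _
    · rw [map_one]; exact one_mem _
    · rw [map_one]; exact one_ne_zero
    · rw [coeffMap_single, map_one, mul_one, algebraMap_laurentSeries_eq_single]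
  | add x y _ _ hx hy =>
    obtain ⟨g, h, h1, h2, h3, h4⟩ := hx
    obtain ⟨g', h', h1', h2', h3', h4'⟩ := hy
    refine ⟨g * h' + g' * h, h * h', ?_, ?_, ?_, ?_⟩
    · rw [map_add, map_mul, map_mul]
      exact add_mem (mul_mem h1 h2') (mul_mem h1' h2)
    · rw [map_mul]; exact mul_mem h2 h2'
    · rw [map_mul]; exact mul_ne_zero h3 h3'
    · rw [map_add, map_mul, map_mul, map_mul, h4, h4']; ring
  | inv x _ hx =>
    obtain ⟨g, h, h1, h2, h3, h4⟩ := hx
    by_cases hx0 : x = 0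
    · refine ⟨0, 1, ?_, ?_, ?_, ?_⟩
      · rw [map_zero]; exact zero_mem _
      · rw [map_one]; exact one_mem _
      · rw [map_one]; exact one_ne_zero
      · rw [hx0, inv_zero, zero_mul, map_zero]
    · refine ⟨h, g, h2, h1, ?_, ?_⟩
      · rw [h4]; exact mul_ne_zero hx0 h3
      · rw [h4]; field_simp
  | mul x y _ _ hx hy =>
    obtain ⟨g, h, h1, h2, h3, h4⟩ := hx
    obtain ⟨g', h', h1', h2', h3', h4'⟩ := hy
    refine ⟨g * g', h * h', ?_, ?_, ?_, ?_⟩
    · rw [map_mul]; exact mul_mem h1 h1'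
    · rw [map_mul]; exact mul_mem h2 h2'
    · rw [map_mul]; exact mul_ne_zero h3 h3'
    · rw [map_mul, map_mul, h4, h4']; ring

omit [IsDomain A] [IsFractionRing A K] in
theorem GRaux.evK_castS (th : LaurentSeries ℤ) :
    evK A (castS K th) = (coeffMap (algebraMap A K)).comp (evAt (castS A th)) := by
  apply Polynomial.ringHom_ext
  · intro a
    simp only [evK, evAt, RingHom.comp_apply, coe_eval₂RingHom, eval₂_C]
    rw [HahnSeries.C_apply, HahnSeries.C_apply, coeffMap_single]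
  · simp only [evK, evAt, RingHom.comp_apply, coe_eval₂RingHom, eval₂_X]
    rw [Fermat.Agent.Crux.GM.coeffMap_castS]

end aux

variable {A K k : Type} [CommRing A] [IsDomain A] [IsDiscreteValuationRing A] [Field K]
  [Algebra A K] [IsFractionRing A K] [Algebra K Kb] [Field k] [PerfectField k] (r : A →+* k)

open Fermat.Agent.Crux.GM.Normal (homog map_homog eval₂_mul_pow) in
/-- `GR` in the chart `th` (`= xh` or its inverse), from `Crux.GM.normalK_of_goodCoord`. -/
theorem GRaux.gr_of_th (M : ℕ) [NeZero M] (ℓ : ℕ) (hℓ : ℓ.Prime) (xh : LaurentSeries ℤ)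
    (β : ℤ) (n : ℕ) (hx : GoodCoord M ℓ xh β n) (hr : Function.Surjective r) (hrℓ : r ℓ = 0)
    (th : LaurentSeries ℤ) (hth : th = xh ∨ xh * th = 1) :
    GR M r (castS K th) (castS k th) := by
  intro a ha hint
  obtain ⟨g, h, hg, hh, hne, hga⟩ := GRaux.exists_frac_of_mem (K := K) r M hr ha
  obtain ⟨Pb, hPb, hroot⟩ := hint
  have hl : Pb ∈ Polynomial.lifts (mapRingHom r) := by
    rw [Polynomial.mem_lifts]
    exact Polynomial.map_surjective _ (Polynomial.map_surjective r hr) Pb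
  obtain ⟨P, hPmap, -, hP⟩ := Polynomial.lifts_and_natDegree_eq_and_monic hl hPb
  have hιinj : Function.Injective (coeffMap (algebraMap A K)) :=
    Fermat.Agent.Crux.GM.coeffMap_algebraMap_injective
  have hPz : coeffMap r (homog (evAt (castS A th)) P g h) = 0 := by
    rw [map_homog, ← eval₂_mul_pow _ P hga.symm, Fermat.Agent.S28.Build.coeffMap_comp_evAt,
      ← Polynomial.eval₂_map, hPmap, Fermat.Agent.Crux.GM.coeffMap_castS, hroot, zero_mul]
  obtain ⟨g', h', hg', hh', hne', hcomp, Q, hQ, hQ0⟩ :=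
    Fermat.Agent.Crux.GM.normalK_of_goodCoord M ℓ hℓ xh β n hx r hr hrℓ th hth g h hg hh hne P hP hPz
  have hh'0 : coeffMap (algebraMap A K) h' ≠ 0 := by
    intro h0
    apply hne'
    rw [hιinj (h0.trans (map_zero _).symm), map_zero]
  have hc : coeffMap (algebraMap A K) g' / coeffMap (algebraMap A K) h'
      * coeffMap (algebraMap A K) h' = coeffMap (algebraMap A K) g' := div_mul_cancel₀ _ hh'0
  refine ⟨coeffMap (algebraMap A K) g' / coeffMap (algebraMap A K) h', div_mem hg' hh',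
    ⟨Q, hQ, ?_⟩, g', h', hne', hc, ?_⟩
  · have h1 := eval₂_mul_pow (evK A (castS K th)) Q hc
    rw [GRaux.evK_castS, ← map_homog, hQ0, map_zero] at h1
    rw [GRaux.evK_castS]
    exact (mul_eq_zero.1 h1).resolve_right (pow_ne_zero _ hh'0)
  · rw [map_mul, map_mul, hga] at hcomp
    apply mul_right_cancel₀ hne
    rw [hcomp]; ring

theorem gr_of_goodCoord (M : ℕ) [NeZero M] (ℓ : ℕ) (hℓ : ℓ.Prime) (xh : LaurentSeries ℤ)
    (β : ℤ) (n : ℕ) (hx : GoodCoord M ℓ xh β n) (hr : Function.Surjective r) (hrℓ : r ℓ = 0) :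
    GR M r (castS K xh) (castS k xh) ∧ GR M r (castS K xh)⁻¹ (castS k xh)⁻¹ := by
  refine ⟨GRaux.gr_of_th r M ℓ hℓ xh β n hx hr hrℓ xh (Or.inl rfl), ?_⟩
  obtain ⟨th, hth⟩ : ∃ th : LaurentSeries ℤ, xh * th = 1 := by
    have hu : IsUnit xh := by
      rw [HahnSeries.isUnit_iff, hx.leading]
      exact isUnit_one
    exact hu.exists_right_inv
  have h1 : ∀ (R : Type) [Field R], castS R th = (castS R xh)⁻¹ := by
    intro R _
    apply eq_inv_of_mul_eq_one_right
    rw [castS, castS, ← map_mul, hth, map_one]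
  have := GRaux.gr_of_th (K := K) r M ℓ hℓ xh β n hx hr hrℓ th (Or.inr hth)
  rwa [h1 K, h1 k] at this

theorem grJ_of_haupt (M : ℕ) [NeZero M] (ℓ : ℕ) (hℓ : ℓ.Prime) (xh : LaurentSeries ℤ) (P : ℤ[X])
    (hP : P.Monic) (hdeg : 2 ≤ P.natDegree) (hP0 : ¬ (ℓ : ℤ) ∣ P.eval 0)
    (hord : xh.order < 0) (hlead : xh.leadingCoeff = 1)
    (hid : evAt xh P = Jh M * xh)
    (hmemK : castS K xh ∈ modularFunctionFieldFullC K M)
    (hmemk : castS k xh ∈ modularFunctionFieldFullC k M)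
    (hr : Function.Surjective r) (hrℓ : r ℓ = 0)
    (h : GR M r (castS K xh) (castS k xh) ∧ GR M r (castS K xh)⁻¹ (castS k xh)⁻¹) :
    GR M r (castS K (Jh M)) (castS k (Jh M)) ∧ GR M r (castS K (Jh M))⁻¹ (castS k (Jh M))⁻¹ := by
  -- `P(0)` is a unit of `A`
  have hk0 : ((P.eval 0 : ℤ) : k) ≠ 0 := by
    intro h0
    have hcop : IsCoprime (ℓ : ℤ) (P.eval 0) :=
      (Prime.coprime_iff_not_dvd (Nat.prime_iff_prime_int.mp hℓ)).mpr hP0
    obtain ⟨u, w, huw⟩ := hcop
    have h1 := congrArg (Int.cast : ℤ → k) huw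
    have hℓk : (ℓ : k) = 0 := by
      rw [← map_natCast r, hrℓ]
    push_cast at h1
    rw [hℓk, h0] at h1
    simp at h1
  have hunit : IsUnit ((P.map (Int.castRingHom A)).coeff 0) := by
    rw [coeff_map, coeff_zero_eq_eval_zero]
    by_contra hnu
    have h1 : (Int.castRingHom A) (P.eval 0) ∈ IsLocalRing.maximalIdeal A :=
      (IsLocalRing.mem_maximalIdeal _).mpr hnu
    rw [← IsLocalRing.eq_maximalIdeal (RingHom.ker_isMaximal_of_surjective r hr),
      RingHom.mem_ker] at h1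
    apply hk0
    rw [← h1]
    simp
  have hmap : (P.map (Int.castRingHom A)).map r = P.map (Int.castRingHom k) := by
    rw [Polynomial.map_map]
    congr 1
    exact RingHom.ext_int _ _
  have hidk : castS k (Jh M) * castS k xh =
      evAt (castS k xh) ((P.map (Int.castRingHom A)).map r) := by
    rw [hmap, ← Fermat.Agent.S28.Build.coeffMap_evAt, hid, map_mul]
  have hidK : castS K (Jh M) * castS K xh = evK A (castS K xh) (P.map (Int.castRingHom A)) := by
    have h1 : castS K (Jh M) * castS K xh = evAt (castS K xh) (P.map (Int.castRingHom K)) := by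
      rw [← Fermat.Agent.S28.Build.coeffMap_evAt, hid, map_mul]
    rw [h1]
    change eval₂ _ _ (P.map _) = eval₂ _ _ (P.map _)
    rw [eval₂_map, eval₂_map]
    congr 1
    exact RingHom.ext_int _ _
  have hxk0 : castS k xh ≠ 0 := Fermat.Agent.Crux.GM.castS_ne_zero xh hlead
  have hPk0 : evAt (castS k xh) ((P.map (Int.castRingHom A)).map r) ≠ 0 := by
    rw [Fermat.Agent.S28.evAt_eq_aeval]
    intro h0
    have htr := Fermat.Agent.Crux.GM.transcendental_of_order_neg (castS k xh)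
      (by rw [Fermat.Agent.Crux.GM.order_castS xh hlead]; exact hord)
    exact ((hP.map (Int.castRingHom A)).map r).ne_zero (transcendental_iff.mp htr _ h0)
  exact Haupt.core r (modularFunctionFieldFullC K M) (modularFunctionFieldFullC k M)
    (castS K xh) (castS K (Jh M)) (castS k xh) (castS k (Jh M)) (P.map (Int.castRingHom A))
    (hP.map _) (by rw [hP.natDegree_map]; exact hdeg) hunit hmemK hmemk (RedK.of_castS xh) hxk0
    hPk0 hidK hidk h.1 h.2

open Fermat.Agent.Crux.GM in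
theorem GRaux.grJ_of_hauptData (M0 e : ℕ) [NeZero M0] [NeZero e] [NeZero (M0 * e)]
    (h : LaurentSeries ℤ) (P : ℤ[X]) (β : ℤ) (hd : HauptData M0 h P β) (ℓ : ℕ) (hℓ : ℓ.Prime)
    (hℓM : ¬ ℓ ∣ M0 * e) (hβ : ¬ (ℓ : ℤ) ∣ β) (hP0 : ¬ (ℓ : ℤ) ∣ P.eval 0)
    (hr : Function.Surjective r) (hrℓ : r ℓ = 0) :
    GR (M0 * e) r (castS K (Jh (M0 * e))) (castS k (Jh (M0 * e))) ∧
      GR (M0 * e) r (castS K (Jh (M0 * e)))⁻¹ (castS k (Jh (M0 * e)))⁻¹ := by
  have hK0 : CharZero K :=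
    ((algebraMap K Kb).charZero_iff (algebraMap K Kb).injective).2 inferInstance
  have hchar : CharP k ℓ := by
    have : (ℓ : k) = 0 := by rw [← map_natCast r, hrℓ]
    exact (CharP.charP_iff_prime_eq_zero hℓ).mpr this
  have hM0 : (M0 : k) ≠ 0 := by
    rw [Ne, CharP.cast_eq_zero_iff k ℓ]
    exact fun hdvd => hℓM (Dvd.dvd.mul_right hdvd e)
  obtain ⟨n, hn⟩ := goodCoord_of_hauptData M0 e h P β hd ℓ hℓ hℓM hβ hP0
  have hid : evAt (V ℤ e h) P = Jh (M0 * e) * V ℤ e h := by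
    rw [← Fermat.Agent.S28.Build.V_evAt, hd.ident, map_mul, qExpand_qExpand]
    have : NeZero (e * M0) := ⟨Nat.mul_ne_zero (NeZero.ne e) (NeZero.ne M0)⟩
    rw [qExpand_congr (mul_comm e M0)]
  exact grJ_of_haupt r (M0 * e) ℓ hℓ (V ℤ e h) P hd.monic hd.deg hP0 hn.order_neg hn.leading hid
    (hn.mem K) (CoordHAux.mem_full_V k M0 e h (hd.mem k hM0)) hr hrℓ
    (gr_of_goodCoord r (M0 * e) ℓ hℓ _ β n hn hr hrℓ)

open Fermat.Agent.Crux.GM in
/-- **normality at level `M` in the `J`-charts.** -/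
theorem grJ (M : ℕ) [NeZero M] (ℓ : ℕ) (hℓ : ℓ.Prime) (hℓM : ¬ ℓ ∣ M)
    (hadm : Fermat.Agent.Crux.Admissible ℓ M) (hr : Function.Surjective r) (hrℓ : r ℓ = 0) :
    GR M r (castS K (Jh M)) (castS k (Jh M)) ∧ GR M r (castS K (Jh M))⁻¹ (castS k (Jh M))⁻¹ := by
  by_cases h5 : 5 ≤ ℓ
  · obtain ⟨n, hn⟩ := goodCoord_j M ℓ hℓ h5 hℓM
    exact gr_of_goodCoord r M ℓ hℓ _ _ n hn hr hrℓ
  have hℓ2 := hℓ.two_le
  have hcases : ℓ = 2 ∨ ℓ = 3 := by
    have h4 : ℓ ≠ 4 := by
      rintro rfl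
      exact absurd hℓ (by norm_num)
    omega
  rcases hcases with rfl | rfl
  · obtain ⟨e, rfl⟩ := hadm.2 rfl
    have : NeZero e := ⟨fun h => NeZero.ne (3 * e) (by rw [h, mul_zero])⟩
    exact GRaux.grJ_of_hauptData r 3 e h3 _ (-27) hauptData_3 2 hℓ hℓM (by norm_num) (by simp) hr hrℓ
  · obtain ⟨e, rfl⟩ := hadm.1 rfl
    have : NeZero e := ⟨fun h => NeZero.ne (2 * e) (by rw [h, mul_zero])⟩
    exact GRaux.grJ_of_hauptData r 2 e h2 _ (-64) hauptData_2 3 hℓ hℓM (by norm_num) (by simp) hr hrℓ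

end Fermat.Agent.SS.GM2
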