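import Fermat.Agent.SS.GM2.RedK
import Fermat.Agent.Crux.GM.NormalA

/-!
# SS / GM2 : the Gauss lemma for TWO embeddings     (TASK `SS/GM2-Gauss2`)

This is `Crux/GM/H1a.lean` + parts (c), (d) of `Crux/GM/H1.lean` with ONE embedding `Φ : F → K((q))`
replaced by TWO embeddings `Φ₁ Φ₂` ("the Gauss valuation of `E = Frac A[X]` has exactly two
extensions to `F`").  COPY THOSE TWO FILES and replace every reduction step by the pair.

SETTING (one chart).  `A` DVR, `π`, `K = Frac A`, `r : A → k` surjective.  `E = Frac A[X]`, `F/E` finite of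
degree `card ι`.  `Φ_j(P) = ι (P(t_j))` for `P ∈ A[X]`;  `b_j i ∈ A((q))` with `ι (b_j i) = Φ_j (b' i)`.
(hind) PAIR INDEPENDENCE: if `∑ P_i(t̄₁) b̄₁ i = 0` and `∑ P_i(t̄₂) b̄₂ i = 0` (`P_i ∈ k[X]`) then all `P_i = 0`.

(a) `linearIndependent₂` : the `b' i` are independent over `A[X]` (relation `∑ P_i b'_i = 0`; apply
    `Φ₁` and `Φ₂`, `ι` injective, reduce, (hind): `C π ∣ P_i` for all `i`; divide, iterate: as
    `GM.eq_zero_of_sum_evAt_eq_zero`), hence over `E`, hence a basis (`hn`).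
(b) `exists_coords₂` : the Gauss lemma.  `f = ∑ (P_i/Q) b'_i`, `(Q, P_i)` not all divisible by `π`.
    `Q(t_j) g_j = (∑ P_i(t_j) b_j i) h_j` (`j = 1, 2`).  If `Q̄ = 0` then both sums reduce to `0`, so all
    `P̄_i = 0`: contradiction.  If `ḡ₁ = ḡ₂ = 0` then all `P̄_i = 0`.
(c) `isOL_basis₂` : (b) for `f = b'_i b'_j`; `(Q b'_i) Λ ⊆ Λ`, `Λ = ∑ A[X] b'_l` (as `GM.isOL_basis`).
(d) `isOL_of_redK₂`, `isPiOL_of_redK₂`, `red_eq₂`.
-/

set_option autoImplicit false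
set_option linter.unusedSectionVars false

open Polynomial ModularCurve

namespace Fermat.Agent.SS.GM2

open Fermat.Agent.Crux.G
open Fermat.Agent.S28 (V J evAt)

variable {A K k : Type*} [CommRing A] [IsDomain A] [IsDiscreteValuationRing A] [Field K]
  [Algebra A K] [IsFractionRing A K] [Field k] (r : A →+* k) (π : A)
variable (E : Type*) {F : Type*} [Field E] [Field F] [Algebra A[X] E] [IsFractionRing A[X] E]
  [Algebra A[X] F] [Algebra E F] [IsScalarTower A[X] E F]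
variable (Φ₁ Φ₂ : F →+* LaurentSeries K) (t₁ t₂ : LaurentSeries A) {ι : Type*} [Fintype ι]
  (b₁ b₂ : ι → LaurentSeries A) (b' : ι → F)

/-- the hypotheses of the two-embedding Gauss lemma. -/
structure Gauss2Data : Prop where
  hr : Function.Surjective r
  hπ : Irreducible π
  hΦ₁ : ∀ P : A[X], Φ₁ (algebraMap A[X] F P) = coeffMap (algebraMap A K) (evAt t₁ P)
  hΦ₂ : ∀ P : A[X], Φ₂ (algebraMap A[X] F P) = coeffMap (algebraMap A K) (evAt t₂ P)
  hb₁ : ∀ i, Φ₁ (b' i) = coeffMap (algebraMap A K) (b₁ i)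
  hb₂ : ∀ i, Φ₂ (b' i) = coeffMap (algebraMap A K) (b₂ i)
  hind : ∀ P : ι → k[X], ∑ i, evAt (coeffMap r t₁) (P i) * coeffMap r (b₁ i) = 0 →
    ∑ i, evAt (coeffMap r t₂) (P i) * coeffMap r (b₂ i) = 0 → ∀ i, P i = 0
  hn : Module.finrank E F = Fintype.card ι
  hn0 : 0 < Fintype.card ι

variable {r π E Φ₁ Φ₂ t₁ t₂ b₁ b₂ b'}

namespace Gauss2

open Fermat.Agent.Crux.GM (coeffMap_algebraMap_injective C_dvd_of_map_eq_zero C_pi_not_isUnit)

/-- apply `Φ` to a combination of the `b'_i`. -/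
theorem Phi_sum_smul (Φ : F →+* LaurentSeries K) (t : LaurentSeries A) (b : ι → LaurentSeries A)
    (hΦ : ∀ P : A[X], Φ (algebraMap A[X] F P) = coeffMap (algebraMap A K) (evAt t P))
    (b' : ι → F) (hb' : ∀ i, Φ (b' i) = coeffMap (algebraMap A K) (b i)) (P : ι → A[X]) :
    Φ (∑ i, P i • b' i) = coeffMap (algebraMap A K) (∑ i, evAt t (P i) * b i) := by
  rw [map_sum, map_sum]
  refine Finset.sum_congr rfl fun i _ => ?_
  rw [Algebra.smul_def, map_mul, hΦ, hb', map_mul]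

/-- from a relation `Q f = ∑ P_i b'_i` to a relation between series. -/
theorem series_rel_of_rel (Φ : F →+* LaurentSeries K) (t : LaurentSeries A)
    (b : ι → LaurentSeries A)
    (hΦ : ∀ P : A[X], Φ (algebraMap A[X] F P) = coeffMap (algebraMap A K) (evAt t P))
    (b' : ι → F) (hb' : ∀ i, Φ (b' i) = coeffMap (algebraMap A K) (b i))
    (f : F) (g h : LaurentSeries A)
    (hf : Φ f * coeffMap (algebraMap A K) h = coeffMap (algebraMap A K) g)
    (Q : A[X]) (P : ι → A[X]) (hrel : Q • f = ∑ i, P i • b' i) :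
    evAt t Q * g = (∑ i, evAt t (P i) * b i) * h := by
  apply coeffMap_algebraMap_injective (K := K)
  rw [map_mul, map_mul, ← Phi_sum_smul Φ t b hΦ b' hb' P, ← hrel, Algebra.smul_def, map_mul, hΦ,
    ← hf, mul_assoc]

/-- reduction of a combination. -/
theorem red_sum (r : A →+* k) (t : LaurentSeries A) (b : ι → LaurentSeries A) (P : ι → A[X]) :
    coeffMap r (∑ i, evAt t (P i) * b i)
      = ∑ i, evAt (coeffMap r t) ((P i).map r) * coeffMap r (b i) := by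
  rw [map_sum]
  refine Finset.sum_congr rfl fun i _ => ?_
  rw [map_mul, Fermat.Agent.S28.Build.coeffMap_evAt]

theorem evAt_C' (t : LaurentSeries A) (c : A) : evAt t (C c) = HahnSeries.C c := by
  simp [evAt]

theorem red_C_pi (r : A →+* k) (hr : Function.Surjective r) (hπ : Irreducible π) :
    coeffMap r (HahnSeries.C π) = 0 := by
  rw [Fermat.Agent.S28.Build.coeffMap_C,
    Fermat.Agent.Crux.GM.Normal.map_irreducible_eq_zero' r hr hπ, map_zero]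

/-- the key reduction step. -/
theorem C_dvd (D : Gauss2Data r π E Φ₁ Φ₂ t₁ t₂ b₁ b₂ b') (P : ι → A[X])
    (h₁ : coeffMap r (∑ i, evAt t₁ (P i) * b₁ i) = 0)
    (h₂ : coeffMap r (∑ i, evAt t₂ (P i) * b₂ i) = 0) (i : ι) : C π ∣ P i := by
  rw [red_sum] at h₁ h₂
  exact C_dvd_of_map_eq_zero r D.hr D.hπ (D.hind (fun i => (P i).map r) h₁ h₂ i)

/-- descent: relations `∑ P_i(t_j) b_j i = 0` (`j = 1, 2`) force `P = 0`. -/
theorem eq_zero_of_sums (D : Gauss2Data r π E Φ₁ Φ₂ t₁ t₂ b₁ b₂ b') (P : ι → A[X])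
    (h₁ : ∑ i, evAt t₁ (P i) * b₁ i = 0) (h₂ : ∑ i, evAt t₂ (P i) * b₂ i = 0) (i : ι) :
    P i = 0 := by
  have hdiv : ∀ (t : LaurentSeries A) (b : ι → LaurentSeries A) (P P' : ι → A[X]),
      (∀ i, P i = C π * P' i) → ∑ i, evAt t (P i) * b i = 0 →
      ∑ i, evAt t (P' i) * b i = 0 := by
    intro t b P P' hP' h
    have h2 : HahnSeries.C π * ∑ i, evAt t (P' i) * b i = 0 := by
      rw [← h, Finset.mul_sum]
      refine Finset.sum_congr rfl fun i _ => ?_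
      rw [hP' i, map_mul, evAt_C', mul_assoc]
    have hC : (HahnSeries.C π : LaurentSeries A) ≠ 0 := HahnSeries.C_ne_zero D.hπ.ne_zero
    exact (mul_eq_zero.mp h2).resolve_left hC
  have key : ∀ (m : ℕ) (P : ι → A[X]), ∑ i, evAt t₁ (P i) * b₁ i = 0 →
      ∑ i, evAt t₂ (P i) * b₂ i = 0 → ∀ i, (C π : A[X]) ^ m ∣ P i := by
    intro m
    induction m with
    | zero => intro P _ _ i; simp
    | succ m ih =>
      intro P h₁ h₂ i
      have hd := C_dvd D P (by rw [h₁, map_zero]) (by rw [h₂, map_zero])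
      choose P' hP' using hd
      rw [hP' i, pow_succ']
      exact mul_dvd_mul_left _ (ih P' (hdiv t₁ b₁ P P' hP' h₁) (hdiv t₂ b₂ P P' hP' h₂) i)
  by_contra hne
  obtain ⟨m, hm⟩ := FiniteMultiplicity.of_not_isUnit (C_pi_not_isUnit D.hπ) hne
  exact hm (key _ P h₁ h₂ i)

theorem algebraMap_injective' (E : Type*) {F : Type*} [Field E] [Field F] [Algebra A[X] E]
    [IsFractionRing A[X] E] [Algebra A[X] F] [Algebra E F] [IsScalarTower A[X] E F] :
    Function.Injective (algebraMap A[X] F) := by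
  rw [IsScalarTower.algebraMap_eq A[X] E F]
  exact (algebraMap E F).injective.comp (IsFractionRing.injective A[X] E)

/-- `RedK` from `InV`. -/
theorem redK_of_inV {x : LaurentSeries K}
    (h : QLink.InV (coeffMap (algebraMap A K)) (coeffMap r) x) : ∃ a, RedK r x a := by
  obtain ⟨g, h, hh, e⟩ := h
  exact ⟨coeffMap r g / coeffMap r h, g, h, hh, e, (div_mul_cancel₀ _ hh).symm⟩

/-- one embedding: `Φ(O_F) ⊆ V`. -/
theorem inV_of_isOL' (hr : Function.Surjective r) (hπ : Irreducible π)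
    (Φ : F →+* LaurentSeries K) (t : LaurentSeries A)
    (hΦ : ∀ P : A[X], Φ (algebraMap A[X] F P) = coeffMap (algebraMap A K) (evAt t P))
    (ht : Transcendental k (coeffMap r t))
    (hfrac : ∀ y : F, ∃ g h : LaurentSeries A, h ≠ 0 ∧
      Φ y * coeffMap (algebraMap A K) h = coeffMap (algebraMap A K) g)
    (f : F) (hf : IsOL π f) : QLink.InV (coeffMap (algebraMap A K)) (coeffMap r) (Φ f) :=
  QLink.inV_of_isOL (π := π) (coeffMap_algebraMap_injective (K := K)) (evAt t)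
    (Fermat.Agent.Crux.GM.Normal.red_evAt_eq_zero_iff r t hr hπ ht)
    (fun g hg => by
      rw [evAt_C']
      exact Fermat.Agent.Crux.GM.Normal.exists_pow_mul_red_ne_zero r hr hπ g hg)
    Φ hΦ hfrac hf

/-- one embedding: `Φ(π O_F) ⊆ m_V`. -/
theorem redK_zero_of_isPiOL' (hr : Function.Surjective r) (hπ : Irreducible π)
    (Φ : F →+* LaurentSeries K) (t : LaurentSeries A)
    (hΦ : ∀ P : A[X], Φ (algebraMap A[X] F P) = coeffMap (algebraMap A K) (evAt t P))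
    (ht : Transcendental k (coeffMap r t))
    (hfrac : ∀ y : F, ∃ g h : LaurentSeries A, h ≠ 0 ∧
      Φ y * coeffMap (algebraMap A K) h = coeffMap (algebraMap A K) g)
    (f : F) (hf : IsPiOL π f) : RedK r (Φ f) 0 := by
  obtain ⟨z, hz, rfl⟩ := hf
  obtain ⟨g, h, hh, e⟩ := inV_of_isOL' hr hπ Φ t hΦ ht hfrac z hz
  refine ⟨HahnSeries.C π * g, h, hh, ?_, ?_⟩
  · rw [Algebra.smul_def, map_mul, hΦ, evAt_C', map_mul, ← e, mul_assoc]
  · rw [map_mul, red_C_pi r hr hπ, zero_mul, zero_mul]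

/-- one embedding: fractions. -/
theorem frac' (Φ : F →+* LaurentSeries K) (t : LaurentSeries A) (b : ι → LaurentSeries A)
    (hΦ : ∀ P : A[X], Φ (algebraMap A[X] F P) = coeffMap (algebraMap A K) (evAt t P))
    (b' : ι → F) (hb' : ∀ i, Φ (b' i) = coeffMap (algebraMap A K) (b i))
    (hinj : Function.Injective (algebraMap A[X] F))
    (f : F) (Q : A[X]) (P : ι → A[X]) (hQ : Q ≠ 0) (hrel : Q • f = ∑ i, P i • b' i) :
    ∃ g h : LaurentSeries A, h ≠ 0 ∧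
      Φ f * coeffMap (algebraMap A K) h = coeffMap (algebraMap A K) g := by
  refine ⟨∑ i, evAt t (P i) * b i, evAt t Q, ?_, ?_⟩
  · intro h0
    have h1 := hΦ Q
    rw [h0, map_zero, map_eq_zero] at h1
    exact hQ (hinj (h1.trans (map_zero _).symm))
  · rw [← Phi_sum_smul Φ t b hΦ b' hb' P, ← hrel, Algebra.smul_def, map_mul, hΦ, mul_comm]

end Gauss2

open Gauss2

/-- (a) -/
theorem Gauss2Data.linearIndependent (D : Gauss2Data r π E Φ₁ Φ₂ t₁ t₂ b₁ b₂ b') :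
    LinearIndependent E b' := by
  rw [← LinearIndependent.iff_fractionRing A[X] E, Fintype.linearIndependent_iff]
  intro P hP i
  apply eq_zero_of_sums D P
  · apply Fermat.Agent.Crux.GM.coeffMap_algebraMap_injective (K := K)
    rw [← Phi_sum_smul Φ₁ t₁ b₁ D.hΦ₁ b' D.hb₁ P, hP, map_zero, map_zero]
  · apply Fermat.Agent.Crux.GM.coeffMap_algebraMap_injective (K := K)
    rw [← Phi_sum_smul Φ₂ t₂ b₂ D.hΦ₂ b' D.hb₂ P, hP, map_zero, map_zero]

/-- (a') every element of `F` is a combination of the `b' i` with coefficients in `Frac A[X]`. -/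
theorem Gauss2Data.span (D : Gauss2Data r π E Φ₁ Φ₂ t₁ t₂ b₁ b₂ b') (f : F) :
    ∃ (Q : A[X]) (P : ι → A[X]), Q ≠ 0 ∧ Q • f = ∑ i, P i • b' i := by
  have : Nonempty ι := Fintype.card_pos_iff.mp D.hn0
  let B : Module.Basis ι E F :=
    basisOfLinearIndependentOfCardEqFinrank D.linearIndependent D.hn.symm
  have hB : ∀ i, B i = b' i := fun i => by
    rw [coe_basisOfLinearIndependentOfCardEqFinrank]
  obtain ⟨⟨Q₀, hQ₀⟩, hQ₀'⟩ := IsLocalization.exist_integer_multiples_of_finite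
    (nonZeroDivisors A[X]) (fun i => B.repr f i)
  choose P₀ hP₀ using hQ₀'
  refine ⟨Q₀, P₀, nonZeroDivisors.ne_zero hQ₀, ?_⟩
  conv_lhs => rw [← B.sum_repr f, Finset.smul_sum]
  refine Finset.sum_congr rfl fun i _ => ?_
  have h1 : algebraMap A[X] E (P₀ i) = Q₀ • B.repr f i := hP₀ i
  rw [← IsScalarTower.algebraMap_smul E (P₀ i) (b' i), h1, smul_assoc, hB]

/-- (b) the Gauss lemma for two embeddings. -/
theorem Gauss2Data.exists_coords (D : Gauss2Data r π E Φ₁ Φ₂ t₁ t₂ b₁ b₂ b')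
    (f : F) (g₁ h₁ g₂ h₂ : LaurentSeries A) (hh₁ : coeffMap r h₁ ≠ 0) (hh₂ : coeffMap r h₂ ≠ 0)
    (hf₁ : Φ₁ f * coeffMap (algebraMap A K) h₁ = coeffMap (algebraMap A K) g₁)
    (hf₂ : Φ₂ f * coeffMap (algebraMap A K) h₂ = coeffMap (algebraMap A K) g₂) :
    ∃ (Q : A[X]) (P : ι → A[X]), ¬ C π ∣ Q ∧ Q • f = ∑ i, P i • b' i ∧
      evAt t₁ Q * g₁ = (∑ i, evAt t₁ (P i) * b₁ i) * h₁ ∧
      evAt t₂ Q * g₂ = (∑ i, evAt t₂ (P i) * b₂ i) * h₂ ∧
      (coeffMap r g₁ = 0 → coeffMap r g₂ = 0 → ∀ i, C π ∣ P i) := by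
  obtain ⟨Q₀, P₀, hQ₀ne, hrel₀⟩ := D.span f
  -- the reduction step
  have hstep : ∀ (Q : A[X]) (P : ι → A[X]), Q • f = ∑ i, P i • b' i →
      coeffMap r (evAt t₁ Q * g₁) = 0 → coeffMap r (evAt t₂ Q * g₂) = 0 → ∀ i, C π ∣ P i := by
    intro Q P hrel h01 h02
    rw [series_rel_of_rel Φ₁ t₁ b₁ D.hΦ₁ b' D.hb₁ f g₁ h₁ hf₁ Q P hrel, map_mul] at h01
    rw [series_rel_of_rel Φ₂ t₂ b₂ D.hΦ₂ b' D.hb₂ f g₂ h₂ hf₂ Q P hrel, map_mul] at h02
    exact C_dvd D P ((mul_eq_zero.mp h01).resolve_right hh₁) ((mul_eq_zero.mp h02).resolve_right hh₂)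
  -- normalisation
  have hCF : algebraMap A[X] F (C π) ≠ 0 := by
    intro h0
    have h2 := algebraMap_injective' E (F := F) (h0.trans (map_zero _).symm)
    exact D.hπ.ne_zero (Polynomial.C_eq_zero.mp h2)
  have hred0 : ∀ (t g : LaurentSeries A) (Q' : A[X]),
      coeffMap r (evAt t (C π * Q') * g) = 0 := by
    intro t g Q'
    rw [map_mul, map_mul, evAt_C', map_mul, red_C_pi r D.hr D.hπ, zero_mul, zero_mul]
  have hnorm : ∀ (m : ℕ) (Q : A[X]) (P : ι → A[X]), ¬ (C π : A[X]) ^ (m + 1) ∣ Q →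
      Q • f = ∑ i, P i • b' i →
      ∃ (Q' : A[X]) (P' : ι → A[X]), ¬ C π ∣ Q' ∧ Q' • f = ∑ i, P' i • b' i := by
    intro m
    induction m with
    | zero =>
      intro Q P hQ hrel
      exact ⟨Q, P, by simpa using hQ, hrel⟩
    | succ m ih =>
      intro Q P hQ hrel
      by_cases hd : C π ∣ Q
      · obtain ⟨Q', rfl⟩ := hd
        have hP := hstep _ P hrel (hred0 t₁ g₁ Q') (hred0 t₂ g₂ Q')
        choose P' hP' using hP
        refine ih Q' P' (fun hdvd => hQ ?_) ?_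
        · rw [pow_succ']
          exact mul_dvd_mul_left _ hdvd
        · have h2 : algebraMap A[X] F (C π) * (Q' • f)
              = algebraMap A[X] F (C π) * ∑ i, P' i • b' i := by
            rw [← Algebra.smul_def, smul_smul, hrel, ← Algebra.smul_def, Finset.smul_sum]
            refine Finset.sum_congr rfl fun i _ => ?_
            rw [smul_smul, ← hP' i]
          exact mul_left_cancel₀ hCF h2
      · exact ⟨Q, P, hd, hrel⟩
  obtain ⟨m, hm⟩ := FiniteMultiplicity.of_not_isUnit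
    (Fermat.Agent.Crux.GM.C_pi_not_isUnit D.hπ) hQ₀ne
  obtain ⟨Q, P, hQ, hrel⟩ := hnorm m Q₀ P₀ hm hrel₀
  refine ⟨Q, P, hQ, hrel, series_rel_of_rel Φ₁ t₁ b₁ D.hΦ₁ b' D.hb₁ f g₁ h₁ hf₁ Q P hrel,
    series_rel_of_rel Φ₂ t₂ b₂ D.hΦ₂ b' D.hb₂ f g₂ h₂ hf₂ Q P hrel, fun hg₁ hg₂ => ?_⟩
  exact hstep Q P hrel (by rw [map_mul, hg₁, mul_zero]) (by rw [map_mul, hg₂, mul_zero])

/-- (c) -/
theorem Gauss2Data.isOL_basis (D : Gauss2Data r π E Φ₁ Φ₂ t₁ t₂ b₁ b₂ b') (i : ι) :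
    IsOL π (b' i) := by
  classical
  have hp : Prime π := D.hπ.prime
  have hone : coeffMap r (1 : LaurentSeries A) ≠ 0 := by
    rw [map_one]; exact one_ne_zero
  -- structure constants of `b' i * b' j`
  have hstr : ∀ j : ι, ∃ (Q : A[X]) (P : ι → A[X]), ¬ C π ∣ Q ∧
      Q • (b' i * b' j) = ∑ l, P l • b' l := by
    intro j
    obtain ⟨Q, P, hQ, hQP, -, -, -⟩ := D.exists_coords (b' i * b' j)
      (b₁ i * b₁ j) 1 (b₂ i * b₂ j) 1 hone hone
      (by rw [map_mul, D.hb₁, D.hb₁, map_one, mul_one, map_mul])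
      (by rw [map_mul, D.hb₂, D.hb₂, map_one, mul_one, map_mul])
    exact ⟨Q, P, hQ, hQP⟩
  choose Q P hQ hQP using hstr
  have hprod : ∀ s : Finset ι, ¬ C π ∣ ∏ j ∈ s, Q j := by
    intro s
    induction s using Finset.induction_on with
    | empty => simpa using Sat.not_dvd_one hp
    | insert a s ha ih =>
      rw [Finset.prod_insert ha]
      exact Sat.not_dvd_mul hp (hQ a) ih
  refine ⟨∏ j, Q j, hprod _, ?_⟩
  set Λ : Submodule A[X] F := Submodule.span A[X] (Set.range b') with hΛ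
  have hmem : ∀ l, b' l ∈ Λ := fun l => Submodule.subset_span ⟨l, rfl⟩
  refine isIntegral_of_smul_mem_submodule (M := F) Λ ?_ ?_ _ ?_
  · intro h
    have h1 : b' i ∈ (⊥ : Submodule A[X] F) := h ▸ hmem i
    exact D.linearIndependent.ne_zero i ((Submodule.mem_bot _).1 h1)
  · exact Submodule.fg_span (Set.finite_range b')
  · intro y hy
    induction hy using Submodule.span_induction with
    | mem y hy =>
      obtain ⟨j, rfl⟩ := hy
      have h1 : ((∏ j, Q j) • b' i) • b' j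
          = (∏ l ∈ Finset.univ.erase j, Q l) • (Q j • (b' i * b' j)) := by
        rw [← Finset.mul_prod_erase Finset.univ Q (Finset.mem_univ j), smul_eq_mul,
          smul_mul_assoc, mul_comm (Q j), mul_smul]
      rw [h1, hQP j]
      exact Λ.smul_mem _ (Λ.sum_mem fun l _ => Λ.smul_mem _ (hmem l))
    | zero => rw [smul_zero]; exact Λ.zero_mem
    | add y z _ _ hy hz => rw [smul_add]; exact Λ.add_mem hy hz
    | smul a y _ hy => rw [smul_comm]; exact Λ.smul_mem _ hy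

/-- (d) **q-link, integrality.** -/
theorem Gauss2Data.isOL_of_redK (D : Gauss2Data r π E Φ₁ Φ₂ t₁ t₂ b₁ b₂ b') (f : F)
    (a₁ a₂ : LaurentSeries k) (h₁ : RedK r (Φ₁ f) a₁) (h₂ : RedK r (Φ₂ f) a₂) : IsOL π f := by
  have hp : Prime π := D.hπ.prime
  obtain ⟨g₁, k₁, hk₁, hf₁, -⟩ := h₁
  obtain ⟨g₂, k₂, hk₂, hf₂, -⟩ := h₂
  obtain ⟨Q, P, hQ, hQP, -, -, -⟩ := D.exists_coords f g₁ k₁ g₂ k₂ hk₁ hk₂ hf₁ hf₂
  refine IsOL.of_smul hp hQ ?_
  rw [hQP]
  exact IsOL.sum hp _ _ fun i _ => (D.isOL_basis i).smul (P i)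

/-- (d) **q-link, reduction zero.** -/
theorem Gauss2Data.isPiOL_of_redK (D : Gauss2Data r π E Φ₁ Φ₂ t₁ t₂ b₁ b₂ b') (f : F)
    (h₁ : RedK r (Φ₁ f) 0) (h₂ : RedK r (Φ₂ f) 0) : IsPiOL π f := by
  have hp : Prime π := D.hπ.prime
  have hfaith : FaithfulSMul A[X] F := by
    rw [faithfulSMul_iff_algebraMap_injective]
    exact algebraMap_injective' E
  obtain ⟨g₁, k₁, hk₁, hf₁, hg₁⟩ := h₁
  obtain ⟨g₂, k₂, hk₂, hf₂, hg₂⟩ := h₂
  rw [zero_mul] at hg₁ hg₂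
  obtain ⟨Q, P, hQ, hQP, -, -, hP⟩ := D.exists_coords f g₁ k₁ g₂ k₂ hk₁ hk₂ hf₁ hf₂
  refine IsPiOL.of_smul hp hQ ?_
  rw [hQP]
  refine IsPiOL.sum hp _ _ fun i _ => ?_
  obtain ⟨P', hP'⟩ := hP hg₁ hg₂ i
  rw [hP', mul_smul]
  exact ((D.isOL_basis i).smul P').C_smul

/-- (d) the reductions are combinations of the `b̄_j i` with coefficients in `k(t̄_j)`. -/
theorem Gauss2Data.red_eq (D : Gauss2Data r π E Φ₁ Φ₂ t₁ t₂ b₁ b₂ b') (f : F)
    (a₁ a₂ : LaurentSeries k) (h₁ : RedK r (Φ₁ f) a₁) (h₂ : RedK r (Φ₂ f) a₂) :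
    ∃ (Q : k[X]) (P : ι → k[X]), Q ≠ 0 ∧
      evAt (coeffMap r t₁) Q * a₁ = ∑ i, evAt (coeffMap r t₁) (P i) * coeffMap r (b₁ i) ∧
      evAt (coeffMap r t₂) Q * a₂ = ∑ i, evAt (coeffMap r t₂) (P i) * coeffMap r (b₂ i) := by
  obtain ⟨g₁, k₁, hk₁, hf₁, hg₁⟩ := h₁
  obtain ⟨g₂, k₂, hk₂, hf₂, hg₂⟩ := h₂
  obtain ⟨Q, P, hQ, -, he₁, he₂, -⟩ := D.exists_coords f g₁ k₁ g₂ k₂ hk₁ hk₂ hf₁ hf₂
  refine ⟨Q.map r, fun i => (P i).map r,
    fun h0 => hQ (Fermat.Agent.Crux.GM.C_dvd_of_map_eq_zero r D.hr D.hπ h0), ?_, ?_⟩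
  · have h := congrArg (coeffMap r) he₁
    rw [map_mul, map_mul, red_sum, Fermat.Agent.S28.Build.coeffMap_evAt, hg₁, ← mul_assoc] at h
    exact mul_right_cancel₀ hk₁ h
  · have h := congrArg (coeffMap r) he₂
    rw [map_mul, map_mul, red_sum, Fermat.Agent.S28.Build.coeffMap_evAt, hg₂, ← mul_assoc] at h
    exact mul_right_cancel₀ hk₂ h

/-- every element of `F` is a quotient of integral series (`hfrac` of `G.inV_of_isOL`). -/
theorem Gauss2Data.frac₁ (D : Gauss2Data r π E Φ₁ Φ₂ t₁ t₂ b₁ b₂ b')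
    (ht₁ : Transcendental k (coeffMap r t₁)) (f : F) :
    ∃ g h : LaurentSeries A, h ≠ 0 ∧
      Φ₁ f * coeffMap (algebraMap A K) h = coeffMap (algebraMap A K) g := by
  obtain ⟨Q, P, hQ, hrel⟩ := D.span f
  exact frac' Φ₁ t₁ b₁ D.hΦ₁ b' D.hb₁ (algebraMap_injective' E) f Q P hQ hrel

theorem Gauss2Data.frac₂ (D : Gauss2Data r π E Φ₁ Φ₂ t₁ t₂ b₁ b₂ b')
    (ht₂ : Transcendental k (coeffMap r t₂)) (f : F) :
    ∃ g h : LaurentSeries A, h ≠ 0 ∧
      Φ₂ f * coeffMap (algebraMap A K) h = coeffMap (algebraMap A K) g := by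
  obtain ⟨Q, P, hQ, hrel⟩ := D.span f
  exact frac' Φ₂ t₂ b₂ D.hΦ₂ b' D.hb₂ (algebraMap_injective' E) f Q P hQ hrel

/-- converse of the q-link (`G.inV_of_isOL`, `exists_pow_mul`, `frac₁`). -/
theorem Gauss2Data.redK_of_isOL (D : Gauss2Data r π E Φ₁ Φ₂ t₁ t₂ b₁ b₂ b')
    (ht₁ : Transcendental k (coeffMap r t₁)) (ht₂ : Transcendental k (coeffMap r t₂))
    (f : F) (hf : IsOL π f) : ∃ a₁ a₂, RedK r (Φ₁ f) a₁ ∧ RedK r (Φ₂ f) a₂ := by
  obtain ⟨a₁, h₁⟩ := redK_of_inV (inV_of_isOL' D.hr D.hπ Φ₁ t₁ D.hΦ₁ ht₁ (D.frac₁ ht₁) f hf)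
  obtain ⟨a₂, h₂⟩ := redK_of_inV (inV_of_isOL' D.hr D.hπ Φ₂ t₂ D.hΦ₂ ht₂ (D.frac₂ ht₂) f hf)
  exact ⟨a₁, a₂, h₁, h₂⟩

theorem Gauss2Data.redK_of_isPiOL (D : Gauss2Data r π E Φ₁ Φ₂ t₁ t₂ b₁ b₂ b')
    (ht₁ : Transcendental k (coeffMap r t₁)) (ht₂ : Transcendental k (coeffMap r t₂))
    (f : F) (hf : IsPiOL π f) : RedK r (Φ₁ f) 0 ∧ RedK r (Φ₂ f) 0 :=
  ⟨redK_zero_of_isPiOL' D.hr D.hπ Φ₁ t₁ D.hΦ₁ ht₁ (D.frac₁ ht₁) f hf,
    redK_zero_of_isPiOL' D.hr D.hπ Φ₂ t₂ D.hΦ₂ ht₂ (D.frac₂ ht₂) f hf⟩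

end Fermat.Agent.SS.GM2
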