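import Fermat.Agent.SS.GM2.Setup
import Fermat.Agent.SS.GM2.Gauss2

/-!
# SS / GM2 : the explicit basis of `F_K(Mℓ)` over `K(Y)` and the `q`-link in the chart `Y = j_{Mℓ}`
(TASKS `SS/GM2-Basis-a` = `pair_indep`, `card_XN_mul`;  `SS/GM2-Basis-b` = `Setup.ql_Y`)

`c = Nat.card (XN M) = [F_K(M) : K(J)]`, `b : Fin c → ℤ((q))` the monomial basis of `GM.exists_degree_basis_card M` (for the field `k`:
`b̄_i` independent over `k(J̄)`; `b i ∈ monoS ℤ M`, so `castS K (b i) ∈ F_K(M)`: `S28.monoS_le_full`, `S28.coeffMap_mem_monoS`).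
`𝔲 = uh M ℓ = Y - J^ℓ`, `𝔲' = uh' M ℓ = J - Y^ℓ`; `w 𝔲' = 𝔲`.   Index set `ι = (Fin c × Fin ℓ) ⊕ Fin c`, `card ι = (ℓ+1) c`.

| index     | element of `F`      | expansion at `Φ` (`fam₁`) | expansion at `Φ ∘ w` (`fam₂`) | reductions             |
| `(i,s)`   | `𝔲' b_i J^s`        | `𝔲' b_i J^s`              | `𝔲 V_ℓ(b_i) Y^s`              | `(ū' b̄_i J̄^s, 0)`      |
| `i`       | `𝔲 w(b_i)`          | `𝔲 V_ℓ(b_i)`              | `𝔲' b_i`                      | `(0, ū' b̄_i)`          |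

Base coordinate `Y`: `t₁ = Ŷ` (`t̄₁ = J̄^ℓ`), `t₂ = Ĵ` (`Φ (w Y) = Φ J`, `t̄₂ = J̄`).

`pair_indep` : first relation: `ū' ∑_{i,s} P_{i,s}(J̄^ℓ) J̄^s b̄_i = 0`, `ū' ≠ 0` (`castS_uh'_ne_zero`); `b̄_i` independent over `k(J̄)`
 (`S28.linearIndependent_iff_polyIndep`): `∑_s P_{i,s}(T^ℓ) T^s = 0` in `k[T]` (`J̄` transcendental), and the exponents `ℓ a + s`, `s < ℓ`, are
 pairwise distinct: all `P_{i,s} = 0` (compare coefficients: `Polynomial.expand`, `coeff_expand_mul_add`-type lemma).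
 Second relation: `ū' ∑_i P_i(J̄) b̄_i = 0`: all `P_i = 0`.  (`castS_uh : ū = 0` kills the other halves.)
`card_XN_mul` : `Nat.card (XN N) = dedekindPsi N` (see `Crux.relfinrank_j_bar`), `Gamma0Comb.dedekindPsi_mul_of_not_dvd`.
`Setup.ql_Y` : `letI := algE Y₁; letI := algL F Y₁` (`G.isFractionRing_algE`, `G.isScalarTower_alg`), build `Gauss2Data` with `b'` = the elements of
 the table (preimages under `Φ`; `hb₂` from `hwα`, `w_J`, `w_Y`, `map_mul`), then `isOL := D.isOL_of_redK`, … and `isOLx_algebraMap_iff`.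
 `mem` : `D.red_eq`: `Q̄(J̄^ℓ) a₁ = ∑ P̄_j(J̄^ℓ) fam̄₁ j ∈ F_k(M)` and `Q̄(J̄^ℓ) ≠ 0`.
-/

set_option autoImplicit false
set_option linter.unusedSectionVars false

open Polynomial ModularCurve

namespace Fermat.Agent.SS.GM2

open Fermat.Agent.Crux.G
open Fermat.Agent.S28 (V J evAt)
open Fermat.Agent.Crux.GM (castS)
open Fermat.Agent.S24 (XN)

/-- expansions of the basis at the first embedding. -/
noncomputable def fam₁ (M ℓ : ℕ) [NeZero M] [NeZero ℓ] {c : ℕ} (b : Fin c → LaurentSeries ℤ) :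
    (Fin c × Fin ℓ) ⊕ Fin c → LaurentSeries ℤ
  | Sum.inl (i, s) => uh' M ℓ * b i * Jh M ^ (s : ℕ)
  | Sum.inr i => uh M ℓ * V ℤ ℓ (b i)

/-- expansions of the basis at the second embedding. -/
noncomputable def fam₂ (M ℓ : ℕ) [NeZero M] [NeZero ℓ] {c : ℕ} (b : Fin c → LaurentSeries ℤ) :
    (Fin c × Fin ℓ) ⊕ Fin c → LaurentSeries ℤ
  | Sum.inl (i, s) => uh M ℓ * V ℤ ℓ (b i) * Jh (M * ℓ) ^ (s : ℕ)
  | Sum.inr i => uh' M ℓ * b i

/-- the exponents `ℓ a + s`, `s < ℓ`, are pairwise distinct. -/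
theorem Basis_expand_sum_eq_zero {R : Type*} [CommRing R] (ℓ : ℕ) (hℓ : 0 < ℓ) (p : Fin ℓ → R[X])
    (h : ∑ s, expand R ℓ (p s) * X ^ (s : ℕ) = 0) : ∀ s, p s = 0 := by
  intro s₀
  ext a
  have h1 := congrArg (fun q : R[X] => q.coeff (ℓ * a + s₀)) h
  simp only [finsetSum_coeff, coeff_zero] at h1
  rw [Finset.sum_eq_single s₀] at h1
  · rw [coeff_mul_X_pow, coeff_expand_mul' hℓ] at h1
    rw [h1, coeff_zero]
  · intro s _ hs
    rw [coeff_mul_X_pow', coeff_expand hℓ]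
    split_ifs with h2 h3
    · exfalso
      apply hs
      obtain ⟨t, ht⟩ := h3
      have hs1 := s.2
      have hs2 := s₀.2
      apply Fin.ext
      have h4 : (ℓ : ℤ) * ((t : ℤ) - a) = (s₀ : ℤ) - (s : ℤ) := by
        have : ((ℓ * a + s₀ - s : ℕ) : ℤ) = (ℓ : ℤ) * t := by exact_mod_cast ht
        rw [Nat.cast_sub h2] at this
        push_cast at this
        linarith
      have h5 : (t : ℤ) - a = 0 := by
        by_contra hne
        have h6 : (1 : ℤ) ≤ |(t : ℤ) - a| := Int.one_le_abs hne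
        have h7 : |(s₀ : ℤ) - (s : ℤ)| < ℓ := by
          rw [abs_lt]
          constructor <;> omega
        rw [← h4, abs_mul, abs_of_nonneg (by positivity : (0 : ℤ) ≤ (ℓ : ℤ))] at h7
        nlinarith
      rw [h5, mul_zero] at h4
      omega
    · rfl
    · rfl
  · intro h2
    exact absurd (Finset.mem_univ _) h2

/-- **pair independence** of the reductions. -/
theorem pair_indep (M ℓ : ℕ) [NeZero M] [NeZero ℓ] [Fact ℓ.Prime] (k : Type) [Field k] [CharP k ℓ]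
    {c : ℕ} (b : Fin c → LaurentSeries ℤ)
    (hb : LinearIndependent (IntermediateField.adjoin k {V k M (J k)}) (fun i => castS k (b i)))
    (P : (Fin c × Fin ℓ) ⊕ Fin c → k[X])
    (h₁ : ∑ j, evAt (castS k (Jh (M * ℓ))) (P j) * castS k (fam₁ M ℓ b j) = 0)
    (h₂ : ∑ j, evAt (castS k (Jh M)) (P j) * castS k (fam₂ M ℓ b j) = 0) : ∀ j, P j = 0 := by
  have hℓ : 0 < ℓ := Nat.pos_of_ne_zero (NeZero.ne ℓ)
  set t : LaurentSeries k := V k M (J k) with ht
  have hJ : castS k (Jh M) = t := Fermat.Agent.Crux.GM.CoordJ.castS_VJ k M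
  have hY : castS k (Jh (M * ℓ)) = t ^ ℓ := by rw [castS_Jh_mul k ℓ M, hJ]
  have hu : castS k (uh M ℓ) = 0 := castS_uh k ℓ M
  have hu' : castS k (uh' M ℓ) ≠ 0 := castS_uh'_ne_zero k ℓ M
  have htr : Transcendental k t := Fermat.Agent.S28.transcendental_V_J k M
  have hinj : ∀ Q : k[X], aeval t Q = 0 → Q = 0 := fun Q hQ => (transcendental_iff.mp htr) Q hQ
  have hpi := (Fermat.Agent.S28.linearIndependent_iff_polyIndep k t _).mp hb
  have key : ∀ Q : Fin c → k[X], ∑ i, aeval t (Q i) * castS k (b i) = 0 → ∀ i, Q i = 0 :=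
    fun Q hQ i => hinj _ (hpi Finset.univ Q hQ i (Finset.mem_univ i))
  rw [hY] at h₁
  rw [hJ] at h₂
  rw [Fintype.sum_sum_type] at h₁ h₂
  -- second relation
  have hr : ∀ i, P (Sum.inr i) = 0 := by
    apply key
    have h3 : ∑ x : Fin c × Fin ℓ, evAt t (P (Sum.inl x)) * castS k (fam₂ M ℓ b (Sum.inl x)) = 0 := by
      refine Finset.sum_eq_zero fun x _ => ?_
      obtain ⟨i, s⟩ := x
      simp only [fam₂, map_mul, hu, zero_mul, mul_zero]
    rw [h3, zero_add] at h₂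
    have h4 : castS k (uh' M ℓ) * ∑ i, aeval t (P (Sum.inr i)) * castS k (b i) = 0 := by
      rw [← h₂, Finset.mul_sum]
      refine Finset.sum_congr rfl fun i _ => ?_
      simp only [fam₂, map_mul, Fermat.Agent.S28.UnitArg.evAt_eq_aeval]
      ring
    exact (mul_eq_zero.mp h4).resolve_left hu'
  -- first relation
  have hl : ∀ i, (∑ s : Fin ℓ, expand k ℓ (P (Sum.inl (i, s))) * X ^ (s : ℕ)) = 0 := by
    apply key
    have h3 : ∑ x : Fin c, evAt (t ^ ℓ) (P (Sum.inr x)) * castS k (fam₁ M ℓ b (Sum.inr x)) = 0 := by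
      refine Finset.sum_eq_zero fun x _ => ?_
      simp only [fam₁, map_mul, hu, zero_mul, mul_zero]
    rw [h3, add_zero, Fintype.sum_prod_type] at h₁
    have h4 : castS k (uh' M ℓ) * ∑ i, aeval t (∑ s : Fin ℓ, expand k ℓ (P (Sum.inl (i, s))) *
        X ^ (s : ℕ)) * castS k (b i) = 0 := by
      rw [← h₁, Finset.mul_sum]
      refine Finset.sum_congr rfl fun i _ => ?_
      rw [map_sum, Finset.sum_mul, Finset.mul_sum]
      refine Finset.sum_congr rfl fun s _ => ?_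
      simp only [fam₁, map_mul, map_pow, Fermat.Agent.S28.UnitArg.evAt_eq_aeval, expand_aeval,
        aeval_X, hJ]
      ring
    exact (mul_eq_zero.mp h4).resolve_left hu'
  rintro (⟨i, s⟩ | i)
  · exact Basis_expand_sum_eq_zero ℓ hℓ (fun s => P (Sum.inl (i, s))) (hl i) s
  · exact hr i

theorem card_XN_mul (M ℓ : ℕ) [NeZero M] [NeZero ℓ] (hℓ : ℓ.Prime) (hℓM : ¬ ℓ ∣ M) :
    Nat.card (XN (M * ℓ)) = (ℓ + 1) * Nat.card (XN M) := by
  have h2 : ∀ N : ℕ, [NeZero N] → Nat.card (XN N) = dedekindPsi N := by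
    intro N _
    rw [← Gamma0Comb.index_Gamma0 N]
    rfl
  rw [h2, h2, mul_comm M ℓ, Gamma0Comb.dedekindPsi_mul_of_not_dvd (NeZero.ne M) hℓ hℓM]

variable {M ℓ : ℕ} [NeZero M] [NeZero ℓ]
variable {A K k : Type} [CommRing A] [IsDomain A] [IsDiscreteValuationRing A] [Field K]
  [CharZero K] [Algebra A K] [IsFractionRing A K] [Field k] {r : A →+* k} {π : A}
variable {F : Type} [Field F] [Algebra A F] {Φ : F →+* LaurentSeries K} {w : F →+* F}

/-- helper for `Setup.ql_Y`: `char k = ℓ`. -/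
theorem Setup.Basis_charP (S : Setup M ℓ r π Φ w) : CharP k ℓ :=
  (CharP.charP_iff_prime_eq_zero S.hℓ).mpr (by rw [← map_natCast r, S.hrℓ])

/-- helper for `Setup.ql_Y`: the elements of the table. -/
def Basis_elt (ℓ : ℕ) (w : F →+* F) (Jf Yf : F) {c : ℕ} (bF : Fin c → F) :
    (Fin c × Fin ℓ) ⊕ Fin c → F
  | Sum.inl (i, s) => (Jf - Yf ^ ℓ) * bF i * Jf ^ (s : ℕ)
  | Sum.inr i => (Yf - Jf ^ ℓ) * w (bF i)

/-- helper for `Setup.ql_Y`: first expansions of the elements of the table. -/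
theorem Setup.Basis_Phi_elt (S : Setup M ℓ r π Φ w) {Jf Yf : F} (hJ : Φ Jf = castS K (Jh M))
    (hY : Φ Yf = castS K (Jh (M * ℓ))) {c : ℕ} (b : Fin c → LaurentSeries ℤ) (bF : Fin c → F)
    (hbF : ∀ i, Φ (bF i) = castS K (b i))
    (hbM : ∀ i, castS K (b i) ∈ modularFunctionFieldFullC K M) (j : (Fin c × Fin ℓ) ⊕ Fin c) :
    Φ (Basis_elt ℓ w Jf Yf bF j) = castS K (fam₁ M ℓ b j) := by
  rcases j with ⟨i, s⟩ | i
  · simp only [Basis_elt, fam₁, uh', map_mul, map_sub, map_pow, hJ, hY, hbF]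
  · have h1 : Φ (w (bF i)) = V K ℓ (castS K (b i)) := by
      rw [S.hwα (bF i) (by rw [hbF]; exact hbM i), hbF]
    simp only [Basis_elt, fam₁, uh, map_mul, map_sub, map_pow, hJ, hY, h1, coeffMap_qExpand]

/-- helper for `Setup.ql_Y`: second expansions of the elements of the table. -/
theorem Setup.Basis_Phi_w_elt (S : Setup M ℓ r π Φ w) {Jf Yf : F} (hJ : Φ Jf = castS K (Jh M))
    (hY : Φ Yf = castS K (Jh (M * ℓ))) {c : ℕ} (b : Fin c → LaurentSeries ℤ) (bF : Fin c → F)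
    (hbF : ∀ i, Φ (bF i) = castS K (b i))
    (hbM : ∀ i, castS K (b i) ∈ modularFunctionFieldFullC K M) (j : (Fin c × Fin ℓ) ⊕ Fin c) :
    Φ (w (Basis_elt ℓ w Jf Yf bF j)) = castS K (fam₂ M ℓ b j) := by
  have hwJ : w Jf = Yf := S.w_J hJ hY
  have hwY : w Yf = Jf := S.w_Y hJ hY
  rcases j with ⟨i, s⟩ | i
  · have h1 : Φ (w (bF i)) = V K ℓ (castS K (b i)) := by
      rw [S.hwα (bF i) (by rw [hbF]; exact hbM i), hbF]
    simp only [Basis_elt, fam₂, uh, map_mul, map_sub, map_pow, hwJ, hwY, hJ, hY, h1,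
      coeffMap_qExpand]
  · simp only [Basis_elt, fam₂, uh', map_mul, map_sub, map_pow, hwJ, hwY, hJ, hY, S.hww, hbF]

/-- helper for `Setup.ql_Y`: an embedding on the polynomial ring of the chart. -/
theorem Basis_Phi_aeval (Ψ : F →+* LaurentSeries K)
    (hΨA : ∀ a : A, Ψ (algebraMap A F a) = HahnSeries.C (algebraMap A K a))
    {E₁ : Type} [Field E₁] [Algebra A E₁] [Algebra E₁ F] [IsScalarTower A E₁ F]
    (Y₁ : E₁) (t : LaurentSeries A) (ht : Ψ (algebraMap E₁ F Y₁) = coeffMap (algebraMap A K) t)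
    (P : A[X]) :
    Ψ (algebraMap E₁ F (aeval Y₁ P)) = coeffMap (algebraMap A K) (evAt t P) := by
  have h : (Ψ.comp ((algebraMap E₁ F).comp ((aeval Y₁ : A[X] →ₐ[A] E₁) : A[X] →+* E₁)))
      = (coeffMap (algebraMap A K)).comp (evAt t) := by
    refine Polynomial.ringHom_ext (fun a => ?_) ?_
    · simp [← IsScalarTower.algebraMap_apply, hΨA]
    · simp [ht]
  exact RingHom.congr_fun h P

/-- helper for `Setup.ql_Y`: the reductions of the first expansions lie in `F_k(M)`. -/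
theorem Basis_castS_fam₁_mem (M ℓ : ℕ) [NeZero M] [NeZero ℓ] [Fact ℓ.Prime] (k : Type) [Field k]
    [CharP k ℓ] {c : ℕ} (b : Fin c → LaurentSeries ℤ)
    (hb : ∀ i, b i ∈ Fermat.Agent.S28.monoS ℤ M) (j : (Fin c × Fin ℓ) ⊕ Fin c) :
    castS k (fam₁ M ℓ b j) ∈ modularFunctionFieldFullC k M := by
  have hJ : castS k (Jh M) ∈ modularFunctionFieldFullC k M := by
    rw [Fermat.Agent.Crux.GM.CoordJ.castS_VJ]
    exact jqModCd_mem_full k M dvd_rfl
  rcases j with ⟨i, s⟩ | i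
  · have hbi : castS k (b i) ∈ modularFunctionFieldFullC k M :=
      Fermat.Agent.S28.monoS_le_full k M (Fermat.Agent.S28.coeffMap_mem_monoS _ M (hb i))
    have e : castS k (fam₁ M ℓ b (Sum.inl (i, s)))
        = (castS k (Jh M) - castS k (Jh (M * ℓ)) ^ ℓ) * castS k (b i) * castS k (Jh M) ^ (s : ℕ) := by
      simp only [fam₁, uh', map_mul, map_sub, map_pow]
    rw [e, castS_Jh_mul k ℓ M]
    exact mul_mem (mul_mem (sub_mem hJ (pow_mem (pow_mem hJ _) _)) hbi) (pow_mem hJ _)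
  · have e : castS k (fam₁ M ℓ b (Sum.inr i)) = castS k (uh M ℓ) * castS k (V ℤ ℓ (b i)) := by
      simp only [fam₁, map_mul]
    rw [e, castS_uh k ℓ M, zero_mul]
    exact zero_mem _

/-- **the `q`-link in the chart `Y = j_{Mℓ}`.** -/
theorem Setup.ql_Y (S : Setup M ℓ r π Φ w)
    {E₁ : Type} [Field E₁] [Algebra A E₁] [Algebra E₁ F] [IsScalarTower A E₁ F]
    (Y₁ : E₁) (hY₁ : Φ (algebraMap E₁ F Y₁) = castS K (Jh (M * ℓ)))
    (hY₁t : Transcendental A Y₁)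
    (hgen₁ : ∀ c : E₁, ∃ p q : A[X], q ≠ 0 ∧ c * aeval Y₁ q = aeval Y₁ p)
    (hn₁ : Module.finrank E₁ F = Nat.card (XN (M * ℓ))) :
    QL M r π Φ w (algebraMap E₁ F Y₁) := by
  classical
  have : Fact ℓ.Prime := ⟨S.hℓ⟩
  have : CharP k ℓ := S.Basis_charP
  let _ := algE (A := A) Y₁
  let _ := algL (A := A) F Y₁
  have : IsFractionRing A[X] E₁ := isFractionRing_algE hY₁t hgen₁
  have : IsScalarTower A[X] E₁ F := isScalarTower_alg Y₁
  -- the monomial basis at level `M`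
  obtain ⟨hc0, hdeg⟩ := Fermat.Agent.Crux.GM.exists_degree_basis_card M
  obtain ⟨-, b, hbmono, hbli⟩ := hdeg k (by
    intro p hp hpM hp0
    have h1 : ℓ ∣ p := (CharP.cast_eq_zero_iff k ℓ p).mp hp0
    have h2 : ℓ = p := (Nat.prime_dvd_prime_iff_eq S.hℓ hp).mp h1
    exact S.hℓM (h2 ▸ hpM))
  have hbM : ∀ i, castS K (b i) ∈ modularFunctionFieldFullC K M := fun i =>
    Fermat.Agent.S28.monoS_le_full K M (Fermat.Agent.S28.coeffMap_mem_monoS _ M (hbmono i))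
  have hbex : ∀ i, ∃ f : F, Φ f = castS K (b i) := fun i =>
    (S.hΦF _).mp (full_degeneracyC_le K (dvd_mul_right M ℓ) (hbM i))
  choose bF hbF using hbex
  obtain ⟨Jf, Yf, hJ, hY⟩ := S.exists_J
  have hYf : algebraMap E₁ F Y₁ = Yf := Φ.injective (hY₁.trans hY.symm)
  -- the data
  have D : Gauss2Data r π E₁ Φ (Φ.comp w) (castS A (Jh (M * ℓ))) (castS A (Jh M))
      (fun j => castS A (fam₁ M ℓ b j)) (fun j => castS A (fam₂ M ℓ b j))
      (Basis_elt ℓ w Jf Yf bF) :=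
    { hr := S.hr
      hπ := S.hπ
      hΦ₁ := fun P => Basis_Phi_aeval Φ S.hΦA Y₁ _
        (by rw [hY₁, Fermat.Agent.Crux.GM.coeffMap_castS]) P
      hΦ₂ := fun P => Basis_Phi_aeval (Φ.comp w)
        (fun a => by rw [RingHom.comp_apply, S.hwA, S.hΦA]) Y₁ _
        (by rw [RingHom.comp_apply, hYf, S.w_Y hJ hY, hJ, Fermat.Agent.Crux.GM.coeffMap_castS]) P
      hb₁ := fun j => by
        rw [S.Basis_Phi_elt hJ hY b bF hbF hbM j, Fermat.Agent.Crux.GM.coeffMap_castS]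
      hb₂ := fun j => by
        rw [RingHom.comp_apply, S.Basis_Phi_w_elt hJ hY b bF hbF hbM j,
          Fermat.Agent.Crux.GM.coeffMap_castS]
      hind := fun P h₁ h₂ => by
        simp only [Fermat.Agent.Crux.GM.coeffMap_castS] at h₁ h₂
        exact pair_indep M ℓ k b hbli P h₁ h₂
      hn := by
        rw [hn₁, card_XN_mul M ℓ S.hℓ S.hℓM]
        simp only [Fintype.card_sum, Fintype.card_prod, Fintype.card_fin]
        ring
      hn0 := by
        simp only [Fintype.card_sum, Fintype.card_prod, Fintype.card_fin]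
        omega }
  have ht₁ : Transcendental k (coeffMap r (castS A (Jh (M * ℓ)))) := by
    rw [Fermat.Agent.Crux.GM.coeffMap_castS, Fermat.Agent.Crux.GM.CoordJ.castS_VJ]
    exact Fermat.Agent.S28.transcendental_V_J k (M * ℓ)
  have ht₂ : Transcendental k (coeffMap r (castS A (Jh M))) := by
    rw [Fermat.Agent.Crux.GM.coeffMap_castS, Fermat.Agent.Crux.GM.CoordJ.castS_VJ]
    exact Fermat.Agent.S28.transcendental_V_J k M
  refine ⟨fun f a₁ a₂ h₁ h₂ => ?_, fun f h₁ h₂ => ?_, fun f hf => ?_, fun f hf => ?_,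
    fun f a₁ a₂ h₁ h₂ => ?_⟩
  · exact (isOLx_algebraMap_iff π Y₁ f).mpr (D.isOL_of_redK f a₁ a₂ h₁ h₂)
  · exact (isPiOLx_algebraMap_iff π Y₁ f).mpr (D.isPiOL_of_redK f h₁ h₂)
  · exact D.redK_of_isOL ht₁ ht₂ f ((isOLx_algebraMap_iff π Y₁ f).mp hf)
  · exact D.redK_of_isPiOL ht₁ ht₂ f ((isPiOLx_algebraMap_iff π Y₁ f).mp hf)
  · obtain ⟨Q, P, hQ, hQ₁, -⟩ := D.red_eq f a₁ a₂ h₁ h₂
    simp only [Fermat.Agent.Crux.GM.coeffMap_castS] at hQ₁
    have hYk : castS k (Jh (M * ℓ)) ∈ modularFunctionFieldFullC k M := by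
      rw [castS_Jh_mul k ℓ M, Fermat.Agent.Crux.GM.CoordJ.castS_VJ]
      exact pow_mem (jqModCd_mem_full k M dvd_rfl) _
    have hQ0 : evAt (castS k (Jh (M * ℓ))) Q ≠ 0 := by
      rw [Fermat.Agent.Crux.GM.CoordJ.castS_VJ]
      intro h0
      exact hQ (Fermat.Agent.S28.Build.evAt_V_J_injective (M * ℓ) (by rw [h0, map_zero]))
    have ha : a₁ = (evAt (castS k (Jh (M * ℓ))) Q)⁻¹ *
        ∑ j, evAt (castS k (Jh (M * ℓ))) (P j) * castS k (fam₁ M ℓ b j) := by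
      rw [← hQ₁, inv_mul_cancel_left₀ hQ0]
    rw [ha]
    exact mul_mem (inv_mem (Fermat.Agent.S28.evAt_mem _ hYk Q))
      (sum_mem fun j _ => mul_mem (Fermat.Agent.S28.evAt_mem _ hYk (P j))
        (Basis_castS_fam₁_mem M ℓ k b hbmono j))

end Fermat.Agent.SS.GM2
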