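import Fermat.Agent.SS.GM2.Setup
import Fermat.Agent.SS.GM2.Basis

/-!
# SS / GM2 : auxiliary statements for the tower    (TASKS `SS/GM2-Tower-a,b,c`)

## (a) degrees inside `𝕂 = K((q))`
* `finrank_inclusion` : for intermediate fields `E' ≤ F'` of `𝕂/K`, with the algebra structure given by the inclusion,
  `finrank E' F' = E'.relfinrank F'` (`IntermediateField.relfinrank_eq_finrank_of_le`, and the identity is an `E'`-linear equivalence
  `↥(extendScalars hle) ≃ ↥F'`).
* `relfinrank_Y` : `GM.exists_degree_basis_card (M*ℓ)` for the field `K` (char. 0), `castS K (Jh N) = V K N (J K)` (`GM.castS_VJ`).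
* `relfinrank_X_pos` : `A₀ = K(X̂) ≤ B₀ = K(X̂, Ŷ) ≤ F_K(N)`, `K(Ŷ) ≤ B₀`.  `relfinrank_mul_relfinrank`: `K(Ŷ).relfinrank B₀ * B₀.relfinrank F_K(N) = c_N ≠ 0`, so
  `B₀.relfinrank F_K(N) ≠ 0`; `A₀.relfinrank B₀ ≠ 0` because `Ŷ` is algebraic over `K(X̂)`: it is integral over `A[X̂]`, take `A := K` in
  `unit_trick` (field `F := K((q))`, `J := castS K (Jh M)`, `Y := castS K (Jh (M ℓ))`, mutual integrality from `S28.isIntegralElem_V_of_dvd K M (M*ℓ)`).

## (b) `w` commutes with the coefficientwise action of `τ_K`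
`IntermediateField.adjoin_induction` on `f ∈ F_K(Mℓ) = K(V_d J : d ∣ Mℓ)`.  Generator `V_d J`: if `d ∣ M` it lies in `F_K(M)`, `w f = V_ℓ f`
(`IsALK.alpha`), and `coeffMap τK` fixes `V_d J`, `V_ℓ V_d J` (`coeffMap_qExpand`, `coeffMap_jqModC`).  Otherwise `d = d' ℓ`, `d' ∣ M`
(`ℓ` prime), `V_d J = V_ℓ (V_{d'} J) = w g`, `g = V_{d'} J`, so `w f = g` (`IsALK.invol`).  Constants: `w` is `K`-linear.

## (c) `InvKx` from `InvKq` (clearing denominators)
`y ∈ F` with `Φ y` integral over `K[Φ x]` ⟹ `IsBK π y` in the chart `x`: monic `P ∈ K[X][X]`; choose `j` with `π^j p ∈ A[X]` for all the finitely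
many coefficients (`K = Frac A`, `IsLocalization.exist_integer_multiples_of_finset` + every nonzero `a ∈ A` divides a power of `π`);
`Polynomial.scaleRoots`: `π^j y` is a root of a monic polynomial over `A[X]`.
-/

set_option autoImplicit false
set_option linter.unusedSectionVars false

open Polynomial ModularCurve
open scoped IntermediateField

namespace Fermat.Agent.SS.GM2

open Fermat.Agent.Crux.G Fermat.Agent.SS.G2
open Fermat.Agent.S28 (V J evAt)
open Fermat.Agent.Crux.GM (castS)
open Fermat.Agent.S24 (XN)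

section a

theorem finrank_inclusion {K 𝕂 : Type*} [Field K] [Field 𝕂] [Algebra K 𝕂]
    (E' F' : IntermediateField K 𝕂) (hle : E' ≤ F') :
    letI := (IntermediateField.inclusion hle).toRingHom.toAlgebra
    Module.finrank E' F' = E'.relfinrank F' := by
  let _ := (IntermediateField.inclusion hle).toRingHom.toAlgebra
  rw [IntermediateField.relfinrank_eq_finrank_of_le hle]
  refine LinearEquiv.finrank_eq (?_ : F' ≃ₗ[E'] (IntermediateField.extendScalars hle))
  exact
    { toFun := fun x => ⟨x.1, (IntermediateField.mem_extendScalars hle).2 x.2⟩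
      invFun := fun x => ⟨x.1, (IntermediateField.mem_extendScalars hle).1 x.2⟩
      map_add' := fun x y => rfl
      map_smul' := fun c x => rfl
      left_inv := fun x => rfl
      right_inv := fun x => rfl }

variable (K : Type) [Field K] [CharZero K] (M ℓ : ℕ) [NeZero M] [NeZero ℓ]

theorem TowerAux.castS_Jh_mem {d : ℕ} [NeZero d] (hd : d ∣ M * ℓ) :
    castS K (Jh d) ∈ modularFunctionFieldFullC K (M * ℓ) := by
  rw [Fermat.Agent.Crux.GM.CoordJ.castS_VJ]
  exact jqModCd_mem_full K (M * ℓ) hd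

theorem TowerAux.castS_Xh_eq : castS K (Xh M ℓ) = castS K (Jh M) * castS K (Jh (M * ℓ)) :=
  map_mul _ _ _

theorem adjoin_Y_le : K⟮castS K (Jh (M * ℓ))⟯ ≤ modularFunctionFieldFullC K (M * ℓ) := by
  rw [IntermediateField.adjoin_simple_le_iff]
  exact TowerAux.castS_Jh_mem K M ℓ dvd_rfl

theorem adjoin_X_le : K⟮castS K (Xh M ℓ)⟯ ≤ modularFunctionFieldFullC K (M * ℓ) := by
  rw [IntermediateField.adjoin_simple_le_iff, TowerAux.castS_Xh_eq]
  exact mul_mem (TowerAux.castS_Jh_mem K M ℓ (dvd_mul_right M ℓ))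
    (TowerAux.castS_Jh_mem K M ℓ dvd_rfl)

theorem relfinrank_Y :
    (K⟮castS K (Jh (M * ℓ))⟯).relfinrank (modularFunctionFieldFullC K (M * ℓ))
      = Nat.card (XN (M * ℓ)) := by
  rw [Fermat.Agent.Crux.GM.CoordJ.castS_VJ]
  exact ((Fermat.Agent.Crux.GM.exists_degree_basis_card (M * ℓ)).2 K
    (fun p hp _ => by exact_mod_cast hp.ne_zero)).1

/-- `evAt`-integrality is `IntX`. -/
theorem TowerAux.intX_of_isIntegralElem {t y : LaurentSeries K} (h : (evAt t).IsIntegralElem y) :
    IntX K t y := by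
  rw [intX_self_iff]
  have he : evAt t = ((aeval t : K[X] →ₐ[K] LaurentSeries K) : K[X] →+* LaurentSeries K) :=
    RingHom.ext fun P => Fermat.Agent.S28.UnitArg.evAt_eq_aeval t P
  rw [← he]
  exact h

/-- integral over `K[t]` implies integral over `K(t)`. -/
theorem TowerAux.isIntegral_adjoin_of_intX {t y : LaurentSeries K} (h : IntX K t y) :
    IsIntegral K⟮t⟯ y := by
  rw [intX_self_iff] at h
  obtain ⟨p, hp, hroot⟩ := h
  let φ : K[X] →+* K⟮t⟯ :=
    ((aeval (IntermediateField.AdjoinSimple.gen K t) : K[X] →ₐ[K] K⟮t⟯) : K[X] →+* K⟮t⟯)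
  have hφ : (algebraMap K⟮t⟯ (LaurentSeries K)).comp φ
      = ((aeval t : K[X] →ₐ[K] LaurentSeries K) : K[X] →+* LaurentSeries K) := by
    refine RingHom.ext fun P => ?_
    change algebraMap K⟮t⟯ (LaurentSeries K) (aeval (IntermediateField.AdjoinSimple.gen K t) P)
      = aeval t P
    rw [← aeval_algebraMap_apply, IntermediateField.AdjoinSimple.algebraMap_gen]
  refine ⟨p.map φ, hp.map φ, ?_⟩
  rw [eval₂_map, hφ]
  exact hroot

theorem TowerAux.castS_Jh_ne_zero (d : ℕ) [NeZero d] : castS K (Jh d) ≠ 0 := by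
  intro h0
  have h := Fermat.Agent.S28.transcendental_V_J K d
  rw [← Fermat.Agent.Crux.GM.CoordJ.castS_VJ, h0] at h
  exact h isAlgebraic_zero

/-- `Ŷ` is integral over `K(X̂)`. -/
theorem TowerAux.isIntegral_Y : IsIntegral K⟮castS K (Xh M ℓ)⟯ (castS K (Jh (M * ℓ))) := by
  apply TowerAux.isIntegral_adjoin_of_intX
  rw [TowerAux.castS_Xh_eq]
  have h := Fermat.Agent.S28.isIntegralElem_V_of_dvd K M (M * ℓ) (dvd_mul_right M ℓ)
  rw [← Fermat.Agent.Crux.GM.CoordJ.castS_VJ K M,
    ← Fermat.Agent.Crux.GM.CoordJ.castS_VJ K (M * ℓ)] at h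
  exact (unit_trick (A := K) (castS K (Jh M)) (castS K (Jh (M * ℓ)))
    (TowerAux.castS_Jh_ne_zero K M) (TowerAux.castS_Jh_ne_zero K (M * ℓ))
    (TowerAux.intX_of_isIntegralElem K h.1) (TowerAux.intX_of_isIntegralElem K h.2)).2.1

theorem relfinrank_X_pos :
    0 < (K⟮castS K (Xh M ℓ)⟯).relfinrank (modularFunctionFieldFullC K (M * ℓ)) := by
  set Xs : LaurentSeries K := castS K (Xh M ℓ) with hXs
  set Ys : LaurentSeries K := castS K (Jh (M * ℓ)) with hYs
  have hint : IsIntegral K⟮Xs⟯ Ys := TowerAux.isIntegral_Y K M ℓ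
  set B₀ : IntermediateField K (LaurentSeries K) :=
    IntermediateField.restrictScalars K (K⟮Xs⟯⟮Ys⟯) with hB₀
  have hB₀' : B₀ = IntermediateField.adjoin K ({Xs} ∪ {Ys}) :=
    IntermediateField.adjoin_adjoin_left K _ _
  have hA : K⟮Xs⟯ ≤ B₀ := by
    rw [hB₀']
    exact IntermediateField.adjoin.mono K _ _ Set.subset_union_left
  have hY : K⟮Ys⟯ ≤ B₀ := by
    rw [hB₀']
    exact IntermediateField.adjoin.mono K _ _ Set.subset_union_right
  have hF : B₀ ≤ modularFunctionFieldFullC K (M * ℓ) := by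
    rw [hB₀', IntermediateField.adjoin_le_iff]
    rintro x (hx | hx)
    · rw [Set.mem_singleton_iff.1 hx]
      exact adjoin_X_le K M ℓ (IntermediateField.mem_adjoin_simple_self K _)
    · rw [Set.mem_singleton_iff.1 hx]
      exact adjoin_Y_le K M ℓ (IntermediateField.mem_adjoin_simple_self K _)
  have h1 := IntermediateField.relfinrank_mul_relfinrank hY hF
  rw [relfinrank_Y] at h1
  have hc : 0 < Nat.card (XN (M * ℓ)) := (Fermat.Agent.Crux.GM.exists_degree_basis_card (M * ℓ)).1
  have h2 : 0 < B₀.relfinrank (modularFunctionFieldFullC K (M * ℓ)) := by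
    rw [← h1] at hc
    exact Nat.pos_of_mul_pos_left hc
  have h3 : 0 < (K⟮Xs⟯).relfinrank B₀ := by
    rw [IntermediateField.relfinrank_eq_finrank_of_le hA]
    have he : IntermediateField.extendScalars hA = K⟮Xs⟯⟮Ys⟯ := by
      apply IntermediateField.restrictScalars_injective K
      rw [IntermediateField.extendScalars_restrictScalars]
    rw [he]
    have := IntermediateField.adjoin.finiteDimensional hint
    exact Module.finrank_pos
  rw [← IntermediateField.relfinrank_mul_relfinrank hA hF]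
  exact Nat.mul_pos h3 h2

theorem transcendental_castS_Xh : Transcendental K (castS K (Xh M ℓ)) := by
  have hl : ∀ (d : ℕ) [NeZero d], (Jh d).leadingCoeff = 1 := fun d _ => by
    rw [HahnSeries.leadingCoeff_eq, Fermat.Agent.Crux.GM.CoordJ.order_VJ,
      Fermat.Agent.Crux.GM.CoordJ.coeff_VJ_self]
  have hne : ∀ (d : ℕ) [NeZero d], Jh d ≠ 0 := fun d _ h0 => by
    have := hl d
    rw [h0, HahnSeries.leadingCoeff_zero] at this
    exact zero_ne_one this
  apply Fermat.Agent.Crux.GM.CoordHAux.transcendental_castS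
  · rw [HahnSeries.leadingCoeff_mul, hl, hl, mul_one]
  · rw [HahnSeries.order_mul (hne M) (hne (M * ℓ)), Fermat.Agent.Crux.GM.CoordJ.order_VJ,
      Fermat.Agent.Crux.GM.CoordJ.order_VJ]
    have h1 : (0 : ℤ) < (M : ℤ) := by exact_mod_cast Nat.pos_of_ne_zero (NeZero.ne M)
    have h2 : (0 : ℤ) < ((M * ℓ : ℕ) : ℤ) := by
      exact_mod_cast Nat.pos_of_ne_zero (NeZero.ne (M * ℓ))
    omega

theorem transcendental_castS_Jh : Transcendental K (castS K (Jh (M * ℓ))) := by
  rw [Fermat.Agent.Crux.GM.CoordJ.castS_VJ]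
  exact Fermat.Agent.S28.transcendental_V_J K (M * ℓ)

end a

section b

variable {K : Type*} [Field K] {M ℓ : ℕ} [NeZero M] [NeZero ℓ]

theorem IsALK.comm_coeffMap
    {w : modularFunctionFieldFullC K (M * ℓ) →ₐ[K] modularFunctionFieldFullC K (M * ℓ)}
    (hw : IsALK K M ℓ w) (hℓ : ℓ.Prime) (τK : K →+* K)
    (f : modularFunctionFieldFullC K (M * ℓ)) :
    coeffMap τK ((w f : modularFunctionFieldFullC K (M * ℓ)) : LaurentSeries K) =
      ((w ⟨coeffMap τK (f : LaurentSeries K),
        Fermat.Agent.S28.coeffMap_mem_full τK _ f.2⟩ : modularFunctionFieldFullC K (M * ℓ)) :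
          LaurentSeries K) := by
  have hfix : ∀ (d : ℕ) [NeZero d],
      coeffMap τK (qExpand K d (jqModC K)) = qExpand K d (jqModC K) := by
    intro d _
    rw [ModularCurve.coeffMap_qExpand, coeffMap_jqModC]
  have hconst : ∀ a : K, coeffMap τK (algebraMap K (LaurentSeries K) a)
      = algebraMap K (LaurentSeries K) (τK a) := by
    intro a
    rw [algebraMap_laurentSeries_eq_single, coeffMap_single, ← algebraMap_laurentSeries_eq_single]
  -- the two ring homomorphisms
  let c : modularFunctionFieldFullC K (M * ℓ) →+* modularFunctionFieldFullC K (M * ℓ) :=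
    { toFun := fun f => ⟨coeffMap τK (f : LaurentSeries K),
        Fermat.Agent.S28.coeffMap_mem_full τK _ f.2⟩
      map_one' := Subtype.ext (map_one _)
      map_mul' := fun _ _ => Subtype.ext (map_mul _ _ _)
      map_zero' := Subtype.ext (map_zero _)
      map_add' := fun _ _ => Subtype.ext (map_add _ _ _) }
  let v : modularFunctionFieldFullC K (M * ℓ) →+* LaurentSeries K :=
    (modularFunctionFieldFullC K (M * ℓ)).val.toRingHom
  let φ₁ : modularFunctionFieldFullC K (M * ℓ) →+* LaurentSeries K :=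
    (coeffMap τK).comp (v.comp w.toRingHom)
  let φ₂ : modularFunctionFieldFullC K (M * ℓ) →+* LaurentSeries K :=
    v.comp (w.toRingHom.comp c)
  have h₁ : ∀ f, φ₁ f = coeffMap τK ((w f : modularFunctionFieldFullC K (M * ℓ)) : LaurentSeries K) :=
    fun _ => rfl
  have h₂ : ∀ f, φ₂ f = ((w (c f) : modularFunctionFieldFullC K (M * ℓ)) : LaurentSeries K) :=
    fun _ => rfl
  have hc : ∀ f, ((c f : modularFunctionFieldFullC K (M * ℓ)) : LaurentSeries K)
      = coeffMap τK (f : LaurentSeries K) := fun _ => rfl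
  show φ₁ f = φ₂ f
  clear_value φ₁ φ₂ c
  obtain ⟨x, hx⟩ := f
  have key : ∀ (x : LaurentSeries K)
      (hx : x ∈ IntermediateField.adjoin K (divisorExpansionsC K (M * ℓ))),
      φ₁ (⟨x, hx⟩ : modularFunctionFieldFullC K (M * ℓ)) = φ₂ ⟨x, hx⟩ := by
    intro x hx
    induction hx using IntermediateField.adjoin_induction with
    | mem y hy =>
      obtain ⟨d, hd, hdN, rfl⟩ := hy
      rw [h₁, h₂]
      have e1 : c (⟨qExpand K d (jqModC K),
          IntermediateField.subset_adjoin K _ ⟨d, hd, hdN, rfl⟩⟩ :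
            modularFunctionFieldFullC K (M * ℓ))
          = ⟨qExpand K d (jqModC K), IntermediateField.subset_adjoin K _ ⟨d, hd, hdN, rfl⟩⟩ := by
        apply Subtype.ext
        rw [hc]
        exact hfix d
      rw [e1]
      by_cases hdM : d ∣ M
      · rw [hw.alpha _ (jqModCd_mem_full K M hdM)]
        show coeffMap τK (qExpand K ℓ (qExpand K d (jqModC K))) = _
        rw [qExpand_qExpand, hfix]
      · -- d = ℓ * d'
        have hℓd : ℓ ∣ d := by
          by_contra hnd
          exact hdM ((Nat.Coprime.dvd_of_dvd_mul_right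
            ((Nat.Prime.coprime_iff_not_dvd hℓ).2 hnd).symm hdN))
        obtain ⟨d', rfl⟩ := hℓd
        have hd'0 : d' ≠ 0 := by
          rintro rfl
          exact hd.out (by simp)
        have : NeZero d' := ⟨hd'0⟩
        have hd'M : d' ∣ M := by
          rw [mul_comm M ℓ] at hdN
          exact Nat.dvd_of_mul_dvd_mul_left hℓ.pos hdN
        have hg : qExpand K d' (jqModC K) ∈ modularFunctionFieldFullC K (M * ℓ) :=
          jqModCd_mem_full K (M * ℓ) (hd'M.mul_right ℓ)
        have e2 : (⟨qExpand K (ℓ * d') (jqModC K),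
            IntermediateField.subset_adjoin K _ ⟨ℓ * d', hd, hdN, rfl⟩⟩ :
            modularFunctionFieldFullC K (M * ℓ)) = w ⟨qExpand K d' (jqModC K), hg⟩ := by
          apply Subtype.ext
          rw [hw.alpha _ (jqModCd_mem_full K M hd'M)]
          show _ = qExpand K ℓ (qExpand K d' (jqModC K))
          rw [qExpand_qExpand]
        rw [e2, hw.invol]
        exact hfix d'
    | algebraMap a =>
      rw [h₁, h₂]
      have e1 : (⟨algebraMap K (LaurentSeries K) a, IntermediateField.algebraMap_mem _ a⟩ :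
          modularFunctionFieldFullC K (M * ℓ))
          = algebraMap K (modularFunctionFieldFullC K (M * ℓ)) a := rfl
      have e2 : c (algebraMap K (modularFunctionFieldFullC K (M * ℓ)) a)
          = algebraMap K (modularFunctionFieldFullC K (M * ℓ)) (τK a) := by
        apply Subtype.ext
        rw [hc]
        exact hconst a
      rw [e1, e2, AlgHom.commutes, AlgHom.commutes]
      exact hconst a
    | add x y hx hy ihx ihy =>
      have e1 : (⟨x + y, add_mem hx hy⟩ : modularFunctionFieldFullC K (M * ℓ))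
          = ⟨x, hx⟩ + ⟨y, hy⟩ := rfl
      rw [e1, map_add, map_add, ihx, ihy]
    | inv x hx ihx =>
      have e1 : (⟨x⁻¹, inv_mem hx⟩ : modularFunctionFieldFullC K (M * ℓ)) = (⟨x, hx⟩)⁻¹ := rfl
      rw [e1, map_inv₀, map_inv₀, ihx]
    | mul x y hx hy ihx ihy =>
      have e1 : (⟨x * y, mul_mem hx hy⟩ : modularFunctionFieldFullC K (M * ℓ))
          = ⟨x, hx⟩ * ⟨y, hy⟩ := rfl
      rw [e1, map_mul, map_mul, ihx, ihy]
  exact key x hx

end b

section c

/-- clearing denominators: integral over `K[X]` implies `IsBK`. -/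
theorem TowerC_isBK_generic {A K F : Type*} [CommRing A] [IsDomain A] [IsDiscreteValuationRing A]
    [Field K] [Algebra A K] [IsFractionRing A K] [Field F] [Algebra A[X] F] {π : A}
    (hπ : Irreducible π) (θ : K[X] →+* F)
    (hθ : ∀ p : A[X], θ (p.map (algebraMap A K)) = algebraMap A[X] F p) (y : F)
    (hy : θ.IsIntegralElem y) : IsBK π y := by
  let _ := Polynomial.algebra A K
  let _ : Algebra K[X] F := θ.toAlgebra
  have : IsScalarTower A[X] K[X] F := IsScalarTower.of_algebraMap_eq (fun p => (hθ p).symm)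
  have := Polynomial.isLocalization (nonZeroDivisors A) K
  obtain ⟨⟨m, a, ha, rfl⟩, hm⟩ := IsIntegral.exists_multiple_integral_of_isLocalization
    ((nonZeroDivisors A).map (C : A →+* A[X])) y hy
  have ha0 : a ≠ 0 := nonZeroDivisors.ne_zero ha
  obtain ⟨j, u, hu⟩ := IsDiscreteValuationRing.eq_unit_mul_pow_irreducible ha0 hπ
  refine ⟨j, ?_⟩
  have h1 : (C π : A[X]) ^ j • y = (C ((u⁻¹ : Aˣ) : A) : A[X]) • ((C a : A[X]) • y) := by
    rw [smul_smul, ← C_mul, hu, ← mul_assoc, Units.inv_mul, one_mul, C_pow]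
  rw [h1]
  exact IsIntegral.smul _ hm

variable {M ℓ : ℕ} [NeZero M] [NeZero ℓ]
variable {A K k : Type} [CommRing A] [IsDomain A] [IsDiscreteValuationRing A] [Field K]
  [Algebra A K] [IsFractionRing A K] [Field k] {r : A →+* k} {π : A}
variable {F : Type} [Field F] [Algebra A F] {Φ : F →+* LaurentSeries K} {w : F →+* F}
variable {E : Type} [Field E] [Algebra A E] [Algebra E F] [IsScalarTower A E F]

theorem Setup.isBK_of_isIntegralElem (S : Setup M ℓ r π Φ w) (x : E) (y : F)
    (h : (evAt (Φ (algebraMap E F x))).IsIntegralElem (Φ y)) :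
    letI := algL (A := A) F x
    IsBK π y := by
  let _ := algL (A := A) F x
  have hinj : Function.Injective (algebraMap A F) := by
    rw [injective_iff_map_eq_zero]
    intro a ha
    have h1 := S.hΦA a
    rw [ha, map_zero] at h1
    have h2 : algebraMap A K a = 0 := by
      have h3 := congrArg (fun z : LaurentSeries K => z.coeff 0) h1
      simpa using h3.symm
    exact (map_eq_zero_iff _ (IsFractionRing.injective A K)).mp h2
  let ψ : K →+* F := IsFractionRing.lift hinj
  have hψ : ∀ a : A, ψ (algebraMap A K a) = algebraMap A F a :=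
    fun a => IsFractionRing.lift_algebraMap hinj a
  have hΦψ : Φ.comp ψ = (HahnSeries.C : K →+* LaurentSeries K) := by
    refine IsLocalization.ringHom_ext (nonZeroDivisors A) (RingHom.ext fun a => ?_)
    simp only [RingHom.comp_apply]
    rw [hψ, S.hΦA]
  let θ : K[X] →+* F := eval₂RingHom ψ (algebraMap E F x)
  have hθ : ∀ p : A[X], θ (p.map (algebraMap A K)) = algebraMap A[X] F p := by
    intro p
    have h1 : θ.comp (mapRingHom (algebraMap A K)) = algebraMap A[X] F := by
      refine Polynomial.ringHom_ext (fun a => ?_) ?_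
      · simp only [RingHom.comp_apply, coe_mapRingHom, map_C, θ, coe_eval₂RingHom, eval₂_C]
        rw [hψ]
        change _ = algebraMap E F (aeval x (C a : A[X]))
        rw [aeval_C, ← IsScalarTower.algebraMap_apply]
      · simp only [RingHom.comp_apply, coe_mapRingHom, map_X, θ, coe_eval₂RingHom, eval₂_X]
        change _ = algebraMap E F (aeval x (X : A[X]))
        rw [aeval_X]
    exact congrArg (fun g : A[X] →+* F => g p) h1
  have hΦθ : Φ.comp θ = evAt (Φ (algebraMap E F x)) := by
    refine Polynomial.ringHom_ext (fun c => ?_) ?_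
    · simp only [RingHom.comp_apply, θ, coe_eval₂RingHom, eval₂_C, Fermat.Agent.S28.Build.evAt_C]
      exact congrArg (fun g : K →+* LaurentSeries K => g c) hΦψ
    · simp only [RingHom.comp_apply, θ, coe_eval₂RingHom, eval₂_X, Fermat.Agent.S28.Build.evAt_X]
  refine TowerC_isBK_generic S.hπ θ hθ y ?_
  obtain ⟨P, hP, hPe⟩ := h
  refine ⟨P, hP, Φ.injective ?_⟩
  rw [hom_eval₂, hΦθ, map_zero]
  exact hPe

theorem Setup.invKx_of_invKq (S : Setup M ℓ r π Φ w) (x : E) (m : ℕ) (W : F)
    (h : InvKq K (M * ℓ) m (Φ (algebraMap E F x)) (Φ W)) : InvKx π x m W := by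
  obtain ⟨n, a, b, ha, hb, hia, hib, hsum⟩ := h
  choose a' ha' using fun i => (S.hΦF (a i)).mp (ha i)
  choose b' hb' using fun i => (S.hΦF (b i)).mp (hb i)
  refine ⟨n, a', b', fun i => ?_, fun i => ?_, Φ.injective ?_⟩
  · refine S.isBK_of_isIntegralElem x _ ?_
    rw [map_mul, map_pow, ha']
    exact hia i
  · refine S.isBK_of_isIntegralElem x _ ?_
    rw [map_mul, map_pow, hb', map_inv₀]
    exact hib i
  · rw [map_sum, map_one, ← hsum]
    refine Finset.sum_congr rfl fun i _ => ?_
    rw [map_mul, ha', hb']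

end c

end Fermat.Agent.SS.GM2
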