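import Fermat.Agent.SS.GM2.BridgeX
import Fermat.Agent.SS.GM2.Basis

/-!
# SS / GM2 : the abstract core  (`Setup` + `GR` + Theorem G2)     (owner: helper13)
-/

set_option autoImplicit false
set_option linter.unusedSectionVars false
set_option linter.style.haveILetI false

open Polynomial ModularCurve

namespace Fermat.Agent.SS.GM2

open Fermat.Agent.Crux.G Fermat.Agent.SS.G2
open Fermat.Agent.S28 (V J evAt)
open Fermat.Agent.Crux.GM (castS)
open Fermat.Agent.S24 (XN)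

variable {M ℓ : ℕ} [NeZero M] [NeZero ℓ]
variable {A K k : Type} [CommRing A] [IsDomain A] [IsDiscreteValuationRing A] [Field K]
  [CharZero K] [Algebra A K] [IsFractionRing A K] [Algebra K Fermat.Agent.S24.Kb] [Field k] [Finite k]
  {r : A →+* k} {π : A}
variable {F : Type} [Field F] [Algebra A F] {Φ : F →+* LaurentSeries K} {w : F →+* F}

theorem core2_abstract
    {E E₁ L : Type} [Field E] [Field E₁] [Field L] [CharZero E]
    [Algebra A E] [Algebra E F] [IsScalarTower A E F] [FiniteDimensional E F]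
    [Algebra A E₁] [Algebra E₁ F] [IsScalarTower A E₁ F]
    [Algebra F L] [Algebra E L] [IsScalarTower E F L] [Algebra A L] [IsScalarTower A E L]
    (S : Setup M ℓ r π Φ w)
    (ΦL : L →+* LaurentSeries K) (hΦL : ∀ f, ΦL (algebraMap F L f) = Φ f)
    (X : E) (hX : Φ (algebraMap E F X) = castS K (Xh M ℓ)) (hXt : Transcendental A X)
    (hgen : ∀ c : E, ∃ p q : A[X], q ≠ 0 ∧ c * aeval X q = aeval X p)
    (Y₁ : E₁) (hY₁ : Φ (algebraMap E₁ F Y₁) = castS K (Jh (M * ℓ)))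
    (hY₁t : Transcendental A Y₁)
    (hgen₁ : ∀ c : E₁, ∃ p q : A[X], q ≠ 0 ∧ c * aeval Y₁ q = aeval Y₁ p)
    (hn₁ : Module.finrank E₁ F = Nat.card (XN (M * ℓ)))
    (G0 : GR M r (castS K (Jh M)) (castS k (Jh M)))
    (Ginf : GR M r (castS K (Jh M))⁻¹ (castS k (Jh M))⁻¹)
    (m : ℕ) (hm : 0 < m) (hmℓ : ¬ ℓ ∣ m) (ζ : A) (hζ : IsPrimitiveRoot ζ m)
    (τ : F →+* F) (τK : K →+* K) (τA : A →+* A)
    (hτKA : ∀ a, τK (algebraMap A K a) = algebraMap A K (τA a))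
    (hτ : ∀ f, Φ (τ f) = coeffMap τK (Φ f)) (hτw : ∀ f, τ (w f) = w (τ f))
    (ν e g : ℕ) (hν : ∀ a, r (τA a) = r a ^ (ℓ ^ (2 * ν))) (hQe : ℓ ^ (2 * ν) = e + m * g)
    (W : F) (hW₁ : RedK r (Φ W) 1) (hW₂ : RedK r (Φ (w W)) 1)
    (hinv0 : InvKx π X m W) (hinvinf : InvKx π X⁻¹ m W)
    (v : L) (hv : v ^ m = algebraMap F L (τ W / W ^ e)) : ∃ h : F, algebraMap F L h = v := by
  classical
  have hℓ := S.hℓ
  haveI : Fact ℓ.Prime := ⟨hℓ⟩
  haveI hchar : CharP k ℓ := by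
    have : (ℓ : k) = 0 := by rw [← map_natCast r, S.hrℓ]
    exact (CharP.charP_iff_prime_eq_zero hℓ).mpr this
  obtain ⟨Jf, Yf, hJ, hY⟩ := S.exists_J
  have hYe : algebraMap E₁ F Y₁ = Yf := Φ.injective (by rw [hY₁, hY])
  have hXe : algebraMap E F X = Jf * Yf := Φ.injective (by rw [hX, S.Phi_X hJ hY])
  have QY : QL M r π Φ w Yf := hYe ▸ S.ql_Y Y₁ hY₁ hY₁t hgen₁ hn₁
  have QX : QL M r π Φ w (algebraMap E F X) := hXe ▸ S.ql_X hJ hY QY
  have hX0 : X ≠ 0 := fun h => hXt (h ▸ isAlgebraic_zero)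
  have hXF0 : algebraMap E F X ≠ 0 := by rwa [Ne, map_eq_zero]
  have QXi : QL M r π Φ w (algebraMap E F X⁻¹) := by
    rw [map_inv₀]; exact QX.inv S.hπ hXF0
  have hXk0 : castS k (Xh M ℓ) ≠ 0 := by
    rw [castS_Xh k ℓ M]
    refine pow_ne_zero _ ?_
    exact Fermat.Agent.Crux.GM.castS_ne_zero _ (by
      rw [HahnSeries.leadingCoeff_eq, Fermat.Agent.Crux.GM.CoordJ.order_VJ,
        Fermat.Agent.Crux.GM.CoordJ.coeff_VJ_self])
  obtain ⟨ε, hε₁, hε₂, hετ⟩ := S.exists_eps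
  have hτε : τ ε = ε := Φ.injective (by rw [hτ, hετ])
  have hredX : RedK r (Φ (algebraMap E F X)) (castS k (Xh M ℓ)) := by
    rw [hX]; exact RedK.of_castS _
  have hwX : w (algebraMap E F X) = algebraMap E F X := by rw [hXe]; exact S.w_X hJ hY
  obtain ⟨x₁, x₂, Z, _, D0, hD0⟩ := S.exists_sfDatax X (castS k (Xh M ℓ)) hredX hwX
    (V_castS k ℓ _) (fun σ => Fermat.Agent.Crux.GM.coeffMap_castS σ _) QX
    (fun a ha hint => by
      obtain ⟨c, h1, h2⟩ := S.lift_X hJ hY G0 a ha hint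
      exact ⟨c, (intX_algebraMap_iff X c).mp (hXe ▸ h1), h2⟩)
    τ τK τA hτKA hτ hτw ν hν ε hε₁ hε₂
  obtain ⟨x₁', x₂', Z', _, Dinf, hDinf⟩ := S.exists_sfDatax X⁻¹ (castS k (Xh M ℓ))⁻¹
    (by rw [map_inv₀, map_inv₀]; exact hredX.inv hXk0)
    (by rw [map_inv₀, map_inv₀, hwX])
    (by rw [map_inv₀, V_castS k ℓ, inv_pow])
    (fun σ => by rw [map_inv₀, Fermat.Agent.Crux.GM.coeffMap_castS]) QXi
    (fun a ha hint => by
      obtain ⟨c, h1, h2⟩ := S.lift_Xinv hJ hY Ginf a ha hint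
      refine ⟨c, (intX_algebraMap_iff X⁻¹ c).mp ?_, h2⟩
      rw [map_inv₀, hXe]; exact h1)
    τ τK τA hτKA hτ hτw ν hν ε hε₁ hε₂
  have hpi : ∀ f : F, RedK r (Φ f) 0 → RedK r (Φ (w f)) 0 → IsPiOLx π X f := fun f h1 h2 =>
    (isPiOLx_algebraMap_iff π X f).mp (QX.isPiOL f h1 h2)
  have hΦAL : ∀ a : A, ΦL (algebraMap A L a) = HahnSeries.C (algebraMap A K a) := by
    intro a
    rw [IsScalarTower.algebraMap_apply A E L, IsScalarTower.algebraMap_apply E F L, hΦL,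
      ← IsScalarTower.algebraMap_apply A E F, S.hΦA]
  have hrπ := Fermat.Agent.Crux.GM.map_irreducible_eq_zero r π S.hr S.hπ
  refine theoremG2 π S.hπ X hXt hgen (Fermat.Agent.Crux.GM.H0_of_Phi ΦL hΦAL) m hm ?_ ζ hζ τ τA ?_ ?_
    (ℓ ^ (2 * ν)) e g (pow_pos hℓ.pos _) ?_ hQe ε ?_ ?_ D0 hD0 Dinf hDinf W 1 1 ?_ hinv0 hinvinf v hv
  · -- `π ∤ m`
    rintro ⟨b, hb⟩
    have h1 : r (m : A) = 0 := by rw [hb, map_mul, hrπ, zero_mul]
    rw [map_natCast] at h1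
    exact hmℓ ((CharP.cast_eq_zero_iff k ℓ m).mp h1)
  · intro a
    apply Φ.injective
    rw [hτ, S.hΦA, S.hΦA, Fermat.Agent.Crux.coeffMap_C, hτKA]
  · apply Φ.injective
    rw [hτ, hX, Fermat.Agent.Crux.GM.coeffMap_castS]
  · intro a
    apply Fermat.Agent.Crux.GM.dvd_of_map_eq_zero r S.hr S.hπ
    rw [map_sub, map_pow, hν, sub_self]
  · apply hpi
    · have := (hε₁.pow 2).sub hε₁
      rw [← map_pow, ← map_sub] at this
      exact this.congr rfl (by ring)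
    · have := (hε₂.pow 2).sub hε₂
      rw [← map_pow, ← map_pow, ← map_sub, ← map_sub] at this
      exact this.congr rfl (by ring)
  · rw [hτε, sub_self]
    apply hpi <;> simp only [map_zero] <;> exact RedK.zero
  · have e1 : W - (algebraMap A F ((1 : Aˣ) : A) * ε + algebraMap A F ((1 : Aˣ) : A) * (1 - ε))
        = W - 1 := by
      rw [Units.val_one, map_one]; ring
    rw [e1]
    apply hpi
    · have := hW₁.sub RedK.one
      rw [← map_one Φ, ← map_sub] at this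
      exact this.congr rfl (by ring)
    · have := hW₂.sub RedK.one
      rw [← map_one Φ, ← map_one w, ← map_sub, ← map_sub] at this
      exact this.congr rfl (by ring)

end Fermat.Agent.SS.GM2
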