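import Fermat.Agent.SS.GM2.Defs

/-!
# SS / GM2 : calculus of `RedK`   (TASK `SS/GM2-RedK`)

`RedK r x a` : `x = g/h`, `g h ∈ A((q))`, `h̄ ≠ 0`, `ḡ = a h̄`.  Everything is formal; it is the
`(A,K,k)`-version of `SS/Formal/Red.lean` (copy the proofs: `RedTo.mul`, `.inv`, `.unique`, `.vq`,
`.gal`); `k((q))` is a field, `ι = coeffMap (algebraMap A K)` is injective
(`Crux.GM.coeffMap_algebraMap_injective`).
* `add` : `x + x' = (g h' + g' h)/(h h')`.
* `evK`, `eval₂` : polynomial induction (or `Polynomial.eval₂_eq_sum_range` + `sum`).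
* `exists_rho` : `ρ y := choose`, ring hom axioms from `unique` + `add`, `mul`, `one`, `zero`.
* `exists_redK_of_mem` : `IntermediateField.adjoin_induction` on `F_k(M) = k(V_d J̄ : d ∣ M)`
  (as in `S28.coeffMap_mem_full`): generators `V k d (J k) = castS k (V ℤ d (J ℤ))`
  (`Crux.GM.castS_VJ`), constants (`hr`), `add`, `mul`, `inv` (`a = 0` trivial).
* `exists_pow_mul` : `g ≠ 0`; the ideal generated by the coefficients of `g` is `(π^j)`
  (DVR: take `j` = the minimum of `addVal` of the nonzero coefficients); cf.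
  `Crux.GM.exists_eq_C_mul_of_red_eq_zero` (divide by `π` as long as `ḡ = 0`; terminates because a
  nonzero coefficient has finite valuation).
-/

set_option autoImplicit false
set_option linter.unusedSectionVars false

open Polynomial ModularCurve

namespace Fermat.Agent.SS.GM2

open Fermat.Agent.S28 (V J evAt)
open Fermat.Agent.Crux.GM (castS)

variable {A K k : Type*} [CommRing A] [IsDomain A] [Field K] [Algebra A K] [IsFractionRing A K]
  [Field k] {r : A →+* k} {x x' : LaurentSeries K} {a a' : LaurentSeries k}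

theorem RedK.of_series (g : LaurentSeries A) :
    RedK r (coeffMap (algebraMap A K) g) (coeffMap r g) := by
  refine ⟨g, 1, ?_, ?_, ?_⟩
  · rw [map_one]; exact one_ne_zero
  · rw [map_one, mul_one]
  · rw [map_one, mul_one]

theorem RedK.zero : RedK r (0 : LaurentSeries K) 0 := by
  have := RedK.of_series (K := K) (r := r) (0 : LaurentSeries A)
  rwa [map_zero, map_zero] at this

theorem RedK.one : RedK r (1 : LaurentSeries K) 1 := by
  have := RedK.of_series (K := K) (r := r) (1 : LaurentSeries A)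
  rwa [map_one, map_one] at this

theorem RedK.of_castS (xh : LaurentSeries ℤ) : RedK r (castS K xh) (castS k xh) := by
  have := RedK.of_series (K := K) (r := r) (castS A xh)
  rwa [Fermat.Agent.Crux.GM.coeffMap_castS, Fermat.Agent.Crux.GM.coeffMap_castS] at this

theorem RedK.of_C (c : A) : RedK r (HahnSeries.C (algebraMap A K c)) (HahnSeries.C (r c)) := by
  have := RedK.of_series (K := K) (r := r) (HahnSeries.C c)
  rwa [Fermat.Agent.S28.Build.coeffMap_C, Fermat.Agent.S28.Build.coeffMap_C] at this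

theorem RedK.add (h : RedK r x a) (h' : RedK r x' a') : RedK r (x + x') (a + a') := by
  obtain ⟨y₁, y₂, h0, h1, h2⟩ := h
  obtain ⟨z₁, z₂, k0, k1, k2⟩ := h'
  refine ⟨y₁ * z₂ + z₁ * y₂, y₂ * z₂, ?_, ?_, ?_⟩
  · rw [map_mul]; exact mul_ne_zero h0 k0
  · rw [map_add, map_mul, map_mul, map_mul, ← h1, ← k1]; ring
  · rw [map_add, map_mul, map_mul, map_mul, h2, k2]; ring

theorem RedK.neg (h : RedK r x a) : RedK r (-x) (-a) := by
  obtain ⟨y₁, y₂, h0, h1, h2⟩ := h
  refine ⟨-y₁, y₂, h0, ?_, ?_⟩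
  · rw [map_neg, ← h1]; ring
  · rw [map_neg, h2]; ring

theorem RedK.sub (h : RedK r x a) (h' : RedK r x' a') : RedK r (x - x') (a - a') := by
  rw [sub_eq_add_neg, sub_eq_add_neg]
  exact h.add h'.neg

theorem RedK.mul (h : RedK r x a) (h' : RedK r x' a') : RedK r (x * x') (a * a') := by
  obtain ⟨y₁, y₂, h0, h1, h2⟩ := h
  obtain ⟨z₁, z₂, k0, k1, k2⟩ := h'
  refine ⟨y₁ * z₁, y₂ * z₂, ?_, ?_, ?_⟩
  · rw [map_mul]; exact mul_ne_zero h0 k0
  · rw [map_mul, map_mul, ← h1, ← k1]; ring
  · rw [map_mul, map_mul, h2, k2]; ring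

theorem RedK.pow (h : RedK r x a) (n : ℕ) : RedK r (x ^ n) (a ^ n) := by
  induction n with
  | zero => simpa using RedK.one
  | succ n ih => rw [pow_succ, pow_succ]; exact ih.mul h

theorem RedK.sum {ι : Type*} (s : Finset ι) (f : ι → LaurentSeries K) (g : ι → LaurentSeries k)
    (h : ∀ i ∈ s, RedK r (f i) (g i)) : RedK r (∑ i ∈ s, f i) (∑ i ∈ s, g i) := by
  classical
  induction s using Finset.induction_on with
  | empty => simpa using RedK.zero
  | insert i s hi ih =>
    rw [Finset.sum_insert hi, Finset.sum_insert hi]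
    exact (h i (Finset.mem_insert_self i s)).add
      (ih fun j hj => h j (Finset.mem_insert_of_mem hj))

theorem RedK.inv (h : RedK r x a) (ha : a ≠ 0) : RedK r x⁻¹ a⁻¹ := by
  obtain ⟨y₁, y₂, h0, h1, h2⟩ := h
  have h3 : coeffMap r y₁ ≠ 0 := by rw [h2]; exact mul_ne_zero ha h0
  have h4 : coeffMap (algebraMap A K) y₁ ≠ 0 := by
    intro h
    have : y₁ = 0 := Fermat.Agent.S28.Build.coeffMap_injective _ (IsFractionRing.injective A K)
      (by rw [h, map_zero])
    exact h3 (by rw [this, map_zero])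
  have hx : x ≠ 0 := by
    rintro rfl
    rw [zero_mul] at h1
    exact h4 h1.symm
  refine ⟨y₂, y₁, h3, ?_, ?_⟩
  · rw [← h1, inv_mul_cancel_left₀ hx]
  · rw [h2, inv_mul_cancel_left₀ ha]

theorem RedK.div (h : RedK r x a) (h' : RedK r x' a') (ha : a' ≠ 0) :
    RedK r (x / x') (a / a') := by
  rw [div_eq_mul_inv, div_eq_mul_inv]
  exact h.mul (h'.inv ha)

theorem RedK.unique (h : RedK r x a) (h' : RedK r x a') : a = a' := by
  obtain ⟨y₁, y₂, h0, h1, h2⟩ := h
  obtain ⟨z₁, z₂, k0, k1, k2⟩ := h'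
  have e : y₁ * z₂ = z₁ * y₂ := by
    apply Fermat.Agent.S28.Build.coeffMap_injective _ (IsFractionRing.injective A K)
    rw [map_mul, map_mul, ← h1, ← k1]; ring
  have e' := congrArg (coeffMap r) e
  rw [map_mul, map_mul, h2, k2] at e'
  have e'' : a * (coeffMap r y₂ * coeffMap r z₂) = a' * (coeffMap r y₂ * coeffMap r z₂) := by
    linear_combination e'
  exact mul_right_cancel₀ (mul_ne_zero h0 k0) e''

theorem RedK.congr (h : RedK r x a) (hx : x = x') (ha : a = a') : RedK r x' a' := by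
  rw [← hx, ← ha]; exact h

theorem RedK.map_V (ℓ : ℕ) [NeZero ℓ] (h : RedK r x a) : RedK r (V K ℓ x) (V k ℓ a) := by
  obtain ⟨y₁, y₂, h0, h1, h2⟩ := h
  refine ⟨V A ℓ y₁, V A ℓ y₂, ?_, ?_, ?_⟩
  · rw [Fermat.Agent.S28.Build.coeffMap_V]
    intro h
    exact h0 (qExpand_injective ℓ (by rw [h, map_zero]))
  · rw [Fermat.Agent.S28.Build.coeffMap_V, Fermat.Agent.S28.Build.coeffMap_V, ← map_mul, h1]
  · rw [Fermat.Agent.S28.Build.coeffMap_V, Fermat.Agent.S28.Build.coeffMap_V, ← map_mul, h2]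

/-- semilinear change of coefficients. -/
theorem RedK.map_coeffMap (τK : K →+* K) (τA : A →+* A) (τk : k →+* k)
    (h1 : ∀ c, τK (algebraMap A K c) = algebraMap A K (τA c)) (h2 : ∀ c, r (τA c) = τk (r c))
    (h : RedK r x a) : RedK r (coeffMap τK x) (coeffMap τk a) := by
  obtain ⟨y₁, y₂, e0, e1, e2⟩ := h
  have key1 : ∀ y : LaurentSeries A, coeffMap (algebraMap A K) (coeffMap τA y)
      = coeffMap τK (coeffMap (algebraMap A K) y) := fun y => by
    rw [coeffMap_coeffMap, coeffMap_coeffMap]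
    exact coeffMap_congr (RingHom.ext fun c => (h1 c).symm) y
  have key2 : ∀ y : LaurentSeries A, coeffMap r (coeffMap τA y)
      = coeffMap τk (coeffMap r y) := fun y => by
    rw [coeffMap_coeffMap, coeffMap_coeffMap]
    exact coeffMap_congr (RingHom.ext fun c => h2 c) y
  refine ⟨coeffMap τA y₁, coeffMap τA y₂, ?_, ?_, ?_⟩
  · rw [key2]
    intro h
    exact e0 ((coeffMap τk).injective (by rw [h, map_zero]))
  · rw [key1, key1, ← map_mul, e1]
  · rw [key2, key2, e2, map_mul]

theorem RedK.map_evK (h : RedK r x a) (P : A[X]) : RedK r (evK A x P) (evAt a (P.map r)) := by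
  induction P using Polynomial.induction_on' with
  | add p q hp hq =>
    rw [map_add, Polynomial.map_add, map_add]
    exact hp.add hq
  | monomial n c =>
    rw [Polynomial.map_monomial, ← Polynomial.C_mul_X_pow_eq_monomial,
      ← Polynomial.C_mul_X_pow_eq_monomial, map_mul, map_mul, map_pow, map_pow]
    refine RedK.mul ?_ (RedK.pow ?_ n)
    · have := RedK.of_C (K := K) (r := r) c
      simpa [evK] using this
    · simpa [evK] using h

theorem RedK.map_eval₂ {t : LaurentSeries K} {tb : LaurentSeries k} (ht : RedK r t tb)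
    (h : RedK r x a) (P : A[X][X]) :
    RedK r (P.eval₂ (evK A t) x) ((P.map (mapRingHom r)).eval₂ (evAt tb) a) := by
  induction P using Polynomial.induction_on' with
  | add p q hp hq =>
    rw [Polynomial.eval₂_add, Polynomial.map_add, Polynomial.eval₂_add]
    exact hp.add hq
  | monomial n c =>
    rw [Polynomial.map_monomial, Polynomial.eval₂_monomial, Polynomial.eval₂_monomial]
    exact (ht.map_evK c).mul (h.pow n)

/-- a reduction map, as a ring homomorphism. -/
theorem exists_rho {R : Type*} [CommRing R] (Ψ : R →+* LaurentSeries K)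
    (h : ∀ y, ∃ a, RedK r (Ψ y) a) :
    ∃ ρ : R →+* LaurentSeries k, ∀ y, RedK r (Ψ y) (ρ y) := by
  choose ρ hρ using h
  refine ⟨{ toFun := ρ, map_one' := ?_, map_mul' := ?_, map_zero' := ?_, map_add' := ?_ }, hρ⟩
  · exact (hρ 1).unique (by rw [map_one]; exact RedK.one)
  · intro y z
    exact (hρ (y * z)).unique (by rw [map_mul]; exact (hρ y).mul (hρ z))
  · exact (hρ 0).unique (by rw [map_zero]; exact RedK.zero)
  · intro y z
    exact (hρ (y + z)).unique (by rw [map_add]; exact (hρ y).add (hρ z))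

/-- the reduction `F_K(M) ∩ V → F_k(M)` is surjective. -/
theorem exists_redK_of_mem (M : ℕ) [NeZero M] (hr : Function.Surjective r)
    (ha : a ∈ modularFunctionFieldFullC k M) :
    ∃ e ∈ modularFunctionFieldFullC K M, RedK r e a := by
  rw [modularFunctionFieldFullC] at ha
  induction ha using IntermediateField.adjoin_induction with
  | mem y hy =>
    obtain ⟨d, hd, hdN, rfl⟩ := hy
    refine ⟨qExpand K d (jqModC K), jqModCd_mem_full K M hdN, ?_⟩
    have := RedK.of_castS (K := K) (r := r) (V ℤ d (J ℤ))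
    rwa [castS, castS, coeffMap_qExpand, coeffMap_jqModC, coeffMap_qExpand, coeffMap_jqModC] at this
  | algebraMap c =>
    obtain ⟨c', rfl⟩ := hr c
    refine ⟨algebraMap K (LaurentSeries K) (algebraMap A K c'),
      IntermediateField.algebraMap_mem _ _, ?_⟩
    have := RedK.of_C (K := K) (r := r) c'
    rwa [Fermat.Agent.S28.C_eq_algebraMap, Fermat.Agent.S28.C_eq_algebraMap] at this
  | add x y _ _ hx hy =>
    obtain ⟨e, he, h1⟩ := hx
    obtain ⟨e', he', h1'⟩ := hy
    exact ⟨e + e', add_mem he he', h1.add h1'⟩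
  | inv x _ hx =>
    obtain ⟨e, he, h1⟩ := hx
    by_cases hx0 : x = 0
    · exact ⟨0, zero_mem _, by rw [hx0, inv_zero]; exact RedK.zero⟩
    · exact ⟨e⁻¹, inv_mem he, h1.inv hx0⟩
  | mul x y _ _ hx hy =>
    obtain ⟨e, he, h1⟩ := hx
    obtain ⟨e', he', h1'⟩ := hy
    exact ⟨e * e', mul_mem he he', h1.mul h1'⟩

theorem exists_pow_mul_aux [IsDiscreteValuationRing A] {π : A} (hπ : Irreducible π)
    (hr : Function.Surjective r) (m : ℕ) : ∀ g : LaurentSeries A, (∃ n, ¬ π ^ m ∣ g.coeff n) →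
    ∃ (j : ℕ) (g' : LaurentSeries A), g = HahnSeries.C π ^ j * g' ∧ coeffMap r g' ≠ 0 := by
  induction m with
  | zero =>
    rintro g ⟨n, hn⟩
    exact absurd (by rw [pow_zero]; exact one_dvd _) hn
  | succ m ih =>
    rintro g ⟨n, hn⟩
    by_cases h0 : coeffMap r g = 0
    · obtain ⟨g1, rfl⟩ := Fermat.Agent.Crux.GM.exists_eq_C_mul_of_red_eq_zero r hr hπ h0
      have hc : (HahnSeries.C π * g1).coeff n = π * g1.coeff n := by
        rw [HahnSeries.C_mul_eq_smul, HahnSeries.coeff_smul, smul_eq_mul]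
      obtain ⟨j, g', e, h1⟩ := ih g1 ⟨n, fun hd => hn (by
        rw [hc, pow_succ']
        exact mul_dvd_mul_left π hd)⟩
      exact ⟨j + 1, g', by rw [e, pow_succ', mul_assoc], h1⟩
    · exact ⟨0, g, by rw [pow_zero, one_mul], h0⟩

/-- `A((q))` "is a DVR up to units of the Gauss valuation". -/
theorem exists_pow_mul [IsDiscreteValuationRing A] {π : A} (hπ : Irreducible π)
    (hr : Function.Surjective r) (g : LaurentSeries A) (hg : g ≠ 0) :
    ∃ (j : ℕ) (g' : LaurentSeries A), g = HahnSeries.C π ^ j * g' ∧ coeffMap r g' ≠ 0 := by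
  obtain ⟨n, hn⟩ : ∃ n, g.coeff n ≠ 0 := by
    by_contra hcon
    push Not at hcon
    exact hg (HahnSeries.ext (funext hcon))
  obtain ⟨m, hm⟩ := FiniteMultiplicity.of_not_isUnit hπ.not_isUnit hn
  exact exists_pow_mul_aux hπ hr (m + 1) g ⟨n, hm⟩

/-- integrality passes to the reduction. -/
theorem RedK.isIntegralElem {t : LaurentSeries K} {tb : LaurentSeries k} (ht : RedK r t tb)
    (h : RedK r x a) (hx : (evK A t).IsIntegralElem x) : (evAt tb).IsIntegralElem a := by
  obtain ⟨P, hP, hroot⟩ := hx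
  refine ⟨P.map (mapRingHom r), hP.map _, ?_⟩
  have h1 := ht.map_eval₂ h P
  rw [hroot] at h1
  exact h1.unique RedK.zero

end Fermat.Agent.SS.GM2
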