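import Fermat.Agent.SS.GM2.RedK
import Fermat.Agent.SS.GM2.Transfer
import Fermat.Agent.SS.GM2.Frob
import Fermat.Agent.S28.IntTower

/-!
# SS / GM2 : the abstract setting at level `N = M ℓ`      (TASK `SS/GM2-Setup`)

`F` an abstract field with `Φ : F → K((q))`, `Φ(F) = F_K(N)`; `w : F → F` the Atkin-Lehner involution.
The two embeddings are `Φ` and `Φ ∘ w`.  Chart predicates for a coordinate `t : F` are those of `Crux/G/Defs.lean` with `E := F`.

* `Setup.intX_iff` : `G.intX_iff`, `Polynomial.hom_eval₂`, `Φ` injective; the ring homs `Φ ∘ aeval t` and `evK A (Φ t)` agree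
  (`Polynomial.ringHom_ext`, `hΦA`).
* `isIntegralElem_evK_of_evAt` : apply `ι = coeffMap (algebraMap A K)` to the equation (as `S28.IntTower.isIntegralElem_coeffMap`).
* `Setup.w_J` : `Φ` injective, `hwα`, `V K ℓ (castS K (Jh M)) = castS K (Jh (M*ℓ))` (`coeffMap_qExpand`, `qExpand_qExpand`, `qExpand_congr`).
* `Setup.mutual` : `S28.isIntegralElem_V_of_dvd A M (M*ℓ)`; `castS A (Jh M) = V A M (J A)` (`Crux.GM.castS_VJ`).
* `QL.transfer` : `isOLx_transfer`, `isPiOLx_transfer` in both directions.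
-/

set_option autoImplicit false
set_option linter.unusedSectionVars false

open Polynomial ModularCurve

namespace Fermat.Agent.SS.GM2

open Fermat.Agent.Crux.G
open Fermat.Agent.S28 (V J evAt)
open Fermat.Agent.Crux.GM (castS)

variable (M ℓ : ℕ) [NeZero M] [NeZero ℓ]
variable {A K k : Type} [CommRing A] [IsDomain A] [IsDiscreteValuationRing A] [Field K]
  [Algebra A K] [IsFractionRing A K] [Field k] (r : A →+* k) (π : A)
variable {F : Type} [Field F] [Algebra A F] (Φ : F →+* LaurentSeries K) (w : F →+* F)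

/-- the abstract setting at level `M ℓ`. -/
structure Setup : Prop where
  hℓ : ℓ.Prime
  hℓM : ¬ ℓ ∣ M
  hr : Function.Surjective r
  hrℓ : r ℓ = 0
  hπ : Irreducible π
  hΦA : ∀ a : A, Φ (algebraMap A F a) = HahnSeries.C (algebraMap A K a)
  hΦF : ∀ z : LaurentSeries K, z ∈ modularFunctionFieldFullC K (M * ℓ) ↔ ∃ f : F, Φ f = z
  hwA : ∀ a : A, w (algebraMap A F a) = algebraMap A F a
  hwα : ∀ f : F, Φ f ∈ modularFunctionFieldFullC K M → Φ (w f) = V K ℓ (Φ f)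
  hww : ∀ f, w (w f) = f

/-- **the `q`-link for the pair of embeddings** `(Φ, Φ ∘ w)`, in the chart `t : F`. -/
structure QL (t : F) : Prop where
  isOL : ∀ f a₁ a₂, RedK r (Φ f) a₁ → RedK r (Φ (w f)) a₂ → IsOLx π t f
  isPiOL : ∀ f, RedK r (Φ f) 0 → RedK r (Φ (w f)) 0 → IsPiOLx π t f
  red : ∀ f, IsOLx π t f → ∃ a₁ a₂, RedK r (Φ f) a₁ ∧ RedK r (Φ (w f)) a₂
  red0 : ∀ f, IsPiOLx π t f → RedK r (Φ f) 0 ∧ RedK r (Φ (w f)) 0
  mem : ∀ f a₁ a₂, RedK r (Φ f) a₁ → RedK r (Φ (w f)) a₂ → a₁ ∈ modularFunctionFieldFullC k M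

variable {M ℓ r π Φ w}

theorem isIntegralElem_evK_of_evAt {t y : LaurentSeries A} (h : (evAt t).IsIntegralElem y) :
    (evK A (coeffMap (algebraMap A K) t)).IsIntegralElem (coeffMap (algebraMap A K) y) := by
  obtain ⟨P, hP, hPy⟩ := h
  refine ⟨P, hP, ?_⟩
  have hcomp : evK A (coeffMap (algebraMap A K) t) =
      (coeffMap (algebraMap A K)).comp (evAt t) := by
    refine Polynomial.ringHom_ext (fun a => ?_) ?_
    · simp [evK]
    · simp [evK]
  rw [hcomp, ← Polynomial.hom_eval₂, hPy, map_zero]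

theorem Setup.comp_aeval (S : Setup M ℓ r π Φ w) (t : F) :
    Φ.comp ((algebraMap F F).comp ((aeval t : A[X] →ₐ[A] F) : A[X] →+* F)) = evK A (Φ t) := by
  refine Polynomial.ringHom_ext (fun a => ?_) ?_
  · simp [evK, S.hΦA]
  · simp [evK]

theorem Setup.intX_iff (S : Setup M ℓ r π Φ w) (t y : F) :
    IntX A t y ↔ (evK A (Φ t)).IsIntegralElem (Φ y) := by
  rw [Fermat.Agent.Crux.G.intX_iff]
  constructor
  · rintro ⟨p, hp, h⟩
    refine ⟨p, hp, ?_⟩
    rw [← S.comp_aeval, ← Polynomial.hom_eval₂, h, map_zero]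
  · rintro ⟨p, hp, h⟩
    refine ⟨p, hp, Φ.injective ?_⟩
    rw [Polynomial.hom_eval₂, S.comp_aeval, h, map_zero]

theorem Setup.exists_J (S : Setup M ℓ r π Φ w) :
    ∃ Jf Yf : F, Φ Jf = castS K (Jh M) ∧ Φ Yf = castS K (Jh (M * ℓ)) := by
  obtain ⟨Jf, hJ⟩ := (S.hΦF (castS K (Jh M))).1 (by
    rw [Fermat.Agent.Crux.GM.CoordJ.castS_VJ]
    exact jqModCd_mem_full K _ (Dvd.intro _ rfl))
  obtain ⟨Yf, hY⟩ := (S.hΦF (castS K (Jh (M * ℓ)))).1 (by
    rw [Fermat.Agent.Crux.GM.CoordJ.castS_VJ]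
    exact jqModCd_mem_full K _ dvd_rfl)
  exact ⟨Jf, Yf, hJ, hY⟩

/-- an element whose `q`-expansion has a pole is transcendental. -/
theorem Setup.transcendental_of_order_neg (S : Setup M ℓ r π Φ w) {t : F}
    (h : (Φ t).order < 0) : Transcendental A t := by
  rintro ⟨p, hp0, hp⟩
  refine Fermat.Agent.Crux.GM.transcendental_of_order_neg (Φ t) h
    ⟨p.map (algebraMap A K), ?_, ?_⟩
  · exact (Polynomial.map_ne_zero_iff (IsFractionRing.injective A K)).2 hp0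
  · have h1 := congrArg Φ hp
    rw [map_zero, aeval_def, Polynomial.hom_eval₂] at h1
    rw [aeval_def, Polynomial.eval₂_map, ← h1]
    congr 1
    refine RingHom.ext fun a => ?_
    simp only [RingHom.comp_apply, S.hΦA]
    exact (Fermat.Agent.S28.C_eq_algebraMap (algebraMap A K a)).symm

theorem leadingCoeff_Jh (M : ℕ) [NeZero M] : (Jh M).leadingCoeff = 1 := by
  rw [HahnSeries.leadingCoeff_eq, Fermat.Agent.Crux.GM.CoordJ.order_VJ,
    Fermat.Agent.Crux.GM.CoordJ.coeff_VJ_self]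

theorem order_castS_Jh (K : Type*) [Field K] (M : ℕ) [NeZero M] :
    (castS K (Jh M)).order = -(M : ℤ) := by
  rw [Fermat.Agent.Crux.GM.order_castS _ (leadingCoeff_Jh M), Fermat.Agent.Crux.GM.CoordJ.order_VJ]

theorem castS_Jh_ne_zero (K : Type*) [Field K] (M : ℕ) [NeZero M] : castS K (Jh M) ≠ 0 :=
  Fermat.Agent.Crux.GM.castS_ne_zero _ (leadingCoeff_Jh M)

section JY

variable (S : Setup M ℓ r π Φ w) {Jf Yf : F} (hJ : Φ Jf = castS K (Jh M))
  (hY : Φ Yf = castS K (Jh (M * ℓ)))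

include S hJ hY

theorem Setup.w_J : w Jf = Yf := by
  apply Φ.injective
  have hmem : Φ Jf ∈ modularFunctionFieldFullC K M := by
    rw [hJ, Fermat.Agent.Crux.GM.CoordJ.castS_VJ]
    exact jqModCd_mem_full K _ dvd_rfl
  have : NeZero (ℓ * M) := ⟨Nat.mul_ne_zero (NeZero.ne ℓ) (NeZero.ne M)⟩
  rw [S.hwα Jf hmem, hJ, hY, Fermat.Agent.Crux.GM.CoordJ.castS_VJ, Fermat.Agent.Crux.GM.CoordJ.castS_VJ,
    qExpand_qExpand, qExpand_congr (mul_comm ℓ M)]

theorem Setup.w_Y : w Yf = Jf := by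
  rw [← S.w_J hJ hY, S.hww]

theorem Setup.w_X : w (Jf * Yf) = Jf * Yf := by
  rw [map_mul, S.w_J hJ hY, S.w_Y hJ hY, mul_comm]

theorem Setup.Phi_X : Φ (Jf * Yf) = castS K (Xh M ℓ) := by
  rw [map_mul, hJ, hY, castS, castS, castS, map_mul]

/-- `J`, `Y` are integral over each other's polynomial rings. -/
theorem Setup.mutual : IntX A Jf Yf ∧ IntX A Yf Jf := by
  have h := Fermat.Agent.S28.isIntegralElem_V_of_dvd A M (M * ℓ) (Dvd.intro _ rfl)
  have e1 : Φ Jf = coeffMap (algebraMap A K) (V A M (J A)) := by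
    rw [hJ, ← Fermat.Agent.Crux.GM.CoordJ.castS_VJ, Fermat.Agent.Crux.GM.coeffMap_castS]
  have e2 : Φ Yf = coeffMap (algebraMap A K) (V A (M * ℓ) (J A)) := by
    rw [hY, ← Fermat.Agent.Crux.GM.CoordJ.castS_VJ, Fermat.Agent.Crux.GM.coeffMap_castS]
  rw [S.intX_iff, S.intX_iff, e1, e2]
  exact ⟨isIntegralElem_evK_of_evAt h.1, isIntegralElem_evK_of_evAt h.2⟩

theorem Setup.transcendental_Y : Transcendental A Yf := by
  apply S.transcendental_of_order_neg
  rw [hY, order_castS_Jh]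
  have : 0 < M * ℓ := Nat.pos_of_ne_zero (NeZero.ne _)
  have h2 : (0 : ℤ) < ((M * ℓ : ℕ) : ℤ) := by exact_mod_cast this
  omega

theorem Setup.transcendental_X : Transcendental A (Jf * Yf) := by
  apply S.transcendental_of_order_neg
  rw [map_mul, hJ, hY, HahnSeries.order_mul (castS_Jh_ne_zero K M) (castS_Jh_ne_zero K (M * ℓ)),
    order_castS_Jh, order_castS_Jh]
  have : 0 < M * ℓ := Nat.pos_of_ne_zero (NeZero.ne _)
  have h2 : (0 : ℤ) < ((M * ℓ : ℕ) : ℤ) := by exact_mod_cast this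
  have h3 : (0 : ℤ) ≤ (M : ℤ) := Int.natCast_nonneg _
  omega

/-- `X = J Y` and `Y` are integral over each other's polynomial rings (`unit_trick`, `IntX.mul`). -/
theorem Setup.mutual_XY : IntX A (Jf * Yf) Yf ∧ IntX A Yf (Jf * Yf) := by
  have hm := S.mutual hJ hY
  have hJ0 : Jf ≠ 0 := by
    rintro rfl
    rw [map_zero] at hJ
    exact castS_Jh_ne_zero K M hJ.symm
  have hY0 : Yf ≠ 0 := by
    rintro rfl
    rw [map_zero] at hY
    exact castS_Jh_ne_zero K (M * ℓ) hY.symm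
  exact ⟨(unit_trick Jf Yf hJ0 hY0 hm.1 hm.2).2.1, hm.2.mul (intX_self (A := A) (L := F) Yf)⟩

/-- from the chart `Y` to the chart `X`. -/
theorem Setup.ql_X (Q : QL M r π Φ w Yf) : QL M r π Φ w (Jf * Yf) := by
  have hm := S.mutual_XY hJ hY
  have hX := S.transcendental_X hJ hY
  have hYt := S.transcendental_Y hJ hY
  exact
    { isOL := fun f a₁ a₂ h₁ h₂ => isOLx_transfer S.hπ _ _ hX hm.2 hm.1 (Q.isOL f a₁ a₂ h₁ h₂)
      isPiOL := fun f h₁ h₂ => isPiOLx_transfer S.hπ _ _ hX hm.2 hm.1 (Q.isPiOL f h₁ h₂)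
      red := fun f hf => Q.red f (isOLx_transfer S.hπ _ _ hYt hm.1 hm.2 hf)
      red0 := fun f hf => Q.red0 f (isPiOLx_transfer S.hπ _ _ hYt hm.1 hm.2 hf)
      mem := Q.mem }

end JY

/-- the chart `t⁻¹` has the same `O_F`, `π O_F` (`G.isOLx_inv_iff`, `G.isPiOLx_inv_iff`). -/
theorem QL.inv (hπ : Irreducible π) {t : F} (ht : t ≠ 0) (Q : QL M r π Φ w t) :
    QL M r π Φ w t⁻¹ :=
  { isOL := fun f a₁ a₂ h₁ h₂ => (isOLx_inv_iff hπ.prime ht f).2 (Q.isOL f a₁ a₂ h₁ h₂)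
    isPiOL := fun f h₁ h₂ => (isPiOLx_inv_iff hπ.prime ht f).2 (Q.isPiOL f h₁ h₂)
    red := fun f hf => Q.red f ((isOLx_inv_iff hπ.prime ht f).1 hf)
    red0 := fun f hf => Q.red0 f ((isPiOLx_inv_iff hπ.prime ht f).1 hf)
    mem := Q.mem }

/-- symmetry: the second reduction also lies in `F_k(M)`. -/
theorem QL.mem₂ (S : Setup M ℓ r π Φ w) {t : F} (Q : QL M r π Φ w t) (f : F)
    (a₁ a₂ : LaurentSeries k) (h₁ : RedK r (Φ f) a₁) (h₂ : RedK r (Φ (w f)) a₂) :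
    a₂ ∈ modularFunctionFieldFullC k M :=
  Q.mem (w f) a₂ a₁ h₂ (by rw [S.hww]; exact h₁)

end Fermat.Agent.SS.GM2
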