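import Fermat.Agent.SS.GM2.Setup
import Fermat.Agent.SS.GM2.GR

/-!
# SS / GM2 : `BridgeData` / `SFDatax` for a `w`-stable chart      (TASKS `SS/GM2-BridgeX-a,b,c`)

Setting of `Setup.lean`.  `E → F`, `x : E` a coordinate with `w x = x`, `RedK r (Φ x) tk`, `V_ℓ tk = tk^ℓ`
(applications: `x = X`, `tk = X̄`, and `x = X⁻¹`, `tk = X̄⁻¹`), `Q : QL … x`.

## (a) `Setup.exists_bridgeData`.   Fields of `G2.BridgeData` (file `SS/G2/Bridge.lean`), `Ω = k((q))`: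
* `res = r`; `res_ker` : `GM.dvd_of_map_eq_zero`, `GM.map_irreducible_eq_zero`.
* `ρ₁`, `ρ₂` : `exists_rho` applied to `Ψ = Φ ∘ Subalgebra.val` resp. `Φ ∘ w ∘ val` on `OF hπ F` (`Q.red`).
* `ρ_C` : `RedK.of_C` + `RedK.unique` (`hΦA`, `hwA`; `algebraMap k k((q)) = HahnSeries.C`: `Crux.algebraMap_eq_C`).
* `ker` : `Q.isPiOL`, `Q.red0`, `RedK.unique`.
* `R = {a ∈ F_k(M) : a integral over k[tk]}` (a `k`-subalgebra: `IsIntegral.add/mul` for the algebra structure `(evAt tk).toAlgebra`).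
* `Φ = V k ℓ`; `Φ_mem` : `V_mem_full`, `V_isIntegralElem`.
* `int_mem` : `Q.mem`, `Q.mem₂`, `RedK.isIntegralElem` (`Setup.intX_iff`; for `ρ₂` use `IntX.map w`).
* `lift₁` = `hlift`; `lift₂` : apply `w` to `lift₁` (`IntX.map`, `hww`).  An integral element is in `OF` (`s = 1`).
* `root₁`, `root₂` : `ρ y ∈ F_k(M)` by `Q.mem`; `ρ y` is integral because a power is (`IsIntegral.of_pow`).
* `frob` : `exists_iterate_V_V_eq_pow`.

## (b) `Setup.exists_sfDatax` : `BridgeData.exists_sfData` with `Fr = coeffMap (iterateFrobenius k ℓ (2ν))`: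
 `hFr₁` : `RedK.map_coeffMap` + `unique`; `hFr₂` the same with `hτw`; `hFrR` : `S28.coeffMap_mem_full`, `coeffMap_isIntegralElem`
 (`coeffMap σ tk = tk`: hypothesis `htk`); `hΦFr` : `V_coeffMap_comm`; `hr` : `iterate_V_V_frob`.

## (c) the lifts in the charts `X`, `X⁻¹` from `GR` at level `M`; the idempotent `ε`.
* `lift_X` : `a` integral over `k[X̄]`, `X̄ = J̄ Ȳ`, `Ȳ` integral over `k[J̄]` ⟹ `a` integral over `k[J̄]`.  `GR` gives `c₀ ∈ F_K(M)` integral over `A[J]`,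
  `RedK r c₀ a`.  `c := Φ⁻¹ c₀`; integral over `A[X]` by `unit_trick` + `IntX.trans`; `Φ (w c) = V_ℓ c₀` (`hwα`), `RedK.map_V`.
* `lift_Xinv` : `X̄⁻¹ = (J̄⁻¹)^(ℓ+1)` (`castS_Xh`), so `a` is integral over `k[J̄⁻¹]`; `J⁻¹` is integral over `A[X⁻¹]` (`unit_trick`).
* `exists_eps` : `ε = 𝔲'/(𝔲 + 𝔲')`, `Φ 𝔲 = castS K (uh M ℓ)`, `Φ 𝔲' = castS K (uh' M ℓ)`, `w 𝔲 = 𝔲'`, `w 𝔲' = 𝔲`; `RedK.div`, `castS_uh`, `castS_uh'_ne_zero`.
-/

set_option autoImplicit false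
set_option linter.unusedSectionVars false

open Polynomial ModularCurve

namespace Fermat.Agent.SS.GM2

open Fermat.Agent.Crux.G Fermat.Agent.SS.G2
open Fermat.Agent.S28 (V J evAt)
open Fermat.Agent.Crux.GM (castS)

variable {M ℓ : ℕ} [NeZero M] [NeZero ℓ]
variable {A K k : Type} [CommRing A] [IsDomain A] [IsDiscreteValuationRing A] [Field K]
  [Algebra A K] [IsFractionRing A K] [Field k] [Finite k] {r : A →+* k} {π : A}
variable {F : Type} [Field F] [Algebra A F] {Φ : F →+* LaurentSeries K} {w : F →+* F}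

section chart

variable {E : Type} [Field E] [Algebra A E] [Algebra E F] [IsScalarTower A E F]

/-- (a) -/
theorem Setup.exists_bridgeData (S : Setup M ℓ r π Φ w) (x : E) (tk : LaurentSeries k)
    (hxk : RedK r (Φ (algebraMap E F x)) tk) (hwx : w (algebraMap E F x) = algebraMap E F x)
    (hVt : V k ℓ tk = tk ^ ℓ) (Q : QL M r π Φ w (algebraMap E F x))
    (hlift : ∀ a ∈ modularFunctionFieldFullC k M, (evAt tk).IsIntegralElem a →
      ∃ c : F, IntX A x c ∧ RedK r (Φ c) a ∧ RedK r (Φ (w c)) (V k ℓ a)) :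
    letI := algL (A := A) F x
    ∃ B : BridgeData S.hπ.prime F k (LaurentSeries k),
      (∀ y : OF S.hπ.prime F, RedK r (Φ (y : F)) (B.ρ₁ y)) ∧
      (∀ y : OF S.hπ.prime F, RedK r (Φ (w (y : F))) (B.ρ₂ y)) ∧
      B.Φ = V k ℓ ∧
      ∀ a, a ∈ B.R ↔ a ∈ modularFunctionFieldFullC k M ∧ (evAt tk).IsIntegralElem a := by
  letI := algL (A := A) F x
  have hℓ : Fact ℓ.Prime := ⟨S.hℓ⟩
  have hchar : CharP k ℓ := by
    rw [CharP.charP_iff_prime_eq_zero S.hℓ]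
    have := S.hrℓ
    rwa [map_natCast] at this
  set t : F := algebraMap E F x with ht
  have hπ' : Prime π := S.hπ.prime
  -- dictionary
  have dOL : ∀ y : F, IsOL π y ↔ IsOLx π t y := fun y => (isOLx_algebraMap_iff π x y).symm
  have dPi : ∀ y : F, IsPiOL π y ↔ IsPiOLx π t y := fun y => (isPiOLx_algebraMap_iff π x y).symm
  have dInt : ∀ y : F, IsIntegral A[X] y ↔ IntX A t y := fun y => (intX_algebraMap_iff x y).symm
  have dInt' : ∀ y : F, IsIntegral A[X] y ↔ IntX A x y := fun y => Iff.rfl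
  -- the two reductions
  obtain ⟨ρ₁, hρ₁⟩ := exists_rho (r := r)
    (Φ.comp ((OF hπ' F).val : OF hπ' F →+* F)) (fun y => by
      obtain ⟨a₁, a₂, h₁, -⟩ := Q.red (y : F) ((dOL _).1 y.2)
      exact ⟨a₁, h₁⟩)
  obtain ⟨ρ₂, hρ₂⟩ := exists_rho (r := r)
    ((Φ.comp w).comp ((OF hπ' F).val : OF hπ' F →+* F)) (fun y => by
      obtain ⟨a₁, a₂, -, h₂⟩ := Q.red (y : F) ((dOL _).1 y.2)
      exact ⟨a₂, h₂⟩)
  have h₁ : ∀ y : OF hπ' F, RedK r (Φ (y : F)) (ρ₁ y) := hρ₁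
  have h₂ : ∀ y : OF hπ' F, RedK r (Φ (w (y : F))) (ρ₂ y) := hρ₂
  have hCF : ∀ a : A, ((algebraMap A[X] (OF hπ' F) (C a) : OF hπ' F) : F) = algebraMap A F a := by
    intro a
    show algebraMap E F (aeval x (C a)) = _
    rw [aeval_C, ← IsScalarTower.algebraMap_apply]
  -- integrality of reductions
  have hint₁ : ∀ y : F, IntX A t y → ∀ a, RedK r (Φ y) a → (evAt tk).IsIntegralElem a :=
    fun y hy a ha => RedK.isIntegralElem hxk ha ((S.intX_iff t y).1 hy)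
  let R : Subalgebra k (LaurentSeries k) :=
    { carrier := {a | a ∈ modularFunctionFieldFullC k M ∧ (evAt tk).IsIntegralElem a}
      mul_mem' := fun ha hb => ⟨mul_mem ha.1 hb.1, RingHom.IsIntegralElem.mul _ ha.2 hb.2⟩
      add_mem' := fun ha hb => ⟨add_mem ha.1 hb.1, RingHom.IsIntegralElem.add _ ha.2 hb.2⟩
      algebraMap_mem' := fun c => ⟨IntermediateField.algebraMap_mem _ c, by
        have h := RingHom.isIntegralElem_map (f := evAt tk) (x := C c)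
        have e : evAt tk (C c) = algebraMap k (LaurentSeries k) c := by
          rw [← Fermat.Agent.S28.C_eq_algebraMap]
          simp [evAt]
        rwa [e] at h⟩ }
  have hR : ∀ a, a ∈ R ↔ a ∈ modularFunctionFieldFullC k M ∧ (evAt tk).IsIntegralElem a :=
    fun a => Iff.rfl
  have hroot : ∀ (a : LaurentSeries k) (n : ℕ), 0 < n → (evAt tk).IsIntegralElem (a ^ n) →
      (evAt tk).IsIntegralElem a := by
    intro a n hn h
    let _ := (evAt tk).toAlgebra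
    exact IsIntegral.of_pow (R := k[X]) hn h
  refine ⟨{
    res := r
    res_surj := S.hr
    res_ker := fun a => ⟨fun h => Fermat.Agent.Crux.GM.dvd_of_map_eq_zero r S.hr S.hπ h, ?_⟩
    ρ₁ := ρ₁
    ρ₂ := ρ₂
    ρ₁_C := ?_
    ρ₂_C := ?_
    ker := ?_
    R := R
    Φ := V k ℓ
    Φ_mem := ?_
    int_mem := ?_
    lift₁ := ?_
    lift₂ := ?_
    root₁ := ?_
    root₂ := ?_
    frob := ?_ }, h₁, h₂, rfl, hR⟩
  · rintro ⟨b, rfl⟩
    rw [map_mul, Fermat.Agent.Crux.GM.map_irreducible_eq_zero r π S.hr S.hπ, zero_mul]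
  · intro a
    have h := h₁ (algebraMap A[X] (OF hπ' F) (C a))
    rw [hCF, S.hΦA] at h
    rw [h.unique (RedK.of_C a), Fermat.Agent.S28.C_eq_algebraMap]
  · intro a
    have h := h₂ (algebraMap A[X] (OF hπ' F) (C a))
    rw [hCF, S.hwA, S.hΦA] at h
    rw [h.unique (RedK.of_C a), Fermat.Agent.S28.C_eq_algebraMap]
  · intro y
    constructor
    · rintro ⟨e₁, e₂⟩
      have a₁ := h₁ y
      have a₂ := h₂ y
      rw [e₁] at a₁
      rw [e₂] at a₂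
      exact (dPi _).2 (Q.isPiOL _ a₁ a₂)
    · intro hy
      obtain ⟨a₁, a₂⟩ := Q.red0 _ ((dPi _).1 hy)
      exact ⟨(h₁ y).unique a₁, (h₂ y).unique a₂⟩
  · intro a ha
    exact ⟨V_mem_full k ℓ M ha.1, V_isIntegralElem k ℓ hVt ha.2⟩
  · intro y hy
    have hy' : IntX A t (y : F) := (dInt _).1 hy
    exact ⟨⟨Q.mem _ _ _ (h₁ y) (h₂ y), hint₁ _ hy' _ (h₁ y)⟩,
      ⟨Q.mem₂ S _ _ _ (h₁ y) (h₂ y), hint₁ _ (IntX.map w S.hwA hwx hy') _ (h₂ y)⟩⟩
  · intro a ha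
    obtain ⟨c, hc, c₁, c₂⟩ := hlift a ha.1 ha.2
    have hc' : IsIntegral A[X] c := hc
    refine ⟨⟨c, IsOL.of_isIntegral hπ' hc'⟩, hc', ?_, ?_⟩
    · exact (h₁ ⟨c, _⟩).unique c₁
    · exact (h₂ ⟨c, _⟩).unique c₂
  · intro a ha
    obtain ⟨c, hc, c₁, c₂⟩ := hlift a ha.1 ha.2
    have hc' : IsIntegral A[X] (w c) :=
      (dInt _).2 (IntX.map w S.hwA hwx ((intX_algebraMap_iff x c).2 hc))
    refine ⟨⟨w c, IsOL.of_isIntegral hπ' hc'⟩, hc', ?_, ?_⟩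
    · exact (h₁ ⟨w c, _⟩).unique c₂
    · refine (h₂ ⟨w c, _⟩).unique ?_
      show RedK r (Φ (w (w c))) a
      rw [S.hww]
      exact c₁
  · intro y n hn h
    exact ⟨Q.mem _ _ _ (h₁ y) (h₂ y), hroot _ n hn h.2⟩
  · intro y n hn h
    exact ⟨Q.mem₂ S _ _ _ (h₁ y) (h₂ y), hroot _ n hn h.2⟩
  · obtain ⟨f, Q₀, hQ₀, h⟩ := exists_iterate_V_V_eq_pow k ℓ
    exact ⟨f, Q₀, hQ₀, fun a _ => h a⟩

/-- (b) -/
theorem Setup.exists_sfDatax (S : Setup M ℓ r π Φ w) (x : E) (tk : LaurentSeries k)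
    (hxk : RedK r (Φ (algebraMap E F x)) tk) (hwx : w (algebraMap E F x) = algebraMap E F x)
    (hVt : V k ℓ tk = tk ^ ℓ) (htk : ∀ σ : k →+* k, coeffMap σ tk = tk)
    (Q : QL M r π Φ w (algebraMap E F x))
    (hlift : ∀ a ∈ modularFunctionFieldFullC k M, (evAt tk).IsIntegralElem a →
      ∃ c : F, IntX A x c ∧ RedK r (Φ c) a ∧ RedK r (Φ (w c)) (V k ℓ a))
    (τ : F →+* F) (τK : K →+* K) (τA : A →+* A)
    (hτKA : ∀ a, τK (algebraMap A K a) = algebraMap A K (τA a))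
    (hτ : ∀ f, Φ (τ f) = coeffMap τK (Φ f)) (hτw : ∀ f, τ (w f) = w (τ f))
    (ν : ℕ) (hν : ∀ a, r (τA a) = r a ^ (ℓ ^ (2 * ν)))
    (ε : F) (hε₁ : RedK r (Φ ε) 1) (hε₂ : RedK r (Φ (w ε)) 0) :
    ∃ (x₁ x₂ : LaurentSeries k) (Z : Type) (_ : CommRing Z)
      (D : SFDatax S.hπ.prime x F k (Pr x₁ x₂) Z), D.Compat τ (ℓ ^ (2 * ν)) ε := by
  have : Fact ℓ.Prime := ⟨S.hℓ⟩
  have hchar : CharP k ℓ := by
    have : (ℓ : k) = 0 := by rw [← map_natCast r, S.hrℓ]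
    exact (CharP.charP_iff_prime_eq_zero S.hℓ).mpr this
  letI := algL (A := A) F x
  obtain ⟨B, hρ₁, hρ₂, hBΦ, hBR⟩ := S.exists_bridgeData x tk hxk hwx hVt Q hlift
  have hε : IsOL π ε := (isOLx_algebraMap_iff π x ε).1 (Q.isOL ε 1 0 hε₁ hε₂)
  have hk : ∀ c, r (τA c) = iterateFrobenius k ℓ (2 * ν) (r c) := by
    intro c
    rw [hν, iterateFrobenius_def]
  obtain ⟨Z, iZ, D, hD⟩ := B.exists_sfData ε hε ((hρ₁ ⟨ε, hε⟩).unique hε₁)
    ((hρ₂ ⟨ε, hε⟩).unique hε₂) τ (coeffMap (iterateFrobenius k ℓ (2 * ν)))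
    (fun y y' hy => by
      have h1 := hρ₁ y'
      rw [hy, hτ] at h1
      exact h1.unique ((hρ₁ y).map_coeffMap τK τA _ hτKA hk))
    (fun y y' hy => by
      have h1 := hρ₂ y'
      rw [hy, ← hτw, hτ] at h1
      exact h1.unique ((hρ₂ y).map_coeffMap τK τA _ hτKA hk))
    (fun a ha => by
      rw [hBR] at ha ⊢
      exact ⟨Fermat.Agent.S28.coeffMap_mem_full _ M ha.1,
        coeffMap_isIntegralElem k _ (htk _) ha.2⟩)
    (fun a => by rw [hBΦ]; exact V_coeffMap_comm k ℓ _ a)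
    ν (ℓ ^ (2 * ν))
    (fun a _ => by rw [hBΦ]; exact iterate_V_V_frob k ℓ ν a)
  exact ⟨_, _, Z, iZ, D, hD⟩

end chart

section lifts

/-- integrality over `k[t^n]` implies integrality over `k[t]`. -/
theorem BridgeX_isIntegralElem_of_pow {R : Type*} [CommRing R] {t u a : LaurentSeries R} (n : ℕ)
    (hu : u = t ^ n) (ha : (evAt u).IsIntegralElem a) : (evAt t).IsIntegralElem a := by
  have h : evAt u = (evAt t).comp (Polynomial.eval₂RingHom C (X ^ n : R[X])) := by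
    refine Polynomial.ringHom_ext (fun c => ?_) ?_
    · simp
    · simp [hu]
  rw [h] at ha
  exact ha.of_comp

theorem Setup.BridgeX_charP (S : Setup M ℓ r π Φ w) : CharP k ℓ := by
  have : (ℓ : k) = 0 := by rw [← map_natCast r, S.hrℓ]
  exact (CharP.charP_iff_prime_eq_zero S.hℓ).mpr this

theorem BridgeX_castS_Jh_ne_zero (R : Type*) [CommRing R] [Nontrivial R] (M : ℕ) [NeZero M] :
    castS R (Jh M) ≠ 0 :=
  Fermat.Agent.Crux.GM.castS_ne_zero _ (by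
    rw [HahnSeries.leadingCoeff_eq, Fermat.Agent.Crux.GM.CoordJ.order_VJ,
      Fermat.Agent.Crux.GM.CoordJ.coeff_VJ_self])

variable (S : Setup M ℓ r π Φ w) {Jf Yf : F} (hJ : Φ Jf = castS K (Jh M))
  (hY : Φ Yf = castS K (Jh (M * ℓ)))

include S hJ hY

theorem Setup.BridgeX_ne_zero : Jf ≠ 0 ∧ Yf ≠ 0 := by
  constructor
  · rintro rfl
    rw [map_zero] at hJ
    exact BridgeX_castS_Jh_ne_zero K M hJ.symm
  · rintro rfl
    rw [map_zero] at hY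
    exact BridgeX_castS_Jh_ne_zero K (M * ℓ) hY.symm

/-- common part of `lift_X`, `lift_Xinv`. -/
theorem Setup.BridgeX_lift_aux (t : F) (s : F) (hst : IntX A s t) (a : LaurentSeries k)
    (h : ∃ c ∈ modularFunctionFieldFullC K M, (evK A (Φ t)).IsIntegralElem c ∧ RedK r c a) :
    ∃ c : F, IntX A s c ∧ RedK r (Φ c) a ∧ RedK r (Φ (w c)) (V k ℓ a) := by
  obtain ⟨c₀, hc₀, hint, hred⟩ := h
  obtain ⟨c, rfl⟩ := (S.hΦF c₀).1 (full_degeneracyC_le K (Dvd.intro ℓ rfl) hc₀)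
  refine ⟨c, IntX.trans hst ((S.intX_iff t c).2 hint), hred, ?_⟩
  rw [S.hwα c hc₀]
  exact hred.map_V ℓ

/-- (c) -/
theorem Setup.lift_X (G : GR M r (castS K (Jh M)) (castS k (Jh M))) :
    ∀ a ∈ modularFunctionFieldFullC k M, (evAt (castS k (Xh M ℓ))).IsIntegralElem a →
      ∃ c : F, IntX A (Jf * Yf) c ∧ RedK r (Φ c) a ∧ RedK r (Φ (w c)) (V k ℓ a) := by
  intro a ha hint
  have : Fact ℓ.Prime := ⟨S.hℓ⟩
  have := S.BridgeX_charP
  obtain ⟨h0J, h0Y⟩ := S.BridgeX_ne_zero hJ hY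
  obtain ⟨m1, m2⟩ := S.mutual hJ hY
  refine S.BridgeX_lift_aux hJ hY Jf (Jf * Yf) (unit_trick Jf Yf h0J h0Y m1 m2).1 a ?_
  rw [hJ]
  exact G a ha (BridgeX_isIntegralElem_of_pow (ℓ + 1) (castS_Xh k ℓ M) hint)

/-- (c) -/
theorem Setup.lift_Xinv (G : GR M r (castS K (Jh M))⁻¹ (castS k (Jh M))⁻¹) :
    ∀ a ∈ modularFunctionFieldFullC k M, (evAt (castS k (Xh M ℓ))⁻¹).IsIntegralElem a →
      ∃ c : F, IntX A (Jf * Yf)⁻¹ c ∧ RedK r (Φ c) a ∧ RedK r (Φ (w c)) (V k ℓ a) := by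
  intro a ha hint
  have : Fact ℓ.Prime := ⟨S.hℓ⟩
  have := S.BridgeX_charP
  obtain ⟨h0J, h0Y⟩ := S.BridgeX_ne_zero hJ hY
  obtain ⟨m1, m2⟩ := S.mutual hJ hY
  refine S.BridgeX_lift_aux hJ hY Jf⁻¹ (Jf * Yf)⁻¹ (unit_trick Jf Yf h0J h0Y m1 m2).2.2.1 a ?_
  rw [map_inv₀, hJ]
  exact G a ha (BridgeX_isIntegralElem_of_pow (ℓ + 1)
    (by rw [castS_Xh k ℓ M, inv_pow]) hint)

end lifts

/-- (c) the lift of the idempotent `(1,0)`; it has rational coefficients. -/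
theorem Setup.exists_eps (S : Setup M ℓ r π Φ w) :
    ∃ ε : F, RedK r (Φ ε) 1 ∧ RedK r (Φ (w ε)) 0 ∧
      ∀ τK : K →+* K, coeffMap τK (Φ ε) = Φ ε := by
  have : Fact ℓ.Prime := ⟨S.hℓ⟩
  have := S.BridgeX_charP
  obtain ⟨Jf, Yf, hJ, hY⟩ := S.exists_J
  have hwJ := S.w_J hJ hY
  have hwY := S.w_Y hJ hY
  have hu : Φ (Yf - Jf ^ ℓ) = castS K (uh M ℓ) := by
    rw [map_sub, map_pow, hJ, hY, uh, castS, castS, castS, map_sub, map_pow]
  have hu' : Φ (Jf - Yf ^ ℓ) = castS K (uh' M ℓ) := by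
    rw [map_sub, map_pow, hJ, hY, uh', castS, castS, castS, map_sub, map_pow]
  have r1 : RedK r (Φ (Yf - Jf ^ ℓ)) 0 := by
    rw [hu, ← castS_uh k ℓ M]
    exact RedK.of_castS _
  have r2 : RedK r (Φ (Jf - Yf ^ ℓ)) (castS k (uh' M ℓ)) := by
    rw [hu']
    exact RedK.of_castS _
  have hne := castS_uh'_ne_zero k ℓ M
  refine ⟨(Jf - Yf ^ ℓ) / ((Yf - Jf ^ ℓ) + (Jf - Yf ^ ℓ)), ?_, ?_, ?_⟩
  · rw [map_div₀, map_add]
    have := r2.div (r1.add r2) (by rw [zero_add]; exact hne)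
    rwa [zero_add, div_self hne] at this
  · rw [map_div₀, map_add, map_sub, map_sub, map_pow, map_pow, hwJ, hwY, map_div₀, map_add]
    have := r1.div (r2.add r1) (by rw [add_zero]; exact hne)
    rwa [zero_div] at this
  · intro τK
    rw [map_div₀, map_add, hu, hu', map_div₀, map_add, Fermat.Agent.Crux.GM.coeffMap_castS,
      Fermat.Agent.Crux.GM.coeffMap_castS]

end Fermat.Agent.SS.GM2
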