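import Fermat.Agent.SS.GM2.Core
import Fermat.Agent.SS.GM2.TowerAux

/-!
# SS / GM2 : instantiation of `core2_abstract` with intermediate fields of `K((q))`   (owner: helper13)
-/

set_option autoImplicit false
set_option linter.unusedSectionVars false
set_option linter.style.haveILetI false

open Polynomial ModularCurve
open scoped IntermediateField

namespace Fermat.Agent.SS.GM2

open Fermat.Agent.Crux.G Fermat.Agent.SS.G2
open Fermat.Agent.S28 (V J evAt)
open Fermat.Agent.Crux.GM (castS)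
open Fermat.Agent.S24 (XN Kb)

set_option maxHeartbeats 4000000 in
set_option synthInstance.maxHeartbeats 400000 in
theorem coreK2_tower (M ℓ m : ℕ) [NeZero M] [NeZero ℓ] (hℓ : ℓ.Prime) (hℓM : ¬ ℓ ∣ M)
    (hadm : Fermat.Agent.Crux.Admissible ℓ M) (hm : 0 < m) (hmℓ : ¬ ℓ ∣ m) : CoreK2 M ℓ m := by
  intro A K k _ _ _ _ _ _ _ _ _ r hr hrℓ ζ hζ τK τA hτKA ν e g hν0 hν hQe w hw W hW₁ hW₂
    hinv0 hinvinf v hv
  classical
  obtain ⟨π, hπ⟩ := IsDiscreteValuationRing.exists_irreducible A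
  haveI hK0 : CharZero K :=
    ((algebraMap K Kb).charZero_iff (algebraMap K Kb).injective).2 inferInstance
  have hle0 := adjoin_X_le K M ℓ
  have hle1 := adjoin_Y_le K M ℓ
  letI iAF : Algebra A (modularFunctionFieldFullC K (M * ℓ)) :=
    ((algebraMap K (modularFunctionFieldFullC K (M * ℓ))).comp (algebraMap A K)).toAlgebra
  letI iAE : Algebra A K⟮castS K (Xh M ℓ)⟯ :=
    ((algebraMap K K⟮castS K (Xh M ℓ)⟯).comp (algebraMap A K)).toAlgebra
  letI iEF : Algebra K⟮castS K (Xh M ℓ)⟯ (modularFunctionFieldFullC K (M * ℓ)) :=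
    (IntermediateField.inclusion hle0).toRingHom.toAlgebra
  haveI t1 : IsScalarTower A K⟮castS K (Xh M ℓ)⟯ (modularFunctionFieldFullC K (M * ℓ)) :=
    IsScalarTower.of_algebraMap_eq fun _ => rfl
  letI iAE1 : Algebra A K⟮castS K (Jh (M * ℓ))⟯ :=
    ((algebraMap K K⟮castS K (Jh (M * ℓ))⟯).comp (algebraMap A K)).toAlgebra
  letI iE1F : Algebra K⟮castS K (Jh (M * ℓ))⟯ (modularFunctionFieldFullC K (M * ℓ)) :=
    (IntermediateField.inclusion hle1).toRingHom.toAlgebra
  haveI t2 : IsScalarTower A K⟮castS K (Jh (M * ℓ))⟯ (modularFunctionFieldFullC K (M * ℓ)) :=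
    IsScalarTower.of_algebraMap_eq fun _ => rfl
  letI iEL : Algebra K⟮castS K (Xh M ℓ)⟯ (modularFunctionFieldFullC K (M * ℓ))⟮v⟯ :=
    ((algebraMap (modularFunctionFieldFullC K (M * ℓ))
      (modularFunctionFieldFullC K (M * ℓ))⟮v⟯).comp
        (algebraMap K⟮castS K (Xh M ℓ)⟯ (modularFunctionFieldFullC K (M * ℓ)))).toAlgebra
  haveI t3 : IsScalarTower K⟮castS K (Xh M ℓ)⟯ (modularFunctionFieldFullC K (M * ℓ))
      (modularFunctionFieldFullC K (M * ℓ))⟮v⟯ := IsScalarTower.of_algebraMap_eq fun _ => rfl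
  letI iAL : Algebra A (modularFunctionFieldFullC K (M * ℓ))⟮v⟯ :=
    ((algebraMap K⟮castS K (Xh M ℓ)⟯ (modularFunctionFieldFullC K (M * ℓ))⟮v⟯).comp
      (algebraMap A K⟮castS K (Xh M ℓ)⟯)).toAlgebra
  haveI t4 : IsScalarTower A K⟮castS K (Xh M ℓ)⟯ (modularFunctionFieldFullC K (M * ℓ))⟮v⟯ :=
    IsScalarTower.of_algebraMap_eq fun _ => rfl
  haveI c0 : CharZero K⟮castS K (Xh M ℓ)⟯ :=
    charZero_of_injective_algebraMap (algebraMap K K⟮castS K (Xh M ℓ)⟯).injective
  haveI fd : FiniteDimensional K⟮castS K (Xh M ℓ)⟯ (modularFunctionFieldFullC K (M * ℓ)) :=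
    FiniteDimensional.of_finrank_pos (by
      rw [finrank_inclusion _ _ hle0]; exact relfinrank_X_pos K M ℓ)
  have S : Setup M ℓ r π (algebraMap (modularFunctionFieldFullC K (M * ℓ)) (LaurentSeries K))
      (w : modularFunctionFieldFullC K (M * ℓ) →+* modularFunctionFieldFullC K (M * ℓ)) :=
    { hℓ := hℓ
      hℓM := hℓM
      hr := hr
      hrℓ := hrℓ
      hπ := hπ
      hΦA := fun a => by
        change algebraMap K (LaurentSeries K) (algebraMap A K a) = _
        rw [algebraMap_laurentSeries_eq_single, HahnSeries.C_apply]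
      hΦF := fun z => ⟨fun hz => ⟨⟨z, hz⟩, rfl⟩, fun ⟨f, hf⟩ => hf ▸ f.2⟩
      hwA := fun a => w.commutes (algebraMap A K a)
      hwα := fun f hf => hw.alpha f hf
      hww := fun f => hw.invol f }
  obtain ⟨G0, Ginf⟩ := grJ (K := K) r M ℓ hℓ hℓM hadm hr hrℓ
  let τ : modularFunctionFieldFullC K (M * ℓ) →+* modularFunctionFieldFullC K (M * ℓ) :=
    ((coeffMap τK).comp
      (algebraMap (modularFunctionFieldFullC K (M * ℓ)) (LaurentSeries K))).codRestrict
        (modularFunctionFieldFullC K (M * ℓ))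
        (fun f => Fermat.Agent.S28.coeffMap_mem_full τK _ f.2)
  obtain ⟨h, hh⟩ := core2_abstract (E := K⟮castS K (Xh M ℓ)⟯) (E₁ := K⟮castS K (Jh (M * ℓ))⟯)
    (L := (modularFunctionFieldFullC K (M * ℓ))⟮v⟯) S
    (algebraMap (modularFunctionFieldFullC K (M * ℓ))⟮v⟯ (LaurentSeries K)) (fun _ => rfl)
    (IntermediateField.AdjoinSimple.gen K (castS K (Xh M ℓ))) rfl
    (transcendental_iff.2 fun P hP => Fermat.Agent.Crux.GM.Main.eq_zero_of_eval₂_gen (A := A) _
      (transcendental_castS_Xh K M ℓ) _ (fun _ => rfl) P hP)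
    (fun c => Fermat.Agent.Crux.GM.Main.exists_frac_gen (A := A) _ _ (fun _ => rfl) c)
    (IntermediateField.AdjoinSimple.gen K (castS K (Jh (M * ℓ)))) rfl
    (transcendental_iff.2 fun P hP => Fermat.Agent.Crux.GM.Main.eq_zero_of_eval₂_gen (A := A) _
      (transcendental_castS_Jh K M ℓ) _ (fun _ => rfl) P hP)
    (fun c => Fermat.Agent.Crux.GM.Main.exists_frac_gen (A := A) _ _ (fun _ => rfl) c)
    (by rw [finrank_inclusion _ _ hle1]; exact relfinrank_Y K M ℓ)
    G0 Ginf m hm hmℓ ζ hζ τ τK τA hτKA (fun _ => rfl)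
    (fun f => Subtype.ext (hw.comm_coeffMap hℓ τK f)) ν e g hν hQe W hW₁ hW₂
    (S.invKx_of_invKq _ m W hinv0)
    (S.invKx_of_invKq _ m W (by
      have e1 : algebraMap (modularFunctionFieldFullC K (M * ℓ)) (LaurentSeries K)
          (algebraMap K⟮castS K (Xh M ℓ)⟯ (modularFunctionFieldFullC K (M * ℓ))
            (IntermediateField.AdjoinSimple.gen K (castS K (Xh M ℓ)))⁻¹) = (castS K (Xh M ℓ))⁻¹ := by
        rw [map_inv₀, map_inv₀]; rfl
      rw [e1]; exact hinvinf))
    (IntermediateField.AdjoinSimple.gen _ v)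
    (Subtype.ext (by
      rw [SubmonoidClass.coe_pow, IntermediateField.AdjoinSimple.coe_gen, hv]
      change _ = algebraMap (modularFunctionFieldFullC K (M * ℓ)) (LaurentSeries K) (τ W / W ^ e)
      rw [map_div₀, map_pow]
      rfl))
  have := congrArg Subtype.val hh
  rw [IntermediateField.AdjoinSimple.coe_gen] at this
  rw [← this]
  exact h.2

end Fermat.Agent.SS.GM2
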