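import Fermat.Agent.Crux.G.Defs

/-!
# SS / GM2 : the language of helper13's interface (`Nodal`, `LocPow`, ...)

(definitions moved verbatim out of `G2Wish.lean`, so that `SS/G2` can import them)
-/

set_option autoImplicit false

open Polynomial

namespace Fermat.Agent.SS.GM2

open Fermat.Agent.Crux.G

section Chart

variable {A : Type*} [CommRing A] (π : A)
variable {F : Type*} [Field F] [Algebra A[X] F]

/-- `u` is integral over the local ring `A[X]_(g)`. -/
def IsIntAt (g : A[X]) (u : F) : Prop := ∃ s : A[X], ¬ g ∣ s ∧ IsIntegral A[X] (s • u)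

/-- `W` is, locally at every prime `g ≠ π` of `A[X]`, a unit times an `m`-th power. -/
def LocPow (m : ℕ) (W : F) : Prop :=
  ∀ g : A[X], Irreducible g → ¬ Associated g (C π) →
    ∃ y : F, y ≠ 0 ∧ IsIntAt g (y ^ m * W) ∧ IsIntAt g (y ^ m * W)⁻¹

/-- `u ∈ O_F` has a reduction which is integral over `k[X]`. -/
def RedIntegral (u : F) : Prop := ∃ P : A[X][X], P.Monic ∧ IsPiOL π (aeval u P)

/-- `u ∈ C + π O_F`, `C = M / π M`. -/
def InC (u : F) : Prop := ∃ c : F, IsIntegral A[X] c ∧ IsPiOL π (c - u)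

/-- The special fibre of the chart is "two normal components glued along a reduced scheme";
`ε` lifts the idempotent `(1,0)`. -/
structure Nodal (ε : F) : Prop where
  isOL : IsOL π ε
  idem : IsPiOL π (ε ^ 2 - ε)
  proj₁ : ∀ u : F, IsOL π u → RedIntegral π u → ∃ c : F, IsIntegral A[X] c ∧ IsPiOL π (ε * (c - u))
  proj₂ : ∀ u : F, IsOL π u → RedIntegral π u →
    ∃ c : F, IsIntegral A[X] c ∧ IsPiOL π ((1 - ε) * (c - u))
  rad₁ : ∀ u : F, IsOL π u → InC π (ε * u ^ 2) → InC π (ε * u)
  rad₂ : ∀ u : F, IsOL π u → InC π ((1 - ε) * u ^ 2) → InC π ((1 - ε) * u)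

/-- `τ` acts on the gluing locus by `z ↦ z ^ Q`. -/
structure NodalFrob (ε : F) (τ : F →+* F) (Q : ℕ) : Prop where
  frob₁ : ∀ u : F, IsOL π u → RedIntegral π u → InC π (ε * (τ u - u ^ Q))
  frob₂ : ∀ u : F, IsOL π u → RedIntegral π u → InC π ((1 - ε) * (τ u - u ^ Q))

end Chart

section Top

variable {A : Type*} [CommRing A]
variable {E : Type*} [Field E] [Algebra A E]
variable {F : Type*} [Field F] [Algebra E F]

/-- `LocPow` in the chart `X ↦ x`. -/
def LocPowx (π : A) (x : E) (m : ℕ) (W : F) : Prop := letI := algL (A := A) F x; LocPow π m W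

/-- `Nodal` in the chart `X ↦ x`. -/
def Nodalx (π : A) (x : E) (ε : F) : Prop := letI := algL (A := A) F x; Nodal π ε

/-- `NodalFrob` in the chart `X ↦ x`. -/
def NodalFrobx (π : A) (x : E) (ε : F) (τ : F →+* F) (Q : ℕ) : Prop :=
  letI := algL (A := A) F x; NodalFrob π ε τ Q

end Top

end Fermat.Agent.SS.GM2
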