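import Fermat.Agent.SS.GM2.Tower

/-!
# SS / GM2 : the statement over `(A, K)`   (owner: helper13; proof = `GM2/Tower.lean`)
-/

set_option autoImplicit false

namespace Fermat.Agent.SS.GM2

/-- **GM2, K-level.** -/
theorem coreK2 (M ℓ m : ℕ) [NeZero M] [NeZero ℓ] (hℓ : ℓ.Prime) (hℓM : ¬ ℓ ∣ M)
    (hadm : Fermat.Agent.Crux.Admissible ℓ M) (hm : 0 < m) (hmℓ : ¬ ℓ ∣ m) : CoreK2 M ℓ m :=
  coreK2_tower M ℓ m hℓ hℓM hadm hm hmℓ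

end Fermat.Agent.SS.GM2
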