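import Fermat.Agent.SS.Defs
import Fermat.Agent.SS.G2.Main
import Fermat.Agent.SS.G2.Bridge
import Fermat.Agent.Crux.GM.Main
import Fermat.Agent.Crux.GM.CoordH
import Fermat.Agent.Crux.Reduce

/-!
# SS / GM2 : the modular input of Theorem G2  ⟹  `Crux2`.   Definitions and interfaces.

NOTATION (all files of `SS/GM2`).  `ℓ` prime, `ℓ ∤ M`, `N = M * ℓ`.
`A` a DVR with uniformiser `π`, `K = Frac A ⊆ ℚ̄`, `r : A → k` the residue map, `k` FINITE.
`ι = coeffMap (algebraMap A K) : A((q)) → K((q))`, `red = coeffMap r : A((q)) → k((q))`.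
`F_K(N) = modularFunctionFieldFullC K N ⊆ K((q))`, `𝔉 = F_k(M) ⊆ k((q))`.
`Jh M = j(q^M) ∈ ℤ((q))`, `Yh = Jh (M ℓ)`, **`Xh = Jh M * Jh (M ℓ)`** (the `w`-invariant base
coordinate: both charts `X`, `1/X` are `w`-stable).
`w` = Atkin-Lehner involution `w_ℓ` of `F_K(N)`: `w f = V_ℓ f` for `f ∈ F_K(M)`, `w² = 1`.
The two "reductions": `ρ₁ = red ∘ (q-expansion)`, `ρ₂ = ρ₁ ∘ w`.
-/

set_option autoImplicit false

open Polynomial ModularCurve AlgebraicCurve

namespace Fermat.Agent.SS.GM2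

open Fermat.Agent.S28 (V J evAt)
open Fermat.Agent.Crux.GM (castS)
open Fermat.Agent.ES (Qb FF)

noncomputable section

/-- `j(q^M) ∈ ℤ((q))`. -/
abbrev Jh (M : ℕ) [NeZero M] : LaurentSeries ℤ := V ℤ M (J ℤ)

/-- the `w_ℓ`-invariant base coordinate `j(q^M) j(q^{Mℓ}) ∈ ℤ((q))`. -/
abbrev Xh (M ℓ : ℕ) [NeZero M] [NeZero ℓ] : LaurentSeries ℤ := Jh M * Jh (M * ℓ)

section RedK

variable {A K k : Type*} [CommRing A] [Field K] [Algebra A K] [Field k]

/-- `x ∈ K((q))` is integral for the Gauss valuation of `A((q))`, with reduction `a ∈ k((q))`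
(`x = g / h`, `g h ∈ A((q))`, `h̄ ≠ 0`, `ḡ = a h̄`).  `K`-level version of `SS.RedTo`. -/
def RedK (r : A →+* k) (x : LaurentSeries K) (a : LaurentSeries k) : Prop :=
  ∃ g h : LaurentSeries A, coeffMap r h ≠ 0 ∧
    x * coeffMap (algebraMap A K) h = coeffMap (algebraMap A K) g ∧
    coeffMap r g = a * coeffMap r h

/-- `P ↦ P(t)`, `A[X] → K((q))`. -/
def evK (A : Type*) {K : Type*} [CommRing A] [Field K] [Algebra A K] (t : LaurentSeries K) :
    A[X] →+* LaurentSeries K :=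
  Polynomial.eval₂RingHom ((HahnSeries.C : K →+* LaurentSeries K).comp (algebraMap A K)) t

end RedK

/-- `w` is the Atkin-Lehner involution of `F_K(M ℓ)`. -/
structure IsALK (K : Type*) [Field K] (M ℓ : ℕ) [NeZero M] [NeZero ℓ]
    (w : modularFunctionFieldFullC K (M * ℓ) →ₐ[K] modularFunctionFieldFullC K (M * ℓ)) :
    Prop where
  alpha : ∀ f : modularFunctionFieldFullC K (M * ℓ),
    (f : LaurentSeries K) ∈ modularFunctionFieldFullC K M →
      ((w f : modularFunctionFieldFullC K (M * ℓ)) : LaurentSeries K) = V K ℓ (f : LaurentSeries K)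
  invol : ∀ f, w (w f) = f

/-- `1 ∈ I_m(W) I_m(W⁻¹)` on the affine curve "`t ≠ ∞`" over `K`, in terms of `q`-expansions:
`a_i, b_i ∈ F_K(N)`, `a_i^m W` and `b_i^m W⁻¹` integral over `K[t]`, `∑ a_i b_i = 1`. -/
def InvKq (K : Type*) [Field K] (N m : ℕ) [NeZero N] (t W : LaurentSeries K) : Prop :=
  ∃ (n : ℕ) (a b : Fin n → LaurentSeries K),
    (∀ i, a i ∈ modularFunctionFieldFullC K N) ∧ (∀ i, b i ∈ modularFunctionFieldFullC K N) ∧
    (∀ i, (evAt t).IsIntegralElem (a i ^ m * W)) ∧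
    (∀ i, (evAt t).IsIntegralElem (b i ^ m * W⁻¹)) ∧ ∑ i, a i * b i = 1

/-- **The statement over a DVR `A` of a number field `K ⊆ ℚ̄`** (analogue of `Crux.CoreKAt`).
`τ_K` is a ring endomorphism of `K` stabilising `A` and inducing `x ↦ x^(ℓ^(2ν))` on `k`;
`W ∈ F_K(N)` is `≡ 1` for both Gauss valuations `v_∞`, `v_∞ ∘ w`, and `div W ∈ m Div` (in the form
`InvKq`, in both charts `X`, `1/X`).  Then every `m`-th root of `τ W / W^e` in `K((q))`
(`ℓ^(2ν) = e + m g`) lies in `F_K(N)`. -/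
def CoreK2 (M ℓ m : ℕ) [NeZero M] [NeZero ℓ] : Prop :=
  ∀ {A K k : Type} [CommRing A] [IsDomain A] [IsDiscreteValuationRing A] [Field K]
    [Algebra A K] [IsFractionRing A K] [Algebra K Qb] [Field k] [Finite k]
    (r : A →+* k), Function.Surjective r → r ℓ = 0 →
  ∀ ζ : A, IsPrimitiveRoot ζ m →
  ∀ (τK : K →+* K) (τA : A →+* A), (∀ a, τK (algebraMap A K a) = algebraMap A K (τA a)) →
  ∀ ν e g : ℕ, 0 < ν → (∀ a, r (τA a) = r a ^ (ℓ ^ (2 * ν))) → ℓ ^ (2 * ν) = e + m * g →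
  ∀ w : modularFunctionFieldFullC K (M * ℓ) →ₐ[K] modularFunctionFieldFullC K (M * ℓ),
    IsALK K M ℓ w →
  ∀ W : modularFunctionFieldFullC K (M * ℓ),
    RedK r (W : LaurentSeries K) 1 → RedK r ((w W : _) : LaurentSeries K) 1 →
    InvKq K (M * ℓ) m (castS K (Xh M ℓ)) W → InvKq K (M * ℓ) m (castS K (Xh M ℓ))⁻¹ W →
  ∀ v : LaurentSeries K, v ^ m = coeffMap τK (W : LaurentSeries K) / (W : LaurentSeries K) ^ e →
    v ∈ modularFunctionFieldFullC K (M * ℓ)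

end

end Fermat.Agent.SS.GM2
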