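import Fermat.Agent.Crux.G.Main
import Fermat.Agent.Crux.G.Kummer
import Fermat.Agent.Crux.G.Lifts
import Fermat.Agent.SS.GM2.NodalDefs
import Fermat.Agent.SS.G2.NodalMain

/-!
# SS / GM2 : the shape of "G2" which the modular side can feed  (helper13's proposal to helper10)
-/

set_option autoImplicit false

open Polynomial

namespace Fermat.Agent.SS.GM2

open Fermat.Agent.Crux.G

section ChartThm

variable {A : Type*} [CommRing A] [IsDomain A] [IsDiscreteValuationRing A] {π : A}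
variable {E : Type*} [Field E] [Algebra A[X] E] [IsFractionRing A[X] E] [CharZero E]
variable {F : Type*} [Field F] [Algebra A[X] F] [Algebra E F] [IsScalarTower A[X] E F]
  [FiniteDimensional E F]

/-- **G2, chart form.** -/
theorem chartSS (E) [Field E] [Algebra A[X] E] [IsFractionRing A[X] E] [CharZero E]
    [Algebra E F] [IsScalarTower A[X] E F] [FiniteDimensional E F]
    (hπ : Irreducible π) (ε : F) (hε : Nodal π ε) (m : ℕ) (hm : m ≠ 0)
    (W : F) (hW1 : IsPiOL π (W - 1)) (hloc : LocPow π m W) :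
    (∀ c : F, IsIntegral A[X] c → IsPiOL π ((1 - ε) * c) →
      ∃ y : F, IsIntegral A[X] (y ^ m * W) ∧ IsPiOL π (y - c)) ∧
    (∀ c : F, IsIntegral A[X] c → IsPiOL π (ε * c) →
      ∃ y : F, IsIntegral A[X] (y ^ m * W) ∧ IsPiOL π (y - c)) ∧
    (∃ y : F, IsIntegral A[X] (y ^ m * W) ∧ IsPiOL π ((1 - ε) * (y - 1))) :=
  Fermat.Agent.SS.G2.chartSS_aux E hπ ε hε m hm W hW1 hloc

end ChartThm

/-- **G2, engine.**  Same as `Crux.G.GK`, with (H1), (H2) replaced by the explicit lifts
`Y0`, `Yinf`. -/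
theorem engineSS {A E F L : Type*} [CommRing A] [IsDomain A] [IsDiscreteValuationRing A]
    [Field E] [Field F] [Field L] [CharZero E] [Algebra A E]
    [Algebra E F] [FiniteDimensional E F]
    [Algebra E L] [Algebra A L] [IsScalarTower A E L] [FiniteDimensional E L]
    [Algebra F L] [IsScalarTower E F L]
    (π : A) (hπ : Irreducible π) (x : E) (hx : Transcendental A x)
    (hgen : ∀ c : E, ∃ p q : A[X], q ≠ 0 ∧ c * aeval x q = aeval x p)
    (d : ℕ) (hd2 : 2 ≤ d) (hdπ : ¬ π ∣ (d : A))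
    (W : F) (hW : IsOLx π x W) (hW' : IsOLx π x W⁻¹) (hW1 : IsPiOLx π x (W - 1))
    (w : L) (hw : w ^ d = algebraMap F L W) (hdeg : Module.finrank F L = d)
    (hli : LinearIndependent F (fun j : Fin d => w ^ (j : ℕ)))
    (H0 : ∀ z : L, IsIntegral A z → z ∈ Set.range (algebraMap A L))
    (Y0 Yinf : F) (h0 : IntX A x (Y0 ^ d * W)) (hinf : IntX A x⁻¹ (Yinf ^ d * W))
    (h01 : IsPiOLx π x (Y0 - 1)) (hinf1 : IsPiOLx π x (Yinf - 1)) : False :=
  engine_of_lifts π hπ x hx hgen d hd2 hdπ W hW hW' hW1 w hw hdeg hli H0 Y0 Yinf h0 hinf h01 hinf1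

/-- **G2, connectedness of the special fibre of `F` itself.** -/
theorem connSS {A E F : Type*} [CommRing A] [IsDomain A] [IsDiscreteValuationRing A]
    [Field E] [Field F] [CharZero E] [Algebra A E]
    [Algebra E F] [Algebra A F] [IsScalarTower A E F] [FiniteDimensional E F]
    (π : A) (hπ : Irreducible π) (x : E) (hx : Transcendental A x)
    (hgen : ∀ c : E, ∃ p q : A[X], q ≠ 0 ∧ c * aeval x q = aeval x p)
    (H0 : ∀ z : F, IsIntegral A z → z ∈ Set.range (algebraMap A F))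
    (e : F) (he : IsOLx π x e) (hee : IsPiOLx π x (e ^ 2 - e))
    (a b : F) (ha : IntX A x a) (hb : IntX A x⁻¹ b)
    (hae : IsPiOLx π x (a - e)) (hbe : IsPiOLx π x (b - e)) :
    IsPiOLx π x e ∨ IsPiOLx π x (e - 1) :=
  conn_of_lifts π hπ x hx hgen H0 e he hee a b ha hb hae hbe

end Fermat.Agent.SS.GM2
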