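import Fermat.Agent.SS.GM2.RedK
import Fermat.Agent.Crux.GM.NormalK

/-!
# SS / GM2 : normality of the special fibre at level `M` in the charts `x`, `x⁻¹` of a good coordinate

Dictionary between `Crux.GM.normalK_of_goodCoord` and the statement `GR` of `SS/GM2/GR.lean`.
-/

set_option autoImplicit false
set_option linter.unusedSectionVars false

open Polynomial ModularCurve

namespace Fermat.Agent.SS.GM2

open Fermat.Agent.S28 (V J evAt)
open Fermat.Agent.Crux.GM (castS GoodCoord)
open Fermat.Agent.Crux.GM.Normal (homog map_homog eval₂_mul_pow)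
open Fermat.Agent.S24 (Kb)

namespace GRGood

/-- base change of `homog`. -/
theorem coeffMap_homog {R S : Type*} [CommRing R] [CommRing S] [Nontrivial S] (f : R →+* S)
    (t : LaurentSeries R) (P : R[X][X]) (hP : P.Monic) (g h : LaurentSeries R) :
    coeffMap f (homog (evAt t) P g h)
      = homog (evAt (coeffMap f t)) (P.map (mapRingHom f)) (coeffMap f g) (coeffMap f h) := by
  rw [map_homog, Fermat.Agent.S28.Build.coeffMap_comp_evAt, homog, homog, hP.natDegree_map]
  refine Finset.sum_congr rfl fun i _ => ?_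
  rw [coeff_map, RingHom.comp_apply]

/-- lifting monic polynomials along a surjection. -/
theorem exists_lift_poly {A k : Type*} [CommRing A] [CommRing k] (r : A →+* k)
    (hr : Function.Surjective r) (p : k[X][X]) (hp : p.Monic) :
    ∃ P : A[X][X], P.Monic ∧ P.map (mapRingHom r) = p := by
  have h1 : p ∈ lifts (mapRingHom r) := by
    rw [lifts_iff_coeff_lifts]
    intro i
    exact Polynomial.map_surjective _ hr _
  obtain ⟨P, h0, -, hm⟩ := lifts_and_natDegree_eq_and_monic h1 hp
  exact ⟨P, hm, h0⟩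

variable {A K k : Type*} [CommRing A] [IsDomain A] [Field K] [Algebra A K] [IsFractionRing A K]
  [Field k] (r : A →+* k)

theorem evK_castS (th : LaurentSeries ℤ) :
    evK A (castS K th) = (coeffMap (algebraMap A K)).comp (evAt (castS A th)) := by
  refine Polynomial.ringHom_ext (fun a => ?_) ?_
  · simp [evK]
  · simp only [evK, coe_eval₂RingHom, eval₂_X, RingHom.comp_apply, Fermat.Agent.S28.Build.evAt_X]
    rw [Fermat.Agent.Crux.GM.coeffMap_castS]

/-- every element of `F_k(M)` is a quotient of reductions of integral elements of `F_K(M)`. -/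
theorem exists_frac_of_mem (M : ℕ) [NeZero M] (hr : Function.Surjective r)
    {a : LaurentSeries k} (ha : a ∈ modularFunctionFieldFullC k M) :
    ∃ g h : LaurentSeries A, coeffMap (algebraMap A K) g ∈ modularFunctionFieldFullC K M ∧
      coeffMap (algebraMap A K) h ∈ modularFunctionFieldFullC K M ∧ coeffMap r h ≠ 0 ∧
      a * coeffMap r h = coeffMap r g := by
  rw [modularFunctionFieldFullC] at ha
  induction ha using IntermediateField.adjoin_induction with
  | mem y hy =>
    obtain ⟨d, hd, hdN, rfl⟩ := hy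
    refine ⟨qExpand A d (jqModC A), 1, ?_, ?_, ?_, ?_⟩
    · rw [coeffMap_qExpand, coeffMap_jqModC]
      exact jqModCd_mem_full K M hdN
    · rw [map_one]; exact one_mem _
    · rw [map_one]; exact one_ne_zero
    · rw [map_one, mul_one, coeffMap_qExpand, coeffMap_jqModC]
  | algebraMap c =>
    obtain ⟨c', rfl⟩ := hr c
    refine ⟨HahnSeries.C c', 1, ?_, ?_, ?_, ?_⟩
    · rw [Fermat.Agent.S28.Build.coeffMap_C, Fermat.Agent.S28.C_eq_algebraMap]
      exact IntermediateField.algebraMap_mem _ _
    · rw [map_one]; exact one_mem _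
    · rw [map_one]; exact one_ne_zero
    · rw [map_one, mul_one, Fermat.Agent.S28.Build.coeffMap_C, Fermat.Agent.S28.C_eq_algebraMap]
  | add x y _ _ hx hy =>
    obtain ⟨g, h, hg, hh, hne, e⟩ := hx
    obtain ⟨g', h', hg', hh', hne', e'⟩ := hy
    refine ⟨g * h' + g' * h, h * h', ?_, ?_, ?_, ?_⟩
    · rw [map_add, map_mul, map_mul]
      exact add_mem (mul_mem hg hh') (mul_mem hg' hh)
    · rw [map_mul]; exact mul_mem hh hh'
    · rw [map_mul]; exact mul_ne_zero hne hne'
    · rw [map_add, map_mul, map_mul, map_mul, ← e, ← e']; ring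
  | inv x _ hx =>
    obtain ⟨g, h, hg, hh, hne, e⟩ := hx
    by_cases hx0 : x = 0
    · refine ⟨0, 1, ?_, ?_, ?_, ?_⟩
      · rw [map_zero]; exact zero_mem _
      · rw [map_one]; exact one_mem _
      · rw [map_one]; exact one_ne_zero
      · rw [hx0, inv_zero, zero_mul, map_zero]
    · refine ⟨h, g, hh, hg, ?_, ?_⟩
      · rw [← e]; exact mul_ne_zero hx0 hne
      · rw [← e, inv_mul_cancel_left₀ hx0]
  | mul x y _ _ hx hy =>
    obtain ⟨g, h, hg, hh, hne, e⟩ := hx
    obtain ⟨g', h', hg', hh', hne', e'⟩ := hy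
    refine ⟨g * g', h * h', ?_, ?_, ?_, ?_⟩
    · rw [map_mul]; exact mul_mem hg hg'
    · rw [map_mul]; exact mul_mem hh hh'
    · rw [map_mul]; exact mul_ne_zero hne hne'
    · rw [map_mul, map_mul, ← e, ← e']; ring

end GRGood

open GRGood

variable {A K k : Type} [CommRing A] [IsDomain A] [IsDiscreteValuationRing A] [Field K]
  [Algebra A K] [IsFractionRing A K] [Algebra K Kb] [Field k] [PerfectField k] (r : A →+* k)

/-- lifting of integral elements in the chart `th` (`th = x` or `x⁻¹`). -/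
theorem gr_of_goodCoord_th (M : ℕ) [NeZero M] (ℓ : ℕ) (hℓ : ℓ.Prime) (xh : LaurentSeries ℤ)
    (β : ℤ) (n : ℕ) (hx : GoodCoord M ℓ xh β n) (hr : Function.Surjective r) (hrℓ : r ℓ = 0)
    (th : LaurentSeries ℤ) (hth : th = xh ∨ xh * th = 1)
    (a : LaurentSeries k) (ha : a ∈ modularFunctionFieldFullC k M)
    (hint : (evAt (castS k th)).IsIntegralElem a) :
    ∃ c ∈ modularFunctionFieldFullC K M, (evK A (castS K th)).IsIntegralElem c ∧ RedK r c a := by
  obtain ⟨p, hp, hpz⟩ := hint
  obtain ⟨g, h, hg, hh, hne, e⟩ := exists_frac_of_mem (K := K) r M hr ha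
  obtain ⟨P, hP, rfl⟩ := exists_lift_poly r hr p hp
  have e2 : coeffMap r (homog (evAt (castS A th)) P g h) = 0 := by
    rw [coeffMap_homog _ _ _ hP, Fermat.Agent.Crux.GM.coeffMap_castS, ← eval₂_mul_pow _ _ e, hpz,
      zero_mul]
  obtain ⟨g', h', hg', hh', hne', hgh, Q, hQ, hQz⟩ :=
    Fermat.Agent.Crux.GM.normalK_of_goodCoord M ℓ hℓ xh β n hx r hr hrℓ th hth g h hg hh hne P hP e2
  have hio : coeffMap (algebraMap A K) h' ≠ 0 := by
    intro h0
    have : h' = 0 := Fermat.Agent.S28.Build.coeffMap_injective _ (IsFractionRing.injective A K)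
      (by rw [h0, map_zero])
    exact hne' (by rw [this, map_zero])
  refine ⟨coeffMap (algebraMap A K) g' / coeffMap (algebraMap A K) h', div_mem hg' hh',
    ⟨Q, hQ, ?_⟩, g', h', hne', div_mul_cancel₀ _ hio, ?_⟩
  · rw [evK_castS]
    have e3 := eval₂_mul_pow ((coeffMap (algebraMap A K)).comp (evAt (castS A th))) Q
      (div_mul_cancel₀ (coeffMap (algebraMap A K) g') hio)
    rw [← map_homog, hQz, map_zero] at e3
    exact (mul_eq_zero.1 e3).resolve_right (pow_ne_zero _ hio)
  · rw [map_mul, map_mul] at hgh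
    apply mul_right_cancel₀ hne
    calc coeffMap r g' * coeffMap r h = coeffMap r g * coeffMap r h' := hgh
      _ = (a * coeffMap r h) * coeffMap r h' := by rw [e]
      _ = a * coeffMap r h' * coeffMap r h := by ring

/-- the statement `gr_of_goodCoord` of `SS/GM2/GR.lean` (unfolded). -/
theorem gr_of_goodCoord_aux (M : ℕ) [NeZero M] (ℓ : ℕ) (hℓ : ℓ.Prime) (xh : LaurentSeries ℤ)
    (β : ℤ) (n : ℕ) (hx : GoodCoord M ℓ xh β n) (hr : Function.Surjective r) (hrℓ : r ℓ = 0) :
    (∀ a ∈ modularFunctionFieldFullC k M, (evAt (castS k xh)).IsIntegralElem a →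
      ∃ c ∈ modularFunctionFieldFullC K M, (evK A (castS K xh)).IsIntegralElem c ∧ RedK r c a) ∧
    (∀ a ∈ modularFunctionFieldFullC k M, (evAt (castS k xh)⁻¹).IsIntegralElem a →
      ∃ c ∈ modularFunctionFieldFullC K M,
        (evK A (castS K xh)⁻¹).IsIntegralElem c ∧ RedK r c a) := by
  refine ⟨fun a ha hint =>
    gr_of_goodCoord_th r M ℓ hℓ xh β n hx hr hrℓ xh (Or.inl rfl) a ha hint, ?_⟩
  obtain ⟨th, hth⟩ : ∃ th : LaurentSeries ℤ, xh * th = 1 := by
    have hu : IsUnit xh := by
      rw [HahnSeries.isUnit_iff, hx.leading]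
      exact isUnit_one
    exact hu.exists_right_inv
  have h1 : ∀ (R : Type) [Field R], castS R th = (castS R xh)⁻¹ := by
    intro R _
    apply eq_inv_of_mul_eq_one_right
    rw [castS, castS, ← map_mul, hth, map_one]
  intro a ha hint
  rw [← h1 k] at hint
  rw [← h1 K]
  exact gr_of_goodCoord_th r M ℓ hℓ xh β n hx hr hrℓ th (Or.inr hth) a ha hint

end Fermat.Agent.SS.GM2
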